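import Fermat.Agent.FLTSmall.CaseII
import Fermat.Prelude.Def_FLTPrelim_FreyPackage

/-!
# Assembly: a Frey package at a prime `p` for which both cases of FLT are known does not exist
-/

set_option autoImplicit false

namespace Fermat.Agent.FLTSmall

open NumberField

/-- FLT for coprime integer triples at an odd prime `p`, from case I, principality of `ℤ[ζ_p]`
and Kummer's lemma. -/
theorem flt_coprime_of_pid_of_kummer (p : ℕ) [Fact p.Prime] (hp2 : p ≠ 2)
    (hI : ∀ {a b c : ℤ}, a ^ p + b ^ p = c ^ p → IsCoprime a b → (p : ℤ) ∣ a * b * c)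
    (K : Type*) [Field K] [NumberField K] [IsCyclotomicExtension {p} ℚ K]
    (hpid : IsPrincipalIdealRing (𝓞 K))
    (hK : ∀ u : (𝓞 K)ˣ, (∃ n : ℤ, (p : 𝓞 K) ∣ (u : 𝓞 K) - n) → ∃ v : (𝓞 K)ˣ, u = v ^ p)
    (a b c : ℤ) (ha0 : a ≠ 0) (hb0 : b ≠ 0) (hc0 : c ≠ 0) (hcop : IsCoprime a b) :
    a ^ p + b ^ p ≠ c ^ p := fun H =>
  caseII_of_pid_of_kummerLemma p hp2 K hK a b c ha0 hb0 hc0 hcop (hI H hcop) H

/-- A Frey package whose prime is `p` is refuted by FLT for coprime triples at `p`. -/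
theorem no_freyPackage_of_flt_coprime (P : FreyPackage) {p : ℕ} (hp : P.p = p)
    (h : ∀ a b c : ℤ, a ≠ 0 → b ≠ 0 → c ≠ 0 → IsCoprime a b → a ^ p + b ^ p ≠ c ^ p) : False := by
  have H := P.hFLT
  rw [hp] at H
  exact h P.a P.b P.c P.ha0 P.hb0 P.hc0
    ((gcd_isUnit_iff _ _).1 (by rw [P.hgcdab]; exact isUnit_one)) H

end Fermat.Agent.FLTSmall
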