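import Mathlib

/-!
# Kummer's descent (second case of FLT) in a principal cyclotomic ring

Abstract version: `R` is a PID containing a primitive `p`-th root of unity `ζ` such that
`ζ - 1` is prime, every element is congruent to a rational integer modulo `ζ - 1`, and
Kummer's lemma holds.
-/

set_option autoImplicit false

namespace Fermat.Agent.FLTSmall

open Polynomial Finset

section abstract

variable {R : Type*} [CommRing R] [IsDomain R]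
variable {p : ℕ} {ζ : R}

/-- `p` divides `(ζ - 1) ^ (p - 1)`. -/
lemma natCast_dvd_sub_one_pow (hp : p.Prime) (hζ : IsPrimitiveRoot ζ p) :
    (p : R) ∣ (ζ - 1) ^ (p - 1) := by
  have : Fact p.Prime := ⟨hp⟩
  have h1 : (p : R) = ∏ μ ∈ primitiveRoots p R, (1 - μ) := by
    have := congrArg (eval 1) (cyclotomic_eq_prod_X_sub_primitiveRoots hζ)
    rw [eval_one_cyclotomic_prime, eval_prod] at this
    simpa using this
  have hcard : #(primitiveRoots p R) = p - 1 := by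
    rw [hζ.card_primitiveRoots, Nat.totient_prime hp]
  rw [h1, ← hcard, ← Finset.prod_const]
  refine Finset.prod_dvd_prod_of_dvd _ _ fun μ hμ => ?_
  have hμ' : IsPrimitiveRoot μ p := (mem_primitiveRoots hp.pos).1 hμ
  have h1mem : (1 : R) ∈ nthRootsFinset p (1 : R) := by
    rw [mem_nthRootsFinset hp.pos]; simp
  have hμmem : μ ∈ nthRootsFinset p (1 : R) := by
    rw [mem_nthRootsFinset hp.pos]; exact hμ'.pow_eq_one
  have hne : (1 : R) ≠ μ := fun h => hμ'.ne_one hp.one_lt h.symm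
  exact (hζ.nthRootsFinset_pairwise_associated_sub_one_sub_of_prime hp h1mem hμmem hne).symm.dvd

/-- If `x ≡ y mod (ζ - 1)` then `x ^ p ≡ y ^ p mod (ζ - 1) ^ p`. -/
lemma sub_one_pow_dvd_pow_sub_pow (hp : p.Prime) (hζ : IsPrimitiveRoot ζ p) {x y : R}
    (h : ζ - 1 ∣ x - y) : (ζ - 1) ^ p ∣ x ^ p - y ^ p := by
  rw [hζ.pow_sub_pow_eq_prod_sub_mul x y hp.pos]
  conv_lhs => rw [← hζ.card_nthRootsFinset, ← Finset.prod_const]
  refine Finset.prod_dvd_prod_of_dvd _ _ fun μ hμ => ?_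
  have h1mem : (1 : R) ∈ nthRootsFinset p (1 : R) := by
    rw [mem_nthRootsFinset hp.pos]; simp
  have : x - μ * y = (x - y) + (1 - μ) * y := by ring
  rw [this]
  exact dvd_add h (Dvd.dvd.mul_right (hζ.sub_one_dvd_sub hp h1mem hμ) _)

/-- The hypotheses under which Kummer's descent works. -/
structure Setup (R : Type*) [CommRing R] [IsDomain R] (p : ℕ) (ζ : R) : Prop where
  hp : p.Prime
  hodd : Odd p
  hζ : IsPrimitiveRoot ζ p
  prime : Prime (ζ - 1)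
  exists_int : ∀ x : R, ∃ n : ℤ, ζ - 1 ∣ x - n
  kummer : ∀ u : Rˣ, (∃ n : ℤ, (p : R) ∣ (u : R) - n) → ∃ v : Rˣ, u = v ^ p

/-- A solution of the generalised Fermat equation with `λ`-adic valuation of the RHS `m * p`. -/
def IsSol (ζ : R) (p m : ℕ) (a b c : R) (u : Rˣ) : Prop :=
  ¬ ζ - 1 ∣ a ∧ ¬ ζ - 1 ∣ b ∧ ¬ ζ - 1 ∣ c ∧ IsCoprime a b ∧
    a ^ p + b ^ p = u * ((ζ - 1) ^ m * c) ^ p

namespace Setup

variable (S : Setup R p ζ)
include S

lemma one_mem : (1 : R) ∈ nthRootsFinset p (1 : R) := by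
  rw [mem_nthRootsFinset S.hp.pos]; simp

lemma pow_mem (k : ℕ) : ζ ^ k ∈ nthRootsFinset p (1 : R) := by
  rw [mem_nthRootsFinset S.hp.pos, ← pow_mul, mul_comm, pow_mul, S.hζ.pow_eq_one, one_pow]

lemma lam_dvd_p : ζ - 1 ∣ (p : R) := S.hζ.sub_one_dvd_natCast S.hp.one_lt

/-- an integer not divisible by `λ` is prime to `p`. -/
lemma isCoprime_of_not_dvd {n : ℤ} (h : ¬ ζ - 1 ∣ (n : R)) : IsCoprime n (p : ℤ) := by
  rw [isCoprime_comm, Prime.coprime_iff_not_dvd (Nat.prime_iff_prime_int.1 S.hp)]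
  rintro ⟨k, rfl⟩
  apply h
  push_cast
  exact Dvd.dvd.mul_right S.lam_dvd_p _

omit [IsDomain R] S in
/-- `∑ i < k, ζ ^ i ≡ k mod λ`. -/
lemma lam_dvd_geom_sum_sub (k : ℕ) : ζ - 1 ∣ (∑ i ∈ range k, ζ ^ i) - (k : R) := by
  have : (∑ i ∈ range k, ζ ^ i) - (k : R) = ∑ i ∈ range k, (ζ ^ i - 1) := by
    rw [Finset.sum_sub_distrib]; simp
  rw [this]
  exact Finset.dvd_sum fun i _ => by simpa using sub_dvd_pow_sub_pow ζ 1 i

/-- If `λ ∣ a + b` and `λ ∤ b`, some `a + ζ ^ k * b` is divisible by `λ ^ 2`. -/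
lemma exists_sq_dvd {a b : R} (hb : ¬ ζ - 1 ∣ b) (hab : ζ - 1 ∣ a + b) :
    ∃ k : ℕ, (ζ - 1) ^ 2 ∣ a + ζ ^ k * b := by
  obtain ⟨t, ht⟩ := hab
  obtain ⟨nt, hnt⟩ := S.exists_int t
  obtain ⟨nb, hnb⟩ := S.exists_int b
  have hnb' : ¬ ζ - 1 ∣ (nb : R) := fun h => hb (by simpa using dvd_add hnb h)
  obtain ⟨x, y, hxy⟩ := S.isCoprime_of_not_dvd hnb'
  -- x * nb + y * p = 1; we want k ≡ - nt * x mod p
  obtain ⟨k, hk⟩ : ∃ k : ℕ, (p : ℤ) ∣ (k : ℤ) - (- nt * x) := by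
    refine ⟨((- nt * x) % p).toNat, ?_⟩
    rw [Int.toNat_of_nonneg (Int.emod_nonneg _ (by exact_mod_cast S.hp.ne_zero))]
    exact Int.dvd_emod_sub_self
  refine ⟨k, ?_⟩
  have h1 : a + ζ ^ k * b = (ζ - 1) * (t + (∑ i ∈ range k, ζ ^ i) * b) := by
    have := mul_geom_sum ζ k
    linear_combination ht - b * this
  rw [h1, pow_two]
  refine mul_dvd_mul_left _ ?_
  obtain ⟨w, hw⟩ := hk
  have hw' : (k : R) = - nt * x + p * w := by
    have := congrArg (Int.cast : ℤ → R) hw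
    push_cast at this
    linear_combination this
  have hxy' : (x : R) * nb + y * p = 1 := by exact_mod_cast congrArg (Int.cast : ℤ → R) hxy
  obtain ⟨c1, hc1⟩ := lam_dvd_geom_sum_sub (ζ := ζ) k
  obtain ⟨c2, hc2⟩ := hnt
  obtain ⟨c3, hc3⟩ := hnb
  obtain ⟨c4, hc4⟩ := S.lam_dvd_p
  refine ⟨c1 * b + c2 + (k : R) * c3 + c4 * w * nb + nt * y * c4, ?_⟩
  linear_combination b * hc1 + hc2 + (k : R) * hc3 + (nb : R) * hw' + (w * nb + nt * y) * hc4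
    - (nt : R) * hxy'

lemma isUnit_zeta_pow (k : ℕ) : IsUnit (ζ ^ k) :=
  (S.hζ.isUnit S.hp.ne_zero).pow k

lemma lam_dvd_add_of_mem {a b : R} {η₀ η : R} (hη₀ : η₀ ∈ nthRootsFinset p (1 : R))
    (hη : η ∈ nthRootsFinset p (1 : R)) (h : ζ - 1 ∣ a + η₀ * b) : ζ - 1 ∣ a + η * b := by
  have : a + η * b = (a + η₀ * b) + (η - η₀) * b := by ring
  rw [this]
  exact dvd_add h (Dvd.dvd.mul_right (S.hζ.sub_one_dvd_sub S.hp hη hη₀) _)

/-- Normalisation: we may assume `λ ^ 2 ∣ a + b`. -/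
lemma exists_normalized {m : ℕ} (hm : 1 ≤ m) {a b c : R} {u : Rˣ} (h : IsSol ζ p m a b c u) :
    ∃ b', IsSol ζ p m a b' c u ∧ (ζ - 1) ^ 2 ∣ a + b' := by
  obtain ⟨ha, hb, hc, hcop, H⟩ := h
  have h1 : ζ - 1 ∣ a ^ p + b ^ p := by
    rw [H]
    refine Dvd.dvd.mul_left (dvd_pow (Dvd.dvd.mul_right (dvd_pow_self _ (by omega)) _)
      S.hp.ne_zero) _
  rw [S.hζ.pow_add_pow_eq_prod_add_mul a b S.hodd] at h1
  obtain ⟨η₀, hη₀, h2⟩ := S.prime.exists_mem_finset_dvd h1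
  have h3 : ζ - 1 ∣ a + b := by
    simpa using S.lam_dvd_add_of_mem hη₀ S.one_mem h2
  obtain ⟨k, hk⟩ := S.exists_sq_dvd hb h3
  refine ⟨ζ ^ k * b, ⟨ha, ?_, hc, ?_, ?_⟩, hk⟩
  · rwa [(S.isUnit_zeta_pow k).dvd_mul_left]
  · exact (isCoprime_mul_unit_left_right (S.isUnit_zeta_pow k) _ _).2 hcop
  · rw [mul_pow, ← pow_mul, mul_comm k, pow_mul, S.hζ.pow_eq_one, one_pow, one_mul, H]


lemma not_sq_dvd_of_ne_one {a b η : R} (hb : ¬ ζ - 1 ∣ b) (hab : (ζ - 1) ^ 2 ∣ a + b)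
    (hη : η ∈ nthRootsFinset p (1 : R)) (hη1 : η ≠ 1) : ¬ (ζ - 1) ^ 2 ∣ a + η * b := by
  intro h
  have h1 : (ζ - 1) ^ 2 ∣ (η - 1) * b := by
    have : (η - 1) * b = (a + η * b) - (a + b) := by ring
    rw [this]; exact dvd_sub h hab
  obtain ⟨v, hv⟩ := S.hζ.nthRootsFinset_pairwise_associated_sub_one_sub_of_prime S.hp hη
    S.one_mem hη1
  rw [← hv, pow_two, mul_assoc, mul_dvd_mul_iff_left S.prime.ne_zero] at h1
  exact hb ((Units.dvd_mul_left).1 h1)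

/-- The structure of the factors `a + η * b`. -/
lemma exists_factors {m : ℕ} (hm : 1 ≤ m) {a b c : R} {u : Rˣ}
    (h : IsSol ζ p m a b c u) (hab : (ζ - 1) ^ 2 ∣ a + b) :
    2 ≤ m ∧ ∃ z : R → R, (a + b = (ζ - 1) ^ ((m - 1) * p + 1) * z 1) ∧
      (∀ η ∈ nthRootsFinset p (1 : R), η ≠ 1 → a + η * b = (ζ - 1) * z η) ∧
      (∀ η ∈ nthRootsFinset p (1 : R), ¬ ζ - 1 ∣ z η) ∧
      ∏ η ∈ nthRootsFinset p (1 : R), z η = u * c ^ p := by
  classical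
  obtain ⟨ha, hb, hc, hcop, H⟩ := h
  have hlam0 : ζ - 1 ≠ 0 := S.prime.ne_zero
  have h1 : ∀ η ∈ nthRootsFinset p (1 : R), ζ - 1 ∣ a + η * b := fun η hη =>
    S.lam_dvd_add_of_mem S.one_mem hη (by simpa using (dvd_pow_self _ two_ne_zero).trans hab)
  choose! y hy using h1
  have hy' : ∀ η ∈ nthRootsFinset p (1 : R), η ≠ 1 → ¬ ζ - 1 ∣ y η := by
    intro η hη hη1 hdvd
    apply S.not_sq_dvd_of_ne_one hb hab hη hη1
    rw [hy η hη, pow_two]
    exact mul_dvd_mul_left _ hdvd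
  set Y := ∏ η ∈ (nthRootsFinset p (1 : R)).erase 1, y η with hY
  have hYlam : ¬ ζ - 1 ∣ Y := by
    intro hdvd
    obtain ⟨η, hη, hdvd'⟩ := S.prime.exists_mem_finset_dvd hdvd
    exact hy' η (Finset.mem_of_mem_erase hη) (Finset.ne_of_mem_erase hη) hdvd'
  have hprod : (a + b) * ((ζ - 1) ^ (p - 1) * Y) = u * ((ζ - 1) ^ m * c) ^ p := by
    rw [← H, S.hζ.pow_add_pow_eq_prod_add_mul a b S.hodd,
      ← Finset.mul_prod_erase _ _ S.one_mem, one_mul]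
    congr 1
    have hcard : p - 1 = #((nthRootsFinset p (1 : R)).erase 1) := by
      rw [Finset.card_erase_of_mem S.one_mem, S.hζ.card_nthRootsFinset]
    rw [hY, hcard, ← Finset.prod_const, ← Finset.prod_mul_distrib]
    exact Finset.prod_congr rfl fun η hη => (hy η (Finset.mem_of_mem_erase hη)).symm
  have hexp : m * p = (p - 1) + ((m - 1) * p + 1) := by
    obtain ⟨m', rfl⟩ : ∃ m', m = m' + 1 := ⟨m - 1, by omega⟩
    have := S.hp.pos
    simp only [Nat.add_sub_cancel, add_mul, one_mul]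
    omega
  have hprod' : (a + b) * Y = (ζ - 1) ^ ((m - 1) * p + 1) * (u * c ^ p) := by
    apply mul_left_cancel₀ (pow_ne_zero (p - 1) hlam0)
    rw [mul_pow, ← pow_mul, hexp, pow_add] at hprod
    linear_combination hprod
  have hdvd : (ζ - 1) ^ ((m - 1) * p + 1) ∣ a + b :=
    S.prime.pow_dvd_of_dvd_mul_right _ hYlam ⟨_, hprod'⟩
  obtain ⟨x, hx⟩ := hdvd
  have hxY : x * Y = u * c ^ p := by
    apply mul_left_cancel₀ (pow_ne_zero ((m - 1) * p + 1) hlam0)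
    rw [← hprod', hx]; ring
  have hxlam : ¬ ζ - 1 ∣ x := by
    intro hdvd
    have : ζ - 1 ∣ (u : R) * c ^ p := hxY ▸ Dvd.dvd.mul_right hdvd _
    rw [Units.dvd_mul_left] at this
    exact hc (S.prime.dvd_of_dvd_pow this)
  refine ⟨?_, fun η => if η = 1 then x else y η, by simpa using hx, ?_, ?_, ?_⟩
  · by_contra hm2
    have hm1 : m = 1 := by omega
    subst hm1
    rw [hx] at hab
    simp only [Nat.sub_self, zero_mul, zero_add, pow_one, pow_two] at hab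
    exact hxlam ((mul_dvd_mul_iff_left hlam0).1 hab)
  · intro η hη hη1
    simp only [hη1, if_false]
    exact hy η hη
  · intro η hη
    by_cases hη1 : η = 1
    · simpa [hη1] using hxlam
    · simpa [hη1] using hy' η hη hη1
  · rw [← Finset.mul_prod_erase _ _ S.one_mem, ← hxY, hY]
    simp only [if_true]
    congr 1
    exact Finset.prod_congr rfl fun η hη => by simp [Finset.ne_of_mem_erase hη]


/-- Two distinct factors only have `λ` as a common prime divisor. -/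
lemma isCoprime_factors [IsPrincipalIdealRing R] {a b η₁ η₂ z₁ z₂ : R} (hcop : IsCoprime a b)
    (hη₁ : η₁ ∈ nthRootsFinset p (1 : R)) (hη₂ : η₂ ∈ nthRootsFinset p (1 : R)) (hne : η₁ ≠ η₂)
    (hz₁ : z₁ ∣ a + η₁ * b) (hz₂ : z₂ ∣ a + η₂ * b) (h₁ : ¬ ζ - 1 ∣ z₁) (_h₂ : ¬ ζ - 1 ∣ z₂) :
    IsCoprime z₁ z₂ := by
  refine isCoprime_of_prime_dvd (fun h => h₁ (by simp [h.1])) fun q hq hq₁ hq₂ => ?_
  have hd₁ := hq₁.trans hz₁
  have hd₂ := hq₂.trans hz₂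
  obtain ⟨v, hv⟩ := S.hζ.nthRootsFinset_pairwise_associated_sub_one_sub_of_prime S.hp hη₁ hη₂ hne
  have hb : q ∣ (ζ - 1) * b := by
    have : (ζ - 1) * b = ((a + η₁ * b) - (a + η₂ * b)) * (v⁻¹ : Rˣ) := by
      have : (a + η₁ * b) - (a + η₂ * b) = (ζ - 1) * v * b := by rw [hv]; ring
      rw [this]
      have hvv : (v : R) * (v⁻¹ : Rˣ) = 1 := by simp
      linear_combination (-(ζ - 1) * b) * hvv
    rw [this]
    exact Dvd.dvd.mul_right (dvd_sub hd₁ hd₂) _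
  have ha : q ∣ (ζ - 1) * a := by
    have : (ζ - 1) * a = (η₁ * (a + η₂ * b) - η₂ * (a + η₁ * b)) * (v⁻¹ : Rˣ) := by
      have : η₁ * (a + η₂ * b) - η₂ * (a + η₁ * b) = (ζ - 1) * v * a := by rw [hv]; ring
      rw [this]
      have hvv : (v : R) * (v⁻¹ : Rˣ) = 1 := by simp
      linear_combination (-(ζ - 1) * a) * hvv
    rw [this]
    exact Dvd.dvd.mul_right (dvd_sub (Dvd.dvd.mul_left hd₂ _) (Dvd.dvd.mul_left hd₁ _)) _
  rcases hq.dvd_or_dvd hb with h | h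
  · exact h₁ (((hq.associated_of_dvd S.prime h).symm.dvd).trans hq₁)
  · rcases hq.dvd_or_dvd ha with h' | h'
    · exact h₁ (((hq.associated_of_dvd S.prime h').symm.dvd).trans hq₁)
    · exact hq.not_isUnit (hcop.isUnit_of_dvd' h' h)

omit S in
/-- Each factor is associated to a `p`-th power. -/
lemma exists_associated_pow [IsPrincipalIdealRing R] {c : R} {u : Rˣ} {z : R → R}
    (hcop : ∀ η₁ ∈ nthRootsFinset p (1 : R), ∀ η₂ ∈ nthRootsFinset p (1 : R), η₁ ≠ η₂ →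
      IsCoprime (z η₁) (z η₂))
    (hprod : ∏ η ∈ nthRootsFinset p (1 : R), z η = u * c ^ p)
    {η : R} (hη : η ∈ nthRootsFinset p (1 : R)) : ∃ ρ, Associated (ρ ^ p) (z η) := by
  classical
  have h1 : IsCoprime (z η) (∏ η' ∈ (nthRootsFinset p (1 : R)).erase η, z η') :=
    IsCoprime.prod_right fun η' hη' =>
      hcop η hη η' (Finset.mem_of_mem_erase hη') (Finset.ne_of_mem_erase hη').symm
  refine exists_associated_pow_of_associated_pow_mul (c := c) h1 ?_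
  rw [Finset.mul_prod_erase _ _ hη, hprod]
  exact ⟨u, by ring⟩


lemma three_le : 3 ≤ p := by
  have h2 := S.hp.two_le
  have : p ≠ 2 := fun h => by
    have := S.hodd
    rw [h] at this
    exact absurd this (by decide)
  omega

/-- A unit `η` with `ρ₂ ^ p + η * ρ₁ ^ p ≡ 0 mod λ ^ p` (`λ ∤ ρ₁`) is congruent to an integer
modulo `p`. -/
lemma exists_int_dvd_sub {ρ₁ ρ₂ η : R} (h₁ : ¬ ζ - 1 ∣ ρ₁)
    (h : (ζ - 1) ^ p ∣ ρ₂ ^ p + η * ρ₁ ^ p) : ∃ n : ℤ, (p : R) ∣ η - n := by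
  obtain ⟨n₁, hn₁⟩ := S.exists_int ρ₁
  obtain ⟨n₂, hn₂⟩ := S.exists_int ρ₂
  have hn₁' : ¬ ζ - 1 ∣ (n₁ : R) := fun h' => h₁ (by simpa using dvd_add hn₁ h')
  have hp1 : (p : R) ∣ (ζ - 1) ^ p :=
    (natCast_dvd_sub_one_pow S.hp S.hζ).trans (pow_dvd_pow _ (Nat.sub_le _ _))
  have e₁ := hp1.trans (sub_one_pow_dvd_pow_sub_pow S.hp S.hζ hn₁)
  have e₂ := hp1.trans (sub_one_pow_dvd_pow_sub_pow S.hp S.hζ hn₂)
  have e₃ := hp1.trans h
  obtain ⟨x, y, hxy⟩ := (S.isCoprime_of_not_dvd hn₁').pow_left (m := p)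
  have hxy' : (x : R) * (n₁ : R) ^ p + y * p = 1 := by
    exact_mod_cast congrArg (Int.cast : ℤ → R) hxy
  obtain ⟨c₁, hc₁⟩ := e₁
  obtain ⟨c₂, hc₂⟩ := e₂
  obtain ⟨c₃, hc₃⟩ := e₃
  refine ⟨- x * n₂ ^ p, x * (c₃ - c₂ - η * c₁) + η * y, ?_⟩
  push_cast
  linear_combination (x : R) * hc₃ - (x : R) * hc₂ - (x : R) * η * hc₁ - η * hxy'

/-- **Kummer's descent.** -/
lemma descent [IsPrincipalIdealRing R] {m : ℕ} (hm : 1 ≤ m) {a b c : R} {u : Rˣ}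
    (h : IsSol ζ p m a b c u) :
    2 ≤ m ∧ ∃ (a' b' c' : R) (u' : Rˣ), IsSol ζ p (m - 1) a' b' c' u' := by
  obtain ⟨b', h', hab⟩ := S.exists_normalized hm h
  obtain ⟨hm2, z, hz1, hz, hzlam, hprod⟩ := S.exists_factors hm h' hab
  refine ⟨hm2, ?_⟩
  obtain ⟨-, -, -, hcopab, -⟩ := h'
  have hp3 := S.three_le
  have hlam0 : ζ - 1 ≠ 0 := S.prime.ne_zero
  have hzdvd : ∀ η ∈ nthRootsFinset p (1 : R), z η ∣ a + η * b' := by
    intro η hη
    by_cases hη1 : η = 1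
    · subst hη1
      rw [one_mul, hz1]
      exact Dvd.intro_left _ rfl
    · rw [hz η hη hη1]
      exact Dvd.intro_left _ rfl
  have hcop : ∀ η₁ ∈ nthRootsFinset p (1 : R), ∀ η₂ ∈ nthRootsFinset p (1 : R), η₁ ≠ η₂ →
      IsCoprime (z η₁) (z η₂) := fun η₁ hη₁ η₂ hη₂ hne =>
    S.isCoprime_factors hcopab hη₁ hη₂ hne (hzdvd η₁ hη₁) (hzdvd η₂ hη₂) (hzlam η₁ hη₁)
      (hzlam η₂ hη₂)
  have hmem1 : ζ ∈ nthRootsFinset p (1 : R) := by simpa using S.pow_mem 1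
  have hmem2 : ζ ^ 2 ∈ nthRootsFinset p (1 : R) := S.pow_mem 2
  have hζ1 : ζ ≠ 1 := S.hζ.ne_one S.hp.one_lt
  have hζ2 : ζ ^ 2 ≠ 1 := S.hζ.pow_ne_one_of_pos_of_lt two_ne_zero (by omega)
  have hζ0 : ζ ≠ 0 := S.hζ.ne_zero S.hp.ne_zero
  have hζ21 : ζ ^ 2 ≠ ζ := by
    intro h
    apply hζ1
    apply mul_left_cancel₀ hζ0
    rw [mul_one, ← pow_two, h]
  obtain ⟨ρ₀, ε₀, hρ₀⟩ := exists_associated_pow hcop hprod S.one_mem
  obtain ⟨ρ₁, ε₁, hρ₁⟩ := exists_associated_pow hcop hprod hmem1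
  obtain ⟨ρ₂, ε₂, hρ₂⟩ := exists_associated_pow hcop hprod hmem2
  have hlamρ₀ : ¬ ζ - 1 ∣ ρ₀ := fun h => hzlam 1 S.one_mem
    (hρ₀ ▸ Dvd.dvd.mul_right (dvd_pow h S.hp.ne_zero) _)
  have hlamρ₁ : ¬ ζ - 1 ∣ ρ₁ := fun h => hzlam ζ hmem1
    (hρ₁ ▸ Dvd.dvd.mul_right (dvd_pow h S.hp.ne_zero) _)
  have hlamρ₂ : ¬ ζ - 1 ∣ ρ₂ := fun h => hzlam (ζ ^ 2) hmem2
    (hρ₂ ▸ Dvd.dvd.mul_right (dvd_pow h S.hp.ne_zero) _)
  -- the linear relation
  have hrel : z (ζ ^ 2) - (1 + ζ) * z ζ + ζ * (ζ - 1) ^ ((m - 1) * p) * z 1 = 0 := by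
    apply mul_left_cancel₀ hlam0
    have e1 := hz ζ hmem1 hζ1
    have e2 := hz (ζ ^ 2) hmem2 hζ2
    rw [pow_succ] at hz1
    linear_combination (-1 : R) * e2 + (1 + ζ) * e1 - ζ * hz1
  -- units
  obtain ⟨w, hw⟩ : ∃ w : Rˣ, (w : R) = 1 + ζ := by
    have := S.hζ.geom_sum_isUnit S.hp.two_le (j := 2)
      ((Nat.coprime_primes Nat.prime_two S.hp).2 (by omega))
    obtain ⟨w, hw⟩ := this
    exact ⟨w, by rw [hw]; simp [Finset.sum_range_succ]⟩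
  obtain ⟨ζu, hζu⟩ : ∃ w : Rˣ, (w : R) = ζ := S.hζ.isUnit S.hp.ne_zero
  set ηK : Rˣ := - w * ε₁ * ε₂⁻¹ with hηK
  set u' : Rˣ := - ζu * ε₀ * ε₂⁻¹ with hu'
  have hε₂ : (ε₂ : R) * (ε₂⁻¹ : Rˣ) = 1 := by simp
  have hmain : ρ₂ ^ p + ηK * ρ₁ ^ p = u' * ((ζ - 1) ^ (m - 1) * ρ₀) ^ p := by
    rw [← hρ₀, ← hρ₁, ← hρ₂] at hrel
    simp only [hηK, hu', Units.val_mul, Units.val_neg, hw, hζu]
    rw [mul_pow, ← pow_mul]
    linear_combination ((ε₂⁻¹ : Rˣ) : R) * hrel - ρ₂ ^ p * hε₂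
  have hK : ∃ n : ℤ, (p : R) ∣ (ηK : R) - n := by
    apply S.exists_int_dvd_sub hlamρ₁ (ρ₂ := ρ₂)
    rw [hmain, mul_pow, ← pow_mul]
    refine Dvd.dvd.mul_left (Dvd.dvd.mul_right (pow_dvd_pow _ ?_) _) _
    exact Nat.le_mul_of_pos_left _ (by omega)
  obtain ⟨v, hv⟩ := S.kummer ηK hK
  refine ⟨ρ₂, v * ρ₁, ρ₀, u', hlamρ₂, ?_, hlamρ₀, ?_, ?_⟩
  · rwa [Units.dvd_mul_left]
  · rw [isCoprime_mul_unit_left_right v.isUnit,
      ← IsCoprime.pow_iff (m := p) (n := p) S.hp.pos S.hp.pos,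
      ← isCoprime_mul_unit_right_left ε₂.isUnit, ← isCoprime_mul_unit_right_right ε₁.isUnit,
      hρ₁, hρ₂]
    exact hcop _ hmem2 _ hmem1 hζ21
  · rw [mul_pow, ← hmain, hv]
    push_cast
    ring

/-- The generalised Fermat equation has no solution in the second case. -/
theorem no_sol [IsPrincipalIdealRing R] (m : ℕ) (hm : 1 ≤ m) (a b c : R) (u : Rˣ) :
    ¬ IsSol ζ p m a b c u := by
  induction m generalizing a b c u with
  | zero => omega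
  | succ m ih =>
    intro h
    obtain ⟨hm2, a', b', c', u', h'⟩ := S.descent hm h
    exact ih (by omega) a' b' c' u' h'


/-- The generalised Fermat equation `a ^ p + b ^ p = u * c ^ p` has no solution with
`λ ∤ a`, `λ ∤ b`, `λ ∣ c`, `c ≠ 0`, `a`, `b` coprime. -/
theorem no_sol' [IsPrincipalIdealRing R] (a b c : R) (u : Rˣ) (ha : ¬ ζ - 1 ∣ a)
    (hb : ¬ ζ - 1 ∣ b) (hc0 : c ≠ 0) (hc : ζ - 1 ∣ c) (hcop : IsCoprime a b) :
    a ^ p + b ^ p ≠ u * c ^ p := by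
  intro H
  obtain ⟨m, c', hc', rfl⟩ := WfDvdMonoid.max_power_factor hc0 S.prime.irreducible
  have hm : 1 ≤ m := by
    by_contra hm
    have : m = 0 := by omega
    subst this
    simp only [pow_zero, one_mul] at hc
    exact hc' hc
  exact S.no_sol m hm a b c' u ⟨ha, hb, hc', hcop, H⟩

lemma not_lam_dvd_intCast {n : ℤ} (h : ¬ (p : ℤ) ∣ n) : ¬ ζ - 1 ∣ (n : R) := by
  intro hdvd
  have hcop : IsCoprime (p : ℤ) n :=
    (Prime.coprime_iff_not_dvd (Nat.prime_iff_prime_int.1 S.hp)).2 h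
  obtain ⟨x, y, hxy⟩ := hcop
  have hxy' : (x : R) * p + y * n = 1 := by exact_mod_cast congrArg (Int.cast : ℤ → R) hxy
  apply S.prime.not_isUnit
  apply isUnit_of_dvd_one
  have := dvd_add (Dvd.dvd.mul_left S.lam_dvd_p (x : R)) (Dvd.dvd.mul_left hdvd (y : R))
  rwa [hxy'] at this

/-- Second case of Fermat's Last Theorem over `ℤ`, with `p ∣ c`. -/
theorem caseII_int [IsPrincipalIdealRing R] [CharZero R] (a b c : ℤ) (hc0 : c ≠ 0)
    (ha : ¬ (p : ℤ) ∣ a) (hb : ¬ (p : ℤ) ∣ b) (hc : (p : ℤ) ∣ c) (hcop : IsCoprime a b) :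
    a ^ p + b ^ p ≠ c ^ p := by
  intro H
  refine S.no_sol' (a : R) (b : R) (c : R) 1 (S.not_lam_dvd_intCast ha) (S.not_lam_dvd_intCast hb)
    (by exact_mod_cast hc0) ?_ (IsCoprime.intCast hcop) ?_
  · obtain ⟨k, rfl⟩ := hc
    push_cast
    exact Dvd.dvd.mul_right S.lam_dvd_p _
  · simpa using mod_cast congrArg (Int.cast : ℤ → R) H

/-- Second case of Fermat's Last Theorem over `ℤ`. -/
theorem caseII_int' [IsPrincipalIdealRing R] [CharZero R] (a b c : ℤ) (ha0 : a ≠ 0) (hb0 : b ≠ 0)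
    (hc0 : c ≠ 0) (hcop : IsCoprime a b) (hdvd : (p : ℤ) ∣ a * b * c) :
    a ^ p + b ^ p ≠ c ^ p := by
  intro H
  have hpp : Prime (p : ℤ) := Nat.prime_iff_prime_int.1 S.hp
  have hp0 := S.hp.ne_zero
  have hnab : ¬ ((p : ℤ) ∣ a ∧ (p : ℤ) ∣ b) := fun h =>
    hpp.not_isUnit (hcop.isUnit_of_dvd' h.1 h.2)
  have hac : (p : ℤ) ∣ a → (p : ℤ) ∣ c → (p : ℤ) ∣ b := fun h1 h2 => by
    apply hpp.dvd_of_dvd_pow (n := p)
    have : b ^ p = c ^ p - a ^ p := by linear_combination H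
    rw [this]
    exact dvd_sub (dvd_pow h2 hp0) (dvd_pow h1 hp0)
  have hbc : (p : ℤ) ∣ b → (p : ℤ) ∣ c → (p : ℤ) ∣ a := fun h1 h2 => by
    apply hpp.dvd_of_dvd_pow (n := p)
    have : a ^ p = c ^ p - b ^ p := by linear_combination H
    rw [this]
    exact dvd_sub (dvd_pow h2 hp0) (dvd_pow h1 hp0)
  -- coprimality of `c` with `a` and `b`
  have hcopca : IsCoprime c a := by
    refine isCoprime_of_prime_dvd (fun h => hc0 h.1) fun q hq hqc hqa => ?_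
    have : q ∣ b := by
      apply hq.dvd_of_dvd_pow (n := p)
      have : b ^ p = c ^ p - a ^ p := by linear_combination H
      rw [this]
      exact dvd_sub (dvd_pow hqc hp0) (dvd_pow hqa hp0)
    exact hq.not_isUnit (hcop.isUnit_of_dvd' hqa this)
  have hcopcb : IsCoprime c b := by
    refine isCoprime_of_prime_dvd (fun h => hc0 h.1) fun q hq hqc hqb => ?_
    have : q ∣ a := by
      apply hq.dvd_of_dvd_pow (n := p)
      have : a ^ p = c ^ p - b ^ p := by linear_combination H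
      rw [this]
      exact dvd_sub (dvd_pow hqc hp0) (dvd_pow hqb hp0)
    exact hq.not_isUnit (hcop.isUnit_of_dvd' this hqb)
  rcases hpp.dvd_or_dvd hdvd with h | h
  · rcases hpp.dvd_or_dvd h with h | h
    · -- `p ∣ a`: `c ^ p + (-b) ^ p = a ^ p`
      have hb : ¬ (p : ℤ) ∣ b := fun hb => hnab ⟨h, hb⟩
      have hc : ¬ (p : ℤ) ∣ c := fun hc => hb (hac h hc)
      refine S.caseII_int c (-b) a ha0 hc (by rwa [dvd_neg]) h hcopcb.neg_right ?_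
      rw [S.hodd.neg_pow]
      linear_combination -H
    · -- `p ∣ b`: `c ^ p + (-a) ^ p = b ^ p`
      have ha : ¬ (p : ℤ) ∣ a := fun ha => hnab ⟨ha, h⟩
      have hc : ¬ (p : ℤ) ∣ c := fun hc => ha (hbc h hc)
      refine S.caseII_int c (-a) b hb0 hc (by rwa [dvd_neg]) h hcopca.neg_right ?_
      rw [S.hodd.neg_pow]
      linear_combination -H
  · have ha : ¬ (p : ℤ) ∣ a := fun ha => hnab ⟨ha, hac ha h⟩
    have hb : ¬ (p : ℤ) ∣ b := fun hb => hnab ⟨hbc hb h, hb⟩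
    exact S.caseII_int a b c hc0 ha hb h hcop H


end Setup

end abstract

section cyclotomic

open NumberField

/-- **Kummer's lemma** for the prime `p` and the cyclotomic field `K`, as a proposition. -/
def KummerLemma (p : ℕ) (K : Type*) [Field K] : Prop :=
  ∀ u : (𝓞 K)ˣ, (∃ n : ℤ, (p : 𝓞 K) ∣ (u : 𝓞 K) - n) → ∃ v : (𝓞 K)ˣ, u = v ^ p

variable {p : ℕ} [hp : Fact p.Prime] {K : Type*} [Field K] [NumberField K]
  [IsCyclotomicExtension {p} ℚ K] {ζ : K}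

lemma exists_int_sub_one_dvd_sub (hζ : IsPrimitiveRoot ζ p) (x : 𝓞 K) :
    ∃ n : ℤ, hζ.toInteger - 1 ∣ x - n := by
  obtain ⟨f, hf⟩ := hζ.integralPowerBasis.exists_eq_aeval' x
  rw [hζ.integralPowerBasis_gen] at hf
  refine ⟨f.eval 1, ?_⟩
  have h1 : ((f.eval 1 : ℤ) : 𝓞 K) = aeval (1 : 𝓞 K) f := by
    rw [aeval_def, eval₂_at_one]; simp
  rw [hf, h1, aeval_def, aeval_def, eval₂_eq_eval_map, eval₂_eq_eval_map]
  exact sub_dvd_eval_sub _ _ _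

theorem setup_of_cyclotomic (hp2 : p ≠ 2) (hζ : IsPrimitiveRoot ζ p) (hK : KummerLemma p K) :
    Setup (𝓞 K) p hζ.toInteger where
  hp := hp.out
  hodd := hp.out.odd_of_ne_two hp2
  hζ := hζ.toInteger_isPrimitiveRoot
  prime := hζ.zeta_sub_one_prime'
  exists_int := exists_int_sub_one_dvd_sub hζ
  kummer := hK

/-- The second case of Fermat's Last Theorem for an odd prime `p` such that `ℤ[ζ_p]` is principal
and Kummer's lemma holds. -/
theorem caseII_of_pid_of_kummerLemma (p : ℕ) [Fact p.Prime] (hp2 : p ≠ 2)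
    (K : Type*) [Field K] [NumberField K] [IsCyclotomicExtension {p} ℚ K]
    [IsPrincipalIdealRing (𝓞 K)] (hK : KummerLemma p K)
    (a b c : ℤ) (ha0 : a ≠ 0) (hb0 : b ≠ 0) (hc0 : c ≠ 0) (hcop : IsCoprime a b)
    (hdvd : (p : ℤ) ∣ a * b * c) : a ^ p + b ^ p ≠ c ^ p :=
  (setup_of_cyclotomic hp2 (IsCyclotomicExtension.zeta_spec p ℚ K) hK).caseII_int' a b c ha0 hb0 hc0
    hcop hdvd

end cyclotomic

end Fermat.Agent.FLTSmall
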