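-- Kummer's lemma for small regular primes, via Dirichlet's unit theorem and a logarithmic
-- derivative on `𝓞 K / p`.
import Mathlib

set_option autoImplicit false

namespace Fermat.Agent.FLTSmall

open Finset

section GroupTheory

variable {E : Type*} [CommGroup E] {p : ℕ} [Fact p.Prime]
  {V : Type*} [AddCommGroup V] [Module (ZMod p) V]

/-- If a commutative group `E` is generated by a family indexed by `ι`, and an additive character
`ψ` into an `𝔽_p`-vector space takes at least `card ι` linearly independent values, then the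
kernel of `ψ` consists of `p`-th powers. -/
theorem exists_pow_eq_of_map_eq_zero {ι κ : Type*} [Fintype ι] [Fintype κ]
    (hcard : Fintype.card ι ≤ Fintype.card κ)
    (g : ι → E) (hg : ∀ x : E, ∃ e : ι → ℤ, x = ∏ i, g i ^ e i)
    (ψ : E → V) (hψ : ∀ x y, ψ (x * y) = ψ x + ψ y)
    (w : κ → E) (hw : LinearIndependent (ZMod p) (fun i => ψ (w i)))
    (u : E) (hu : ψ u = 0) : ∃ v : E, u = v ^ p := by
  classical
  -- package `ψ` as a monoid hom
  let Ψ : E →* Multiplicative V :=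
    { toFun := fun x => Multiplicative.ofAdd (ψ x)
      map_one' := by
        have h := hψ 1 1
        rw [mul_one] at h
        have h0 : ψ 1 = 0 := by simpa using h
        simp [h0]
      map_mul' := fun x y => by simp [hψ] }
  have hΨ : ∀ x, Multiplicative.toAdd (Ψ x) = ψ x := fun x => rfl
  have hzpow : ∀ (x : E) (n : ℤ), ψ (x ^ n) = n • ψ x := by
    intro x n
    rw [← hΨ, map_zpow, toAdd_zpow, hΨ]
  have hprod : ∀ e : ι → ℤ, ψ (∏ i, g i ^ e i) = ∑ i, (e i : ZMod p) • ψ (g i) := by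
    intro e
    rw [← hΨ, map_prod, toAdd_prod]
    refine Finset.sum_congr rfl fun i _ => ?_
    rw [hΨ, hzpow, Int.cast_smul_eq_zsmul]
  let L : (ι → ZMod p) →ₗ[ZMod p] V := Fintype.linearCombination (ZMod p) (fun i => ψ (g i))
  have hL : ∀ e : ι → ℤ, L (fun i => (e i : ZMod p)) = ψ (∏ i, g i ^ e i) := by
    intro e
    rw [hprod, Fintype.linearCombination_apply]
  have hrange : ∀ x : E, ψ x ∈ LinearMap.range L := by
    intro x
    obtain ⟨e, rfl⟩ := hg x
    exact ⟨_, hL e⟩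
  -- rank computation
  have hrk : Fintype.card κ ≤ Module.finrank (ZMod p) (LinearMap.range L) := by
    let w' : κ → LinearMap.range L := fun i => ⟨ψ (w i), hrange _⟩
    have hw' : LinearIndependent (ZMod p) w' := by
      apply LinearIndependent.of_comp (LinearMap.range L).subtype
      exact hw
    exact hw'.fintype_card_le_finrank
  have hker : LinearMap.ker L = ⊥ := by
    have h1 := LinearMap.finrank_range_add_finrank_ker L
    rw [Module.finrank_fintype_fun_eq_card] at h1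
    have h2 : Module.finrank (ZMod p) (LinearMap.ker L) = 0 := by omega
    exact Submodule.finrank_eq_zero.1 h2
  obtain ⟨e, rfl⟩ := hg u
  have h0 : (fun i => (e i : ZMod p)) = 0 := by
    have : (fun i => (e i : ZMod p)) ∈ LinearMap.ker L := by
      rw [LinearMap.mem_ker, hL, hu]
    rw [hker] at this
    simpa using this
  have hdvd : ∀ i, (p : ℤ) ∣ e i := by
    intro i
    have := congrFun h0 i
    exact (ZMod.intCast_zmod_eq_zero_iff_dvd _ _).1 this
  choose e' he' using hdvd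
  refine ⟨∏ i, g i ^ e' i, ?_⟩
  rw [← Finset.prod_pow]
  refine Finset.prod_congr rfl fun i _ => ?_
  rw [he' i, mul_comm, zpow_mul, zpow_natCast]

end GroupTheory


section UnitsGen

open NumberField NumberField.Units

theorem units_generated (K : Type*) [Field K] [NumberField K] :
    ∃ g : Option (Fin (rank K)) → (𝓞 K)ˣ, ∀ x : (𝓞 K)ˣ, ∃ e : Option (Fin (rank K)) → ℤ,
      x = ∏ i, g i ^ e i := by
  obtain ⟨t, ht⟩ := IsCyclic.exists_generator (α := torsion K)
  refine ⟨fun i => i.elim (t : (𝓞 K)ˣ) (fundSystem K), fun x => ?_⟩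
  obtain ⟨⟨ζ, e⟩, hx, -⟩ := exist_unique_eq_mul_prod K x
  obtain ⟨k, hk⟩ := Subgroup.mem_zpowers_iff.1 (ht ζ)
  refine ⟨fun i => i.elim k e, ?_⟩
  rw [Fintype.prod_option]
  simp only [Option.elim]
  rw [hx, ← hk]
  simp

theorem card_units_gen (p : ℕ) [hp : Fact p.Prime] (hp2 : 2 < p) (K : Type*) [Field K]
    [NumberField K] [IsCyclotomicExtension {p} ℚ K] :
    Fintype.card (Option (Fin (rank K))) = (p - 1) / 2 := by
  have : NeZero p := ⟨hp.out.ne_zero⟩
  rw [Fintype.card_option, Fintype.card_fin, rank,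
    InfinitePlace.card_eq_nrRealPlaces_add_nrComplexPlaces,
    IsCyclotomicExtension.Rat.nrRealPlaces_eq_zero K hp2,
    IsCyclotomicExtension.Rat.nrComplexPlaces_eq_totient_div_two p K,
    Nat.totient_prime hp.out]
  have : 1 ≤ (p - 1) / 2 := by omega
  omega

end UnitsGen

noncomputable section LogDeriv

open NumberField Polynomial

/-- The truncated polynomial ring `𝔽_p[t]/(t^m)`. -/
abbrev TruncRing (p m : ℕ) : Type := AdjoinRoot (X ^ m : (ZMod p)[X])

/-- The class of `t`. -/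
def tt (p m : ℕ) : TruncRing p m := AdjoinRoot.root _

theorem tt_pow (p m : ℕ) : tt p m ^ m = 0 := by
  have h := AdjoinRoot.eval₂_root (X ^ m : (ZMod p)[X])
  simpa [tt] using h

theorem natCast_p_eq_zero (p m : ℕ) : (p : TruncRing p m) = 0 := by
  have h2 := map_natCast (algebraMap (ZMod p) (TruncRing p m)) p
  rw [← h2]; simp

/-- The image of `ζ`. -/
def yy (p m : ℕ) : DualNumber (TruncRing p m) :=
  TrivSqZeroExt.inl (1 + tt p m) + TrivSqZeroExt.inr 1

theorem aeval_yy (p : ℕ) [hp : Fact p.Prime] (m : ℕ) (hm : m + 2 = p) :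
    aeval (yy p m) (cyclotomic p ℤ) = 0 := by
  have h1 : aeval (yy p m) (cyclotomic p ℤ) = aeval (yy p m) (cyclotomic p (ZMod p)) := by
    rw [← map_cyclotomic_int p (ZMod p)]
    exact (aeval_map_algebraMap (ZMod p) (yy p m) (cyclotomic p ℤ)).symm
  have h2 : cyclotomic p (ZMod p) = (X - 1) ^ (p - 1) := by
    have := cyclotomic_mul_prime_eq_pow_of_not_dvd (ZMod p) (p := p) (n := 1)
      (fun h => hp.out.one_lt.ne' (Nat.dvd_one.1 h))
    rwa [one_mul, cyclotomic_one] at this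
  rw [h1, h2]
  simp only [map_pow, map_sub, aeval_X, map_one]
  have h3 : yy p m - 1 = TrivSqZeroExt.inl (tt p m) + TrivSqZeroExt.inr 1 := by
    ext <;> simp [yy]
  rw [h3]
  have hp1 : p - 1 = m + 1 := by omega
  ext
  · simp [TrivSqZeroExt.fst_pow, hp1, pow_succ, tt_pow]
  · simp [TrivSqZeroExt.snd_pow, hp1, tt_pow]

variable {p : ℕ} [hp : Fact p.Prime] {K : Type*} [Field K] [NumberField K]
  [IsCyclotomicExtension {p} ℚ K] {ζ : K} (hζ : IsPrimitiveRoot ζ p) {m : ℕ} (hm : m + 2 = p)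

include hm in
theorem aeval_yy_minpoly :
    aeval (yy p m) (minpoly ℤ hζ.integralPowerBasis.gen) = 0 := by
  have : NeZero p := ⟨hp.out.ne_zero⟩
  rw [hζ.integralPowerBasis_gen]
  have h1 : minpoly ℤ hζ.toInteger = minpoly ℤ ζ := by
    exact (RingOfIntegers.minpoly_coe hζ.toInteger).symm
  rw [h1, ← cyclotomic_eq_minpoly hζ hp.out.pos]
  exact aeval_yy p m hm

/-- The ring homomorphism `𝓞 K → 𝔽_p[t,ε]/(t^m, ε^2)`, `ζ ↦ 1 + t + ε`. -/
def Theta : 𝓞 K →ₐ[ℤ] DualNumber (TruncRing p m) :=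
  hζ.integralPowerBasis.lift (yy p m) (aeval_yy_minpoly hζ hm)

theorem Theta_zeta : Theta hζ hm hζ.toInteger = yy p m := by
  have := hζ.integralPowerBasis.lift_gen (yy p m) (aeval_yy_minpoly hζ hm)
  rwa [hζ.integralPowerBasis_gen] at this

/-- The logarithmic derivative. -/
def dlog (u : (𝓞 K)ˣ) : TruncRing p m :=
  (Theta hζ hm (u : 𝓞 K)).snd * (Theta hζ hm ((u⁻¹ : (𝓞 K)ˣ) : 𝓞 K)).fst

theorem fst_mul_fst_inv (u : (𝓞 K)ˣ) :
    (Theta hζ hm (u : 𝓞 K)).fst * (Theta hζ hm ((u⁻¹ : (𝓞 K)ˣ) : 𝓞 K)).fst = 1 := by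
  rw [← TrivSqZeroExt.fst_mul, ← map_mul, Units.mul_inv, map_one, TrivSqZeroExt.fst_one]

theorem dlog_mul (u v : (𝓞 K)ˣ) : dlog hζ hm (u * v) = dlog hζ hm u + dlog hζ hm v := by
  have hu := fst_mul_fst_inv hζ hm u
  have hv := fst_mul_fst_inv hζ hm v
  simp only [dlog, Units.val_mul, _root_.mul_inv, map_mul, TrivSqZeroExt.fst_mul,
    TrivSqZeroExt.snd_mul, _root_.smul_eq_mul, MulOpposite.smul_eq_mul_unop, MulOpposite.unop_op]
  linear_combination ((Theta hζ hm (v : 𝓞 K)).snd * (Theta hζ hm ((v⁻¹ : (𝓞 K)ˣ) : 𝓞 K)).fst) * hu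
    + ((Theta hζ hm (u : 𝓞 K)).snd * (Theta hζ hm ((u⁻¹ : (𝓞 K)ˣ) : 𝓞 K)).fst) * hv

theorem dlog_eq_of_snd_eq (u : (𝓞 K)ˣ) (v : TruncRing p m)
    (h : (Theta hζ hm (u : 𝓞 K)).snd = v * (Theta hζ hm (u : 𝓞 K)).fst) :
    dlog hζ hm u = v := by
  rw [dlog, h, mul_assoc, fst_mul_fst_inv, mul_one]

theorem dlog_eq_zero_of_dvd (u : (𝓞 K)ˣ) (n : ℤ) (h : (p : 𝓞 K) ∣ (u : 𝓞 K) - n) :
    dlog hζ hm u = 0 := by
  obtain ⟨w, hw⟩ := h
  have h1 : (u : 𝓞 K) = n + p * w := by rw [← hw]; ring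
  have h2 : (Theta hζ hm (u : 𝓞 K)).snd = 0 := by
    rw [h1, map_add, map_mul, map_intCast, map_natCast]
    have h3 : ((p : ℕ) : DualNumber (TruncRing p m)) = 0 := by
      ext
      · simp [natCast_p_eq_zero]
      · simp
    rw [h3, zero_mul, add_zero]
    simp
  rw [dlog, h2, zero_mul]

/-- Kummer's lemma from the linear independence of the logarithmic derivatives of `(p-1)/2`
units. -/
theorem kummer_of_linearIndependent (hp2 : 2 < p) {κ : Type*} [Fintype κ]
    (hκ : (p - 1) / 2 ≤ Fintype.card κ) (w : κ → (𝓞 K)ˣ)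
    (hw : LinearIndependent (ZMod p) (fun i => dlog hζ hm (w i)))
    (u : (𝓞 K)ˣ) (hu : ∃ n : ℤ, (p : 𝓞 K) ∣ (u : 𝓞 K) - n) : ∃ v : (𝓞 K)ˣ, u = v ^ p := by
  obtain ⟨g, hg⟩ := units_generated K
  obtain ⟨n, hn⟩ := hu
  exact exists_pow_eq_of_map_eq_zero (p := p) (by rw [card_units_gen p hp2 K]; exact hκ) g hg
    (dlog hζ hm) (dlog_mul hζ hm) w hw u (dlog_eq_zero_of_dvd hζ hm u n hn)

/-- Coordinates: the linear map `c ↦ ∑ c_k t^k`. -/
def truncEmb (p m : ℕ) : (Fin m → ZMod p) →ₗ[ZMod p] TruncRing p m :=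
  Fintype.linearCombination (ZMod p) (fun k : Fin m => tt p m ^ (k : ℕ))

omit hp in
theorem truncEmb_injective [Fact p.Prime] (m : ℕ) : Function.Injective (truncEmb p m) := by
  rw [← LinearMap.ker_eq_bot, LinearMap.ker_eq_bot']
  intro c hc
  have h1 : truncEmb p m c = AdjoinRoot.mk (X ^ m) (∑ k : Fin m, C (c k) * X ^ (k : ℕ)) := by
    rw [truncEmb, Fintype.linearCombination_apply, map_sum]
    refine Finset.sum_congr rfl fun k _ => ?_
    rw [map_mul, map_pow, AdjoinRoot.mk_X, AdjoinRoot.mk_C, Algebra.smul_def]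
    rfl
  rw [h1, AdjoinRoot.mk_eq_zero, X_pow_dvd_iff] at hc
  funext k
  have := hc k k.2
  rw [finsetSum_coeff] at this
  simp only [coeff_C_mul, coeff_X_pow] at this
  rw [Finset.sum_eq_single k] at this
  · simpa using this
  · intro b _ hb
    have : (k : ℕ) ≠ (b : ℕ) := fun h => hb (Fin.ext h.symm)
    simp [this]
  · simp

omit hp in
/-- Rows of a matrix with a right inverse give linearly independent elements of the truncated
polynomial ring. -/
theorem linearIndependent_truncEmb [Fact p.Prime] {d m : ℕ} (A : Matrix (Fin d) (Fin m) (ZMod p))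
    (B : Matrix (Fin m) (Fin d) (ZMod p)) (hAB : A * B = 1) :
    LinearIndependent (ZMod p) (fun i => truncEmb p m (A i)) := by
  have h1 : LinearIndependent (ZMod p) (fun i => A i) := by
    rw [Fintype.linearIndependent_iff]
    intro g hg
    have h2 : Matrix.vecMul g A = 0 := by
      rw [← hg]
      funext j
      simp [Matrix.vecMul, dotProduct]
    have h3 : Matrix.vecMul g (A * B) = 0 := by
      rw [← Matrix.vecMul_vecMul, h2, Matrix.zero_vecMul]
    rw [hAB, Matrix.vecMul_one] at h3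
    intro i
    exact congrFun h3 i
  exact h1.map' (truncEmb p m) (LinearMap.ker_eq_bot.2 (truncEmb_injective m))

theorem truncEmb_natCast (p m : ℕ) (c : Fin m → ℕ) :
    truncEmb p m (fun k => ((c k : ℕ) : ZMod p)) =
      ∑ k : Fin m, (c k : TruncRing p m) * tt p m ^ (k : ℕ) := by
  rw [truncEmb, Fintype.linearCombination_apply]
  refine Finset.sum_congr rfl fun k _ => ?_
  rw [Algebra.smul_def, map_natCast]

/-- The cyclotomic unit `1 + ζ + ⋯ + ζ^(a-1)`. -/
def cycUnit (a : ℕ) (ha : a.Coprime p) : (𝓞 K)ˣ :=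
  (hζ.toInteger_isPrimitiveRoot.geom_sum_isUnit hp.out.two_le ha).unit

omit [NumberField K] [IsCyclotomicExtension {p} ℚ K] in
theorem coe_cycUnit (a : ℕ) (ha : a.Coprime p) :
    (cycUnit hζ a ha : 𝓞 K) = ∑ i ∈ range a, hζ.toInteger ^ i := rfl

theorem fst_Theta_cycUnit (a : ℕ) (ha : a.Coprime p) :
    (Theta hζ hm (cycUnit hζ a ha : 𝓞 K)).fst = ∑ i ∈ range a, (1 + tt p m) ^ i := by
  rw [coe_cycUnit, map_sum]
  simp only [map_pow, Theta_zeta]
  rw [← TrivSqZeroExt.fstHom_apply (S := ℤ), map_sum]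
  simp [yy]

theorem snd_Theta_cycUnit (a : ℕ) (ha : a.Coprime p) :
    (Theta hζ hm (cycUnit hζ a ha : 𝓞 K)).snd =
      ∑ i ∈ range a, (i : TruncRing p m) * (1 + tt p m) ^ (i - 1) := by
  rw [coe_cycUnit, map_sum]
  simp only [map_pow, Theta_zeta]
  rw [← TrivSqZeroExt.sndHom_apply (R := TruncRing p m), map_sum]
  simp [yy, TrivSqZeroExt.snd_pow]

theorem dlog_cycUnit (a : ℕ) (ha : a.Coprime p) (v : TruncRing p m)
    (h : ∑ i ∈ range a, (i : TruncRing p m) * (1 + tt p m) ^ (i - 1) =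
      v * ∑ i ∈ range a, (1 + tt p m) ^ i) :
    dlog hζ hm (cycUnit hζ a ha) = v := by
  apply dlog_eq_of_snd_eq
  rw [fst_Theta_cycUnit, snd_Theta_cycUnit, h]

end LogDeriv

end Fermat.Agent.FLTSmall
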