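import Mathlib

/-!
# Abstract linear-algebra criterion behind Kummer's lemma

If a commutative group `E` is generated by `d` elements and `ψ : E → V` is a homomorphism to an
`𝔽_p`-vector space whose image contains `d` linearly independent vectors, then `ker ψ = E ^ p`.
-/

namespace Fermat.Agent.FLTSmall

theorem exists_pow_eq_of_linearIndependent {E : Type*} [CommGroup E] {p : ℕ} [Fact p.Prime]
    {V : Type*} [AddCommGroup V] [Module (ZMod p) V]
    {ι κ : Type*} [Fintype ι] [Fintype κ] (hcard : Fintype.card ι ≤ Fintype.card κ)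
    (g : ι → E) (hg : ∀ x : E, ∃ n : ι → ℤ, x = ∏ i, g i ^ n i)
    (ψ : Additive E →+ V)
    (w : κ → E) (hw : LinearIndependent (ZMod p) (fun k => ψ (Additive.ofMul (w k))))
    (u : E) (hu : ψ (Additive.ofMul u) = 0) : ∃ v : E, u = v ^ p := by
  classical
  have key : ∀ n : ι → ℤ, ψ (Additive.ofMul (∏ i, g i ^ n i)) =
      ∑ i, (n i : ZMod p) • ψ (Additive.ofMul (g i)) := by
    intro n
    rw [ofMul_prod, map_sum]
    refine Finset.sum_congr rfl fun i _ => ?_
    rw [ofMul_zpow, map_zsmul, Int.cast_smul_eq_zsmul]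
  set G : ι → V := fun i => ψ (Additive.ofMul (g i)) with hG
  set W : κ → V := fun k => ψ (Additive.ofMul (w k)) with hW
  have hle : Submodule.span (ZMod p) (Set.range W) ≤ Submodule.span (ZMod p) (Set.range G) := by
    rw [Submodule.span_le]
    rintro _ ⟨k, rfl⟩
    obtain ⟨n, hn⟩ := hg (w k)
    simp only [hW, SetLike.mem_coe]
    rw [hn, key]
    exact Submodule.sum_mem _ fun i _ =>
      Submodule.smul_mem _ _ (Submodule.subset_span ⟨i, rfl⟩)
  have h1 : Fintype.card κ = Set.finrank (ZMod p) (Set.range W) :=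
    linearIndependent_iff_card_eq_finrank_span.mp hw
  have : Module.Finite (ZMod p) (Submodule.span (ZMod p) (Set.range G)) :=
    Module.Finite.span_of_finite _ (Set.finite_range G)
  have h2 : Set.finrank (ZMod p) (Set.range W) ≤ Set.finrank (ZMod p) (Set.range G) :=
    Submodule.finrank_mono hle
  have h3 : Set.finrank (ZMod p) (Set.range G) ≤ Fintype.card ι := finrank_range_le_card G
  have hGind : LinearIndependent (ZMod p) G :=
    linearIndependent_iff_card_eq_finrank_span.mpr (by omega)
  obtain ⟨n, hn⟩ := hg u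
  rw [hn, key] at hu
  have hz := Fintype.linearIndependent_iff.mp hGind _ hu
  have hdvd : ∀ i, ∃ m : ℤ, n i = p * m := fun i =>
    (ZMod.intCast_zmod_eq_zero_iff_dvd (n i) p).mp (hz i)
  choose m hm using hdvd
  refine ⟨∏ i, g i ^ m i, ?_⟩
  rw [hn, ← Finset.prod_pow]
  refine Finset.prod_congr rfl fun i _ => ?_
  rw [hm i, ← zpow_natCast, ← zpow_mul, mul_comm]

end Fermat.Agent.FLTSmall
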