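import Mathlib
import Fermat.Agent.FLTSmall.KummerAbstract

/-!
# The logarithmic derivative on units of `ℤ[ζ_p]` and a criterion for Kummer's lemma
-/

namespace Fermat.Agent.FLTSmall

open NumberField Polynomial

variable (p : ℕ) [Fact p.Prime]

/-- `B = 𝔽_p[t]/(t^(p-2))`. -/
abbrev KB : Type := AdjoinRoot ((X : (ZMod p)[X]) ^ (p - 2))

/-- The class of `t` in `B`. -/
noncomputable def kt : KB p := AdjoinRoot.root _

lemma kt_pow : kt p ^ (p - 2) = 0 := by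
  have h := AdjoinRoot.mk_self (f := (X : (ZMod p)[X]) ^ (p - 2))
  rwa [map_pow, AdjoinRoot.mk_X] at h

lemma natCast_KB : (p : KB p) = 0 := by
  have : (p : KB p) = algebraMap (ZMod p) (KB p) (p : ZMod p) := (map_natCast _ p).symm
  rw [this, ZMod.natCast_self, map_zero]

/-- `A = B[ε]`. -/
abbrev KA : Type := DualNumber (KB p)

/-- The image of `ζ`. -/
noncomputable def kθ : KA p := TrivSqZeroExt.inl (1 + kt p) + DualNumber.eps

lemma natCast_KA : (p : KA p) = 0 := by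
  have : (p : KA p) = algebraMap (ZMod p) (KA p) (p : ZMod p) := (map_natCast _ p).symm
  rw [this, ZMod.natCast_self, map_zero]

lemma fst_kθ : (kθ p).fst = 1 + kt p := by simp [kθ]

lemma snd_kθ : (kθ p).snd = 1 := by simp [kθ]

lemma kθ_sub_one_pow (hp : 3 ≤ p) : (kθ p - 1) ^ (p - 1) = 0 := by
  have h1 : (kθ p - 1).fst = kt p := by simp [kθ]
  have h2 : (kθ p - 1).snd = 1 := by simp [kθ]
  apply TrivSqZeroExt.ext
  · rw [TrivSqZeroExt.fst_pow, h1, TrivSqZeroExt.fst_zero]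
    have : p - 1 = (p - 2) + 1 := by omega
    rw [this, pow_succ, kt_pow, zero_mul]
  · rw [TrivSqZeroExt.snd_pow, h1, h2, TrivSqZeroExt.snd_zero]
    have : (p - 1).pred = p - 2 := by simp [Nat.pred_eq_sub_one]; omega
    rw [this, kt_pow, zero_smul, smul_zero]

lemma aeval_kθ_cyclotomic (hp : 3 ≤ p) : aeval (kθ p) (cyclotomic p ℤ) = 0 := by
  have h1 : cyclotomic p (ZMod p) = (X - 1) ^ (p - 1) := by
    have := cyclotomic_mul_prime_eq_pow_of_not_dvd (ZMod p) (p := p) (n := 1)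
      (by simpa using (Fact.out : p.Prime).one_lt.ne')
    rwa [one_mul, cyclotomic_one] at this
  have h2 : aeval (kθ p) (cyclotomic p ℤ) = aeval (kθ p) (cyclotomic p (ZMod p)) := by
    rw [← map_cyclotomic p (algebraMap ℤ (ZMod p)), aeval_map_algebraMap]
  rw [h2, h1]
  simp [kθ_sub_one_pow p hp]

variable {p}
variable {K : Type*} [Field K] [NumberField K] [IsCyclotomicExtension {p} ℚ K]

/-- The ring homomorphism `𝓞 K → B[ε]`, `ζ ↦ 1 + t + ε`. -/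
noncomputable def kΘ (hp : 3 ≤ p) {ζ : K} (hζ : IsPrimitiveRoot ζ p) : 𝓞 K →ₐ[ℤ] KA p :=
  haveI : NeZero p := ⟨(Fact.out : p.Prime).ne_zero⟩
  hζ.integralPowerBasis.lift (kθ p) (by
    rw [hζ.integralPowerBasis_gen]
    have : minpoly ℤ hζ.toInteger = cyclotomic p ℤ := by
      rw [cyclotomic_eq_minpoly hζ (NeZero.pos p)]
      exact (NumberField.RingOfIntegers.minpoly_coe _).symm
    rw [this]
    exact aeval_kθ_cyclotomic p hp)

lemma kΘ_toInteger (hp : 3 ≤ p) {ζ : K} (hζ : IsPrimitiveRoot ζ p) :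
    haveI : NeZero p := ⟨(Fact.out : p.Prime).ne_zero⟩
    kΘ hp hζ hζ.toInteger = kθ p := by
  have : NeZero p := ⟨(Fact.out : p.Prime).ne_zero⟩
  have h := hζ.integralPowerBasis_gen
  unfold kΘ
  conv_lhs => rw [← h]
  exact PowerBasis.lift_gen _ _ _

/-- The logarithmic derivative `u ↦ (Θ u).snd / (Θ u).fst`. -/
noncomputable def kψ (hp : 3 ≤ p) {ζ : K} (hζ : IsPrimitiveRoot ζ p) :
    Additive (𝓞 K)ˣ →+ KB p :=
  AddMonoidHom.mk' (fun u => (kΘ hp hζ ((Additive.toMul u : (𝓞 K)ˣ) : 𝓞 K)).snd *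
      (kΘ hp hζ (((Additive.toMul u)⁻¹ : (𝓞 K)ˣ) : 𝓞 K)).fst) (by
    intro a b
    set u : (𝓞 K)ˣ := Additive.toMul a with hu
    set v : (𝓞 K)ˣ := Additive.toMul b with hv
    have huv : Additive.toMul (a + b) = u * v := rfl
    have h1 : (kΘ hp hζ (u : 𝓞 K)).fst * (kΘ hp hζ ((u⁻¹ : (𝓞 K)ˣ) : 𝓞 K)).fst = 1 := by
      rw [← TrivSqZeroExt.fst_mul, ← map_mul, Units.mul_inv, map_one, TrivSqZeroExt.fst_one]
    have h2 : (kΘ hp hζ (v : 𝓞 K)).fst * (kΘ hp hζ ((v⁻¹ : (𝓞 K)ˣ) : 𝓞 K)).fst = 1 := by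
      rw [← TrivSqZeroExt.fst_mul, ← map_mul, Units.mul_inv, map_one, TrivSqZeroExt.fst_one]
    simp only [huv, mul_inv, Units.val_mul, map_mul, TrivSqZeroExt.fst_mul,
      TrivSqZeroExt.snd_mul, smul_eq_mul, MulOpposite.smul_eq_mul_unop, MulOpposite.unop_op]
    linear_combination ((kΘ hp hζ (v : 𝓞 K)).snd * (kΘ hp hζ ((v⁻¹ : (𝓞 K)ˣ) : 𝓞 K)).fst) * h1 +
      ((kΘ hp hζ (u : 𝓞 K)).snd * (kΘ hp hζ ((u⁻¹ : (𝓞 K)ˣ) : 𝓞 K)).fst) * h2)

lemma kψ_apply (hp : 3 ≤ p) {ζ : K} (hζ : IsPrimitiveRoot ζ p) (u : (𝓞 K)ˣ) :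
    kψ hp hζ (Additive.ofMul u) = (kΘ hp hζ (u : 𝓞 K)).snd *
      (kΘ hp hζ ((u⁻¹ : (𝓞 K)ˣ) : 𝓞 K)).fst := rfl

lemma kψ_eq_zero_of_dvd (hp : 3 ≤ p) {ζ : K} (hζ : IsPrimitiveRoot ζ p) (u : (𝓞 K)ˣ)
    (h : ∃ n : ℤ, (p : 𝓞 K) ∣ (u : 𝓞 K) - n) : kψ hp hζ (Additive.ofMul u) = 0 := by
  obtain ⟨n, c, hc⟩ := h
  have hu : (u : 𝓞 K) = n + p * c := by rw [← hc]; ring
  rw [kψ_apply, hu]
  simp [natCast_KA]

lemma kψ_eq_of_mul_eq (hp : 3 ≤ p) {ζ : K} (hζ : IsPrimitiveRoot ζ p) (u : (𝓞 K)ˣ) (v : KB p)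
    (h : (kΘ hp hζ (u : 𝓞 K)).fst * v = (kΘ hp hζ (u : 𝓞 K)).snd) :
    kψ hp hζ (Additive.ofMul u) = v := by
  have h1 : (kΘ hp hζ (u : 𝓞 K)).fst * (kΘ hp hζ ((u⁻¹ : (𝓞 K)ˣ) : 𝓞 K)).fst = 1 := by
    rw [← TrivSqZeroExt.fst_mul, ← map_mul, Units.mul_inv, map_one, TrivSqZeroExt.fst_one]
  rw [kψ_apply, ← h]
  linear_combination v * h1

variable (p) in
/-- `∑_{j<k} (1+t)^j`. -/
noncomputable def geomF (k : ℕ) : KB p := ∑ j ∈ Finset.range k, (1 + kt p) ^ j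

variable (p) in
/-- `∑_{j<k} j (1+t)^(j-1)`. -/
noncomputable def geomS (k : ℕ) : KB p := ∑ j ∈ Finset.range k, (j : KB p) * (1 + kt p) ^ (j - 1)

lemma fst_kΘ_geom (hp : 3 ≤ p) {ζ : K} (hζ : IsPrimitiveRoot ζ p) (k : ℕ) :
    haveI : NeZero p := ⟨(Fact.out : p.Prime).ne_zero⟩
    (kΘ hp hζ (∑ j ∈ Finset.range k, hζ.toInteger ^ j)).fst = geomF p k := by
  simp only [map_sum, map_pow, kΘ_toInteger, TrivSqZeroExt.fst_sum, TrivSqZeroExt.fst_pow,
    fst_kθ, geomF]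

lemma snd_kΘ_geom (hp : 3 ≤ p) {ζ : K} (hζ : IsPrimitiveRoot ζ p) (k : ℕ) :
    haveI : NeZero p := ⟨(Fact.out : p.Prime).ne_zero⟩
    (kΘ hp hζ (∑ j ∈ Finset.range k, hζ.toInteger ^ j)).snd = geomS p k := by
  simp only [map_sum, map_pow, kΘ_toInteger, TrivSqZeroExt.snd_sum, TrivSqZeroExt.snd_pow,
    fst_kθ, snd_kθ, geomS, Nat.pred_eq_sub_one, smul_eq_mul, mul_one, nsmul_eq_mul]

lemma rank_add_one_le (hp : 3 ≤ p) : NumberField.Units.rank K + 1 ≤ (p - 1) / 2 := by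
  have : NeZero p := ⟨(Fact.out : p.Prime).ne_zero⟩
  have h1 := IsCyclotomicExtension.Rat.nrRealPlaces_eq_zero (n := p) K (by omega)
  have h2 := IsCyclotomicExtension.Rat.nrComplexPlaces_eq_totient_div_two p K
  have h3 := NumberField.InfinitePlace.card_eq_nrRealPlaces_add_nrComplexPlaces K
  rw [Nat.totient_prime Fact.out] at h2
  unfold NumberField.Units.rank
  omega

lemma exists_generators (K : Type*) [Field K] [NumberField K] :
    ∃ g : Option (Fin (NumberField.Units.rank K)) → (𝓞 K)ˣ,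
      ∀ x : (𝓞 K)ˣ, ∃ n : Option (Fin (NumberField.Units.rank K)) → ℤ, x = ∏ i, g i ^ n i := by
  obtain ⟨τ, hτ⟩ := IsCyclic.exists_generator (α := NumberField.Units.torsion K)
  refine ⟨fun i => i.elim (τ : (𝓞 K)ˣ) (NumberField.Units.fundSystem K), fun x => ?_⟩
  obtain ⟨⟨t, e⟩, hx, -⟩ := NumberField.Units.exist_unique_eq_mul_prod K x
  obtain ⟨m, hm⟩ := Subgroup.mem_zpowers_iff.mp (hτ t)
  refine ⟨fun i => i.elim m e, ?_⟩
  rw [Fintype.prod_option]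
  simp only [Option.elim]
  rw [hx, ← hm]
  simp

/-- **Criterion for Kummer's lemma.**  If the logarithmic derivatives `v 0, …, v (d-1)`
(`d = (p-1)/2`) of `ζ` and of the cyclotomic units `1 + ζ + ⋯ + ζ^k` (`1 ≤ k < d`) are linearly
independent in `𝔽_p[t]/(t^(p-2))`, then every unit of `ℤ[ζ_p]` congruent to a rational integer
modulo `p` is a `p`-th power. -/
theorem kummer_criterion (hp : 3 ≤ p) (K : Type*) [Field K] [NumberField K]
    [IsCyclotomicExtension {p} ℚ K] (v : ℕ → KB p)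
    (hv0 : (1 + kt p) * v 0 = 1)
    (hv : ∀ k, 1 ≤ k → k < (p - 1) / 2 → geomF p (k + 1) * v k = geomS p (k + 1))
    (hind : LinearIndependent (ZMod p) (fun k : Fin ((p - 1) / 2) => v k))
    (u : (𝓞 K)ˣ) (hu : ∃ n : ℤ, (p : 𝓞 K) ∣ (u : 𝓞 K) - n) : ∃ w : (𝓞 K)ˣ, u = w ^ p := by
  have hpp : p.Prime := Fact.out
  have : NeZero p := ⟨hpp.ne_zero⟩
  have hζ := IsCyclotomicExtension.zeta_spec p ℚ K
  have hζ' := hζ.toInteger_isPrimitiveRoot
  obtain ⟨g, hg⟩ := exists_generators K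
  have hcop : ∀ k : Fin ((p - 1) / 2), ((k : ℕ) + 1).Coprime p := fun k =>
    (Nat.coprime_of_lt_prime (by omega) (by have := k.2; omega) hpp).symm
  let w : Fin ((p - 1) / 2) → (𝓞 K)ˣ := fun k =>
    if (k : ℕ) = 0 then (hζ'.isUnit hpp.ne_zero).unit
    else (hζ'.geom_sum_isUnit hpp.two_le (hcop k)).unit
  have hw : ∀ k, kψ hp hζ (Additive.ofMul (w k)) = v k := by
    intro k
    apply kψ_eq_of_mul_eq
    by_cases hk : (k : ℕ) = 0
    · simp only [w, hk, if_true, IsUnit.unit_spec, kΘ_toInteger, fst_kθ, snd_kθ]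
      exact hv0
    · simp only [w, hk, if_false, IsUnit.unit_spec, fst_kΘ_geom, snd_kΘ_geom]
      exact hv k (by omega) k.2
  refine exists_pow_eq_of_linearIndependent (p := p) (κ := Fin ((p - 1) / 2)) ?_ g hg
    (kψ hp hζ) w ?_ u (kψ_eq_zero_of_dvd hp hζ u hu)
  · simpa using rank_add_one_le (K := K) hp
  · simpa only [hw] using hind

lemma KB_coeff_zero {n : ℕ} (hn : p - 2 = n) (a : ℕ → ZMod p)
    (h : ∑ i ∈ Finset.range n, algebraMap (ZMod p) (KB p) (a i) * kt p ^ i = 0) :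
    ∀ i < n, a i = 0 := by
  subst hn
  intro i hi
  set q : (ZMod p)[X] := ∑ i ∈ Finset.range (p - 2), C (a i) * X ^ i with hq
  have h1 : AdjoinRoot.mk ((X : (ZMod p)[X]) ^ (p - 2)) q = 0 := by
    rw [hq, map_sum, ← h]
    refine Finset.sum_congr rfl fun j _ => ?_
    rw [map_mul, map_pow, AdjoinRoot.mk_X, AdjoinRoot.mk_C, AdjoinRoot.algebraMap_eq]
    rfl
  have h2 := Polynomial.X_pow_dvd_iff.mp (AdjoinRoot.mk_eq_zero.mp h1) i hi
  rw [hq, Polynomial.finsetSum_coeff] at h2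
  simp only [coeff_C_mul_X_pow] at h2
  rw [Finset.sum_ite_eq (Finset.range (p - 2)) i] at h2
  simpa [hi] using h2

/-- A version of `kummer_criterion` that is convenient for explicit verification. -/
theorem kummer_criterion' (hp : 3 ≤ p) (K : Type*) [Field K] [NumberField K]
    [IsCyclotomicExtension {p} ℚ K] {d : ℕ} (hd : (p - 1) / 2 = d) (v : ℕ → KB p)
    (hv0 : (1 + kt p) * v 0 = 1)
    (hv : ∀ k, 1 ≤ k → k < d → geomF p (k + 1) * v k = geomS p (k + 1))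
    (hind : ∀ c : ℕ → ZMod p,
      ∑ k ∈ Finset.range d, algebraMap (ZMod p) (KB p) (c k) * v k = 0 → ∀ k < d, c k = 0)
    (u : (𝓞 K)ˣ) (hu : ∃ n : ℤ, (p : 𝓞 K) ∣ (u : 𝓞 K) - n) : ∃ w : (𝓞 K)ˣ, u = w ^ p := by
  subst hd
  refine kummer_criterion hp K v hv0 hv ?_ u hu
  rw [Fintype.linearIndependent_iff]
  intro c hc k
  have := hind (fun k => if h : k < (p - 1) / 2 then c ⟨k, h⟩ else 0) (by
    rw [Finset.sum_range, ← hc]
    refine Finset.sum_congr rfl fun j _ => ?_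
    rw [Algebra.smul_def]
    simp) k k.2
  simpa using this

end Fermat.Agent.FLTSmall
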