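import Mathlib
import Fermat.Agent.FLTSmall.KummerTheta

/-! # Kummer's lemma for `p = 11` (generated certificate) -/

namespace Fermat.Agent.FLTSmall

open NumberField

instance kummerFactPrime11 : Fact (Nat.Prime 11) := ⟨by norm_num⟩

/-- The logarithmic derivatives of `ζ` and of the cyclotomic units, for `p = 11`. -/
noncomputable def kummerV11 : ℕ → KB 11
  | 0 => 1 - 1 * kt 11 + 1 * kt 11 ^ 2 - 1 * kt 11 ^ 3 + 1 * kt 11 ^ 4 - 1 * kt 11 ^ 5 + 1 * kt 11 ^ 6 - 1 * kt 11 ^ 7 + 1 * kt 11 ^ 8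
  | 1 => -5 - 3 * kt 11 - 4 * kt 11 ^ 2 + 2 * kt 11 ^ 3 - 1 * kt 11 ^ 4 - 5 * kt 11 ^ 5 - 3 * kt 11 ^ 6 - 4 * kt 11 ^ 7 + 2 * kt 11 ^ 8
  | 2 => 1 - 4 * kt 11 + 5 * kt 11 ^ 3 - 5 * kt 11 ^ 4 - 4 * kt 11 ^ 5 + 2 * kt 11 ^ 6 + 3 * kt 11 ^ 7
  | 3 => -4 - 3 * kt 11 + 1 * kt 11 ^ 2 - 3 * kt 11 ^ 3 - 4 * kt 11 ^ 4 - 5 * kt 11 ^ 5 + 4 * kt 11 ^ 6
  | 4 => 2 - 1 * kt 11 ^ 2 + 3 * kt 11 ^ 3 - 5 * kt 11 ^ 5 + 5 * kt 11 ^ 6 - 5 * kt 11 ^ 7 + 5 * kt 11 ^ 8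
  | _ => 0

theorem kummer_eleven (K : Type*) [Field K] [NumberField K] [IsCyclotomicExtension {11} ℚ K]
    (u : (𝓞 K)ˣ) (hu : ∃ n : ℤ, ((11 : ℕ) : 𝓞 K) ∣ (u : 𝓞 K) - n) : ∃ w : (𝓞 K)ˣ, u = w ^ 11 := by
  have ht : kt 11 ^ 9 = 0 := kt_pow 11
  have hp : (11 : KB 11) = 0 := by exact_mod_cast natCast_KB 11
  have hp0 : (11 : ZMod 11) = 0 := by decide
  generalize hT : kt 11 = t at ht
  refine kummer_criterion' (p := 11) (by norm_num) K (d := 5) (by norm_num) kummerV11 ?_ ?_ ?_ u hu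
  · simp only [kummerV11, hT]
    linear_combination (1) * ht + (0) * hp
  · intro k hk1 hk2
    interval_cases k
    · simp only [kummerV11, geomF, geomS, hT, Finset.sum_range_succ, Finset.sum_range_zero]
      push_cast
      linear_combination (2) * ht + (-1 - 1 * t - 1 * t ^ 2 - 1 * t ^ 5 - 1 * t ^ 6 - 1 * t ^ 7) * hp
    · simp only [kummerV11, geomF, geomS, hT, Finset.sum_range_succ, Finset.sum_range_zero]
      push_cast
      linear_combination (3) * ht + (-1 * t - 1 * t ^ 2 + 1 * t ^ 3 - 2 * t ^ 5 - 1 * t ^ 6 + 1 * t ^ 7 + 1 * t ^ 8) * hp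
    · simp only [kummerV11, geomF, geomS, hT, Finset.sum_range_succ, Finset.sum_range_zero]
      push_cast
      linear_combination (4) * ht + (-2 - 4 * t - 3 * t ^ 2 - 2 * t ^ 3 - 3 * t ^ 4 - 5 * t ^ 5 - 3 * t ^ 6 + 1 * t ^ 8) * hp
    · simp only [kummerV11, geomF, geomS, hT, Finset.sum_range_succ, Finset.sum_range_zero]
      push_cast
      linear_combination (20 + 30 * t + 20 * t ^ 2 + 5 * t ^ 3) * ht + (1 * t ^ 3 + 2 * t ^ 4 - 1 * t ^ 6 - 2 * t ^ 7) * hp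
  · intro c hc
    have hz := KB_coeff_zero (p := 11) (n := 9) (by norm_num)
      (fun i => match i with
        | 0 => c 0 * (1) + c 1 * (-5) + c 2 * (1) + c 3 * (-4) + c 4 * (2)
        | 1 => c 0 * (-1) + c 1 * (-3) + c 2 * (-4) + c 3 * (-3)
        | 2 => c 0 * (1) + c 1 * (-4) + c 3 * (1) + c 4 * (-1)
        | 3 => c 0 * (-1) + c 1 * (2) + c 2 * (5) + c 3 * (-3) + c 4 * (3)
        | 4 => c 0 * (1) + c 1 * (-1) + c 2 * (-5) + c 3 * (-4)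
        | 5 => c 0 * (-1) + c 1 * (-5) + c 2 * (-4) + c 3 * (-5) + c 4 * (-5)
        | 6 => c 0 * (1) + c 1 * (-3) + c 2 * (2) + c 3 * (4) + c 4 * (5)
        | 7 => c 0 * (-1) + c 1 * (-4) + c 2 * (3) + c 4 * (-5)
        | 8 => c 0 * (1) + c 1 * (2) + c 4 * (5)
        | _ => 0) (by
        simp only [Finset.sum_range_succ, Finset.sum_range_zero, kummerV11, hT] at hc ⊢
        simp only [map_add, map_mul, map_neg, map_ofNat, map_one, map_zero]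
        linear_combination hc)
    have e0 := hz 0 (by norm_num)
    have e1 := hz 1 (by norm_num)
    have e2 := hz 3 (by norm_num)
    have e3 := hz 5 (by norm_num)
    have e4 := hz 7 (by norm_num)
    simp only [] at e0 e1 e2 e3 e4
    intro k hk
    interval_cases k
    · linear_combination (-2) * e0 + (1) * e1 + (-2) * e2 + (0) * e3 + (-2) * e4 + ((0) * c 0 + (-1) * c 1 + (2) * c 2 + (-1) * c 3 + (0) * c 4) * hp0
    · linear_combination (-5) * e0 + (-3) * e1 + (0) * e2 + (-3) * e3 + (1) * e4 + ((0) * c 0 + (-4) * c 1 + (-2) * c 2 + (-4) * c 3 + (0) * c 4) * hp0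
    · linear_combination (-4) * e0 + (-4) * e1 + (1) * e2 + (5) * e3 + (5) * e4 + ((1) * c 0 + (1) * c 1 + (-1) * c 2 + (0) * c 3 + (5) * c 4) * hp0
    · linear_combination (0) * e0 + (4) * e1 + (3) * e2 + (0) * e3 + (4) * e4 + ((1) * c 0 + (2) * c 1 + (-1) * c 2 + (2) * c 3 + (1) * c 4) * hp0
    · linear_combination (2) * e0 + (2) * e1 + (1) * e2 + (1) * e3 + (-2) * e4 + ((0) * c 0 + (1) * c 1 + (1) * c 2 + (2) * c 3 + (-1) * c 4) * hp0

end Fermat.Agent.FLTSmall
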