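import Mathlib
import Fermat.Agent.FLTSmall.KummerTheta

/-! # Kummer's lemma for `p = 13` (generated certificate) -/

namespace Fermat.Agent.FLTSmall

open NumberField

instance kummerFactPrime13 : Fact (Nat.Prime 13) := ⟨by norm_num⟩

/-- The logarithmic derivatives of `ζ` and of the cyclotomic units, for `p = 13`. -/
noncomputable def kummerV13 : ℕ → KB 13
  | 0 => 1 - 1 * kt 13 + 1 * kt 13 ^ 2 - 1 * kt 13 ^ 3 + 1 * kt 13 ^ 4 - 1 * kt 13 ^ 5 + 1 * kt 13 ^ 6 - 1 * kt 13 ^ 7 + 1 * kt 13 ^ 8 - 1 * kt 13 ^ 9 + 1 * kt 13 ^ 10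
  | 1 => -6 + 3 * kt 13 + 5 * kt 13 ^ 2 + 4 * kt 13 ^ 3 - 2 * kt 13 ^ 4 + 1 * kt 13 ^ 5 + 6 * kt 13 ^ 6 - 3 * kt 13 ^ 7 - 5 * kt 13 ^ 8 - 4 * kt 13 ^ 9 + 2 * kt 13 ^ 10
  | 2 => 1 + 4 * kt 13 + 3 * kt 13 ^ 3 - 3 * kt 13 ^ 4 + 2 * kt 13 ^ 5 - 1 * kt 13 ^ 6 - 4 * kt 13 ^ 7 - 3 * kt 13 ^ 9 + 3 * kt 13 ^ 10
  | 3 => -5 + 3 * kt 13 - 2 * kt 13 ^ 2 - 2 * kt 13 ^ 3 + 1 * kt 13 ^ 4 + 1 * kt 13 ^ 5 - 2 * kt 13 ^ 6 + 5 * kt 13 ^ 7 + 4 * kt 13 ^ 8 - 4 * kt 13 ^ 9 + 4 * kt 13 ^ 10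
  | 4 => 2 - 1 * kt 13 ^ 2 + 6 * kt 13 ^ 3 + 2 * kt 13 ^ 5 - 2 * kt 13 ^ 6 + 4 * kt 13 ^ 7 - 6 * kt 13 ^ 8 + 3 * kt 13 ^ 9 + 5 * kt 13 ^ 10
  | 5 => -4 - 5 * kt 13 + 3 * kt 13 ^ 2 - 5 * kt 13 ^ 3 - 4 * kt 13 ^ 4 + 1 * kt 13 ^ 5 + 6 * kt 13 ^ 6 - 6 * kt 13 ^ 7 + 6 * kt 13 ^ 8 - 6 * kt 13 ^ 9 + 6 * kt 13 ^ 10
  | _ => 0

theorem kummer_thirteen (K : Type*) [Field K] [NumberField K] [IsCyclotomicExtension {13} ℚ K]
    (u : (𝓞 K)ˣ) (hu : ∃ n : ℤ, ((13 : ℕ) : 𝓞 K) ∣ (u : 𝓞 K) - n) : ∃ w : (𝓞 K)ˣ, u = w ^ 13 := by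
  have ht : kt 13 ^ 11 = 0 := kt_pow 13
  have hp : (13 : KB 13) = 0 := by exact_mod_cast natCast_KB 13
  have hp0 : (13 : ZMod 13) = 0 := by decide
  generalize hT : kt 13 = t at ht
  refine kummer_criterion' (p := 13) (by norm_num) K (d := 6) (by norm_num) kummerV13 ?_ ?_ ?_ u hu
  · simp only [kummerV13, hT]
    linear_combination (1) * ht + (0) * hp
  · intro k hk1 hk2
    interval_cases k
    · simp only [kummerV13, geomF, geomS, hT, Finset.sum_range_succ, Finset.sum_range_zero]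
      push_cast
      linear_combination (2) * ht + (-1 + 1 * t ^ 2 + 1 * t ^ 3 + 1 * t ^ 6 - 1 * t ^ 8 - 1 * t ^ 9) * hp
    · simp only [kummerV13, geomF, geomS, hT, Finset.sum_range_succ, Finset.sum_range_zero]
      push_cast
      linear_combination (6 + 3 * t) * ht + (1 * t + 1 * t ^ 2 + 1 * t ^ 3 - 1 * t ^ 7 - 1 * t ^ 8 - 1 * t ^ 9) * hp
    · simp only [kummerV13, geomF, geomS, hT, Finset.sum_range_succ, Finset.sum_range_zero]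
      push_cast
      linear_combination (12 + 12 * t + 4 * t ^ 2) * ht + (-2 - 2 * t - 1 * t ^ 2 - 1 * t ^ 3 - 1 * t ^ 4 + 1 * t ^ 7 + 3 * t ^ 8 + 2 * t ^ 9 + 1 * t ^ 10) * hp
    · simp only [kummerV13, geomF, geomS, hT, Finset.sum_range_succ, Finset.sum_range_zero]
      push_cast
      linear_combination (54 + 59 * t + 28 * t ^ 2 + 5 * t ^ 3) * ht + (2 * t ^ 3 + 4 * t ^ 4 + 5 * t ^ 5 + 3 * t ^ 6 + 2 * t ^ 7 - 1 * t ^ 9 + 1 * t ^ 10) * hp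
    · simp only [kummerV13, geomF, geomS, hT, Finset.sum_range_succ, Finset.sum_range_zero]
      push_cast
      linear_combination (30 + 60 * t + 60 * t ^ 2 + 30 * t ^ 3 + 6 * t ^ 4) * ht + (-3 - 10 * t - 14 * t ^ 2 - 13 * t ^ 3 - 11 * t ^ 4 - 11 * t ^ 5 - 7 * t ^ 6 - 1 * t ^ 7 + 4 * t ^ 8 + 2 * t ^ 9 + 1 * t ^ 10) * hp
  · intro c hc
    have hz := KB_coeff_zero (p := 13) (n := 11) (by norm_num)
      (fun i => match i with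
        | 0 => c 0 * (1) + c 1 * (-6) + c 2 * (1) + c 3 * (-5) + c 4 * (2) + c 5 * (-4)
        | 1 => c 0 * (-1) + c 1 * (3) + c 2 * (4) + c 3 * (3) + c 5 * (-5)
        | 2 => c 0 * (1) + c 1 * (5) + c 3 * (-2) + c 4 * (-1) + c 5 * (3)
        | 3 => c 0 * (-1) + c 1 * (4) + c 2 * (3) + c 3 * (-2) + c 4 * (6) + c 5 * (-5)
        | 4 => c 0 * (1) + c 1 * (-2) + c 2 * (-3) + c 3 * (1) + c 5 * (-4)
        | 5 => c 0 * (-1) + c 1 * (1) + c 2 * (2) + c 3 * (1) + c 4 * (2) + c 5 * (1)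
        | 6 => c 0 * (1) + c 1 * (6) + c 2 * (-1) + c 3 * (-2) + c 4 * (-2) + c 5 * (6)
        | 7 => c 0 * (-1) + c 1 * (-3) + c 2 * (-4) + c 3 * (5) + c 4 * (4) + c 5 * (-6)
        | 8 => c 0 * (1) + c 1 * (-5) + c 3 * (4) + c 4 * (-6) + c 5 * (6)
        | 9 => c 0 * (-1) + c 1 * (-4) + c 2 * (-3) + c 3 * (-4) + c 4 * (3) + c 5 * (-6)
        | 10 => c 0 * (1) + c 1 * (2) + c 2 * (3) + c 3 * (4) + c 4 * (5) + c 5 * (6)
        | _ => 0) (by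
        simp only [Finset.sum_range_succ, Finset.sum_range_zero, kummerV13, hT] at hc ⊢
        simp only [map_add, map_mul, map_neg, map_ofNat, map_one, map_zero]
        linear_combination hc)
    have e0 := hz 0 (by norm_num)
    have e1 := hz 1 (by norm_num)
    have e2 := hz 3 (by norm_num)
    have e3 := hz 5 (by norm_num)
    have e4 := hz 7 (by norm_num)
    have e5 := hz 9 (by norm_num)
    simp only [] at e0 e1 e2 e3 e4 e5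
    intro k hk
    interval_cases k
    · linear_combination (1) * e0 + (3) * e1 + (3) * e2 + (-4) * e3 + (-6) * e4 + (4) * e5 + ((0) * c 0 + (-1) * c 1 + (-2) * c 2 + (4) * c 3 + (0) * c 4 + (2) * c 5) * hp0
    · linear_combination (-3) * e0 + (2) * e1 + (-3) * e2 + (-6) * e3 + (-2) * e4 + (6) * e5 + ((0) * c 0 + (1) * c 1 + (2) * c 2 + (1) * c 3 + (2) * c 4 + (1) * c 5) * hp0
    · linear_combination (-1) * e0 + (-1) * e1 + (2) * e2 + (4) * e3 + (0) * e4 + (-6) * e5 + ((0) * c 0 + (-3) * c 1 + (-2) * c 2 + (-2) * c 3 + (0) * c 4 + (-3) * c 5) * hp0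
    · linear_combination (-6) * e0 + (-2) * e1 + (-4) * e2 + (-4) * e3 + (6) * e4 + (-2) * e5 + ((0) * c 0 + (0) * c 1 + (4) * c 2 + (-5) * c 3 + (2) * c 4 + (-2) * c 5) * hp0
    · linear_combination (4) * e0 + (2) * e1 + (2) * e2 + (-6) * e3 + (1) * e4 + (5) * e5 + ((0) * c 0 + (3) * c 1 + (1) * c 2 + (3) * c 3 + (-2) * c 4 + (6) * c 5) * hp0
    · linear_combination (4) * e0 + (1) * e1 + (2) * e2 + (-2) * e3 + (1) * e4 + (2) * e5 + ((0) * c 0 + (2) * c 1 + (0) * c 2 + (2) * c 3 + (-2) * c 4 + (4) * c 5) * hp0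

end Fermat.Agent.FLTSmall
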