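import Mathlib
import Fermat.Agent.FLTSmall.KummerTheta

/-! # Kummer's lemma for `p = 5` (generated certificate) -/

namespace Fermat.Agent.FLTSmall

open NumberField

instance kummerFactPrime5 : Fact (Nat.Prime 5) := ⟨by norm_num⟩

/-- The logarithmic derivatives of `ζ` and of the cyclotomic units, for `p = 5`. -/
noncomputable def kummerV5 : ℕ → KB 5
  | 0 => 1 - 1 * kt 5 + 1 * kt 5 ^ 2
  | 1 => -2 + 1 * kt 5 + 2 * kt 5 ^ 2
  | _ => 0

theorem kummer_five (K : Type*) [Field K] [NumberField K] [IsCyclotomicExtension {5} ℚ K]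
    (u : (𝓞 K)ˣ) (hu : ∃ n : ℤ, ((5 : ℕ) : 𝓞 K) ∣ (u : 𝓞 K) - n) : ∃ w : (𝓞 K)ˣ, u = w ^ 5 := by
  have ht : kt 5 ^ 3 = 0 := kt_pow 5
  have hp : (5 : KB 5) = 0 := by exact_mod_cast natCast_KB 5
  have hp0 : (5 : ZMod 5) = 0 := by decide
  generalize hT : kt 5 = t at ht
  refine kummer_criterion' (p := 5) (by norm_num) K (d := 2) (by norm_num) kummerV5 ?_ ?_ ?_ u hu
  · simp only [kummerV5, hT]
    linear_combination (1) * ht + (0) * hp
  · intro k hk1 hk2
    interval_cases k
    · simp only [kummerV5, geomF, geomS, hT, Finset.sum_range_succ, Finset.sum_range_zero]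
      push_cast
      linear_combination (2) * ht + (-1 + 1 * t ^ 2) * hp
  · intro c hc
    have hz := KB_coeff_zero (p := 5) (n := 3) (by norm_num)
      (fun i => match i with
        | 0 => c 0 * (1) + c 1 * (-2)
        | 1 => c 0 * (-1) + c 1 * (1)
        | 2 => c 0 * (1) + c 1 * (2)
        | _ => 0) (by
        simp only [Finset.sum_range_succ, Finset.sum_range_zero, kummerV5, hT] at hc ⊢
        simp only [map_add, map_mul, map_neg, map_ofNat, map_one, map_zero]
        linear_combination hc)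
    have e0 := hz 0 (by norm_num)
    have e1 := hz 1 (by norm_num)
    simp only [] at e0 e1
    intro k hk
    interval_cases k
    · linear_combination (-1) * e0 + (-2) * e1 + ((0) * c 0 + (0) * c 1) * hp0
    · linear_combination (-1) * e0 + (-1) * e1 + ((0) * c 0 + (0) * c 1) * hp0

end Fermat.Agent.FLTSmall
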