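import Mathlib
import Fermat.Agent.FLTSmall.KummerTheta

/-! # Kummer's lemma for `p = 7` (generated certificate) -/

namespace Fermat.Agent.FLTSmall

open NumberField

instance kummerFactPrime7 : Fact (Nat.Prime 7) := ⟨by norm_num⟩

/-- The logarithmic derivatives of `ζ` and of the cyclotomic units, for `p = 7`. -/
noncomputable def kummerV7 : ℕ → KB 7
  | 0 => 1 - 1 * kt 7 + 1 * kt 7 ^ 2 - 1 * kt 7 ^ 3 + 1 * kt 7 ^ 4
  | 1 => -3 - 2 * kt 7 + 1 * kt 7 ^ 2 + 3 * kt 7 ^ 3 + 2 * kt 7 ^ 4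
  | 2 => 1 + 2 * kt 7 - 3 * kt 7 ^ 3 + 3 * kt 7 ^ 4
  | _ => 0

theorem kummer_seven (K : Type*) [Field K] [NumberField K] [IsCyclotomicExtension {7} ℚ K]
    (u : (𝓞 K)ˣ) (hu : ∃ n : ℤ, ((7 : ℕ) : 𝓞 K) ∣ (u : 𝓞 K) - n) : ∃ w : (𝓞 K)ˣ, u = w ^ 7 := by
  have ht : kt 7 ^ 5 = 0 := kt_pow 7
  have hp : (7 : KB 7) = 0 := by exact_mod_cast natCast_KB 7
  have hp0 : (7 : ZMod 7) = 0 := by decide
  generalize hT : kt 7 = t at ht
  refine kummer_criterion' (p := 7) (by norm_num) K (d := 3) (by norm_num) kummerV7 ?_ ?_ ?_ u hu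
  · simp only [kummerV7, hT]
    linear_combination (1) * ht + (0) * hp
  · intro k hk1 hk2
    interval_cases k
    · simp only [kummerV7, geomF, geomS, hT, Finset.sum_range_succ, Finset.sum_range_zero]
      push_cast
      linear_combination (2) * ht + (-1 - 1 * t + 1 * t ^ 3 + 1 * t ^ 4) * hp
    · simp only [kummerV7, geomF, geomS, hT, Finset.sum_range_succ, Finset.sum_range_zero]
      push_cast
      linear_combination (6 + 3 * t) * ht + (1 * t + 1 * t ^ 2 - 1 * t ^ 3) * hp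
  · intro c hc
    have hz := KB_coeff_zero (p := 7) (n := 5) (by norm_num)
      (fun i => match i with
        | 0 => c 0 * (1) + c 1 * (-3) + c 2 * (1)
        | 1 => c 0 * (-1) + c 1 * (-2) + c 2 * (2)
        | 2 => c 0 * (1) + c 1 * (1)
        | 3 => c 0 * (-1) + c 1 * (3) + c 2 * (-3)
        | 4 => c 0 * (1) + c 1 * (2) + c 2 * (3)
        | _ => 0) (by
        simp only [Finset.sum_range_succ, Finset.sum_range_zero, kummerV7, hT] at hc ⊢
        simp only [map_add, map_mul, map_neg, map_ofNat, map_one, map_zero]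
        linear_combination hc)
    have e0 := hz 0 (by norm_num)
    have e1 := hz 1 (by norm_num)
    have e2 := hz 3 (by norm_num)
    simp only [] at e0 e1 e2
    intro k hk
    interval_cases k
    · linear_combination (0) * e0 + (-2) * e1 + (1) * e2 + ((0) * c 0 + (-1) * c 1 + (1) * c 2) * hp0
    · linear_combination (3) * e0 + (-3) * e1 + (-1) * e2 + ((-1) * c 0 + (1) * c 1 + (0) * c 2) * hp0
    · linear_combination (3) * e0 + (0) * e1 + (3) * e2 + ((0) * c 0 + (0) * c 1 + (1) * c 2) * hp0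

end Fermat.Agent.FLTSmall
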