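-- Kummer's lemma for p = 5, 7, 11, 13 (generated certificates).
import Fermat.Agent.FLTSmall.Kummer

set_option autoImplicit false

namespace Fermat.Agent.FLTSmall

open NumberField Polynomial Finset

/-! ### `p = 5` -/

/-- Logarithmic derivatives of the cyclotomic units for `p = 5` (rows), as naturals. -/
def natA5 : Fin 2 → Fin 3 → ℕ :=
  ![![4, 1, 4],
    ![3, 1, 2]]

/-- The same matrix over `ZMod 5`. -/
def matA5 : Matrix (Fin 2) (Fin 3) (ZMod 5) :=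
  Matrix.of fun i k => ((natA5 i k : ℕ) : ZMod 5)

/-- A right inverse of `matA5`. -/
def matB5 : Matrix (Fin 3) (Fin 2) (ZMod 5) :=
  !![1, 4;
    2, 4;
    0, 0]

theorem matA5_mul_matB5 : matA5 * matB5 = 1 := by decide

theorem row5_0 : ∑ i ∈ range 4, (i : TruncRing 5 3) * (1 + tt 5 3) ^ (i - 1) =
    (truncEmb 5 3) (matA5 0) * ∑ i ∈ range 4, (1 + tt 5 3) ^ i := by
  have ht : tt 5 3 ^ 3 = 0 := tt_pow 5 3
  have hp : (5 : TruncRing 5 3) = 0 := by exact_mod_cast natCast_p_eq_zero 5 3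
  have h1 : truncEmb 5 3 (matA5 0) = _ := truncEmb_natCast 5 3 (natA5 0)
  rw [h1]
  simp only [Finset.sum_range_succ, Finset.sum_range_zero, Fin.sum_univ_succ, natA5]
  simp
  generalize tt 5 3 = t at *
  linear_combination ((-32) + (-17) * t + (-4) * t ^ 2) * ht +
    ((-2) + (-4) * t + (-7) * t ^ 2) * hp

theorem row5_1 : ∑ i ∈ range 2, (i : TruncRing 5 3) * (1 + tt 5 3) ^ (i - 1) =
    (truncEmb 5 3) (matA5 1) * ∑ i ∈ range 2, (1 + tt 5 3) ^ i := by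
  have ht : tt 5 3 ^ 3 = 0 := tt_pow 5 3
  have hp : (5 : TruncRing 5 3) = 0 := by exact_mod_cast natCast_p_eq_zero 5 3
  have h1 : truncEmb 5 3 (matA5 1) = _ := truncEmb_natCast 5 3 (natA5 1)
  rw [h1]
  simp only [Finset.sum_range_succ, Finset.sum_range_zero, Fin.sum_univ_succ, natA5]
  simp
  generalize tt 5 3 = t at *
  linear_combination ((-2)) * ht +
    ((-1) + (-1) * t + (-1) * t ^ 2) * hp

/-- **Kummer's lemma** for `p = 5`. -/
theorem kummer_five (K : Type*) [Field K] [NumberField K] [IsCyclotomicExtension {5} ℚ K]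
    (u : (𝓞 K)ˣ) (hu : ∃ n : ℤ, ((5 : ℕ) : 𝓞 K) ∣ (u : 𝓞 K) - n) :
    ∃ v : (𝓞 K)ˣ, u = v ^ 5 := by
  have : Fact (Nat.Prime 5) := ⟨by norm_num⟩
  have hζ := IsCyclotomicExtension.zeta_spec 5 ℚ K
  have hm : 3 + 2 = 5 := rfl
  refine kummer_of_linearIndependent hζ hm (by norm_num) (κ := Fin 2) (by simp)
    ![cycUnit hζ 4 (by norm_num), cycUnit hζ 2 (by norm_num)] ?_ u hu
  convert linearIndependent_truncEmb matA5 matB5 matA5_mul_matB5 using 1
  funext i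
  fin_cases i
  · exact dlog_cycUnit hζ hm 4 (by norm_num) _ row5_0
  · exact dlog_cycUnit hζ hm 2 (by norm_num) _ row5_1

/-! ### `p = 7` -/

/-- Logarithmic derivatives of the cyclotomic units for `p = 7` (rows), as naturals. -/
def natA7 : Fin 3 → Fin 5 → ℕ :=
  ![![6, 1, 6, 1, 6],
    ![4, 5, 1, 3, 2],
    ![1, 2, 0, 4, 3]]

/-- The same matrix over `ZMod 7`. -/
def matA7 : Matrix (Fin 3) (Fin 5) (ZMod 7) :=
  Matrix.of fun i k => ((natA7 i k : ℕ) : ZMod 7)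

/-- A right inverse of `matA7`. -/
def matB7 : Matrix (Fin 5) (Fin 3) (ZMod 7) :=
  !![0, 3, 3;
    2, 4, 0;
    0, 0, 0;
    6, 6, 3;
    0, 0, 0]

theorem matA7_mul_matB7 : matA7 * matB7 = 1 := by decide

theorem row7_0 : ∑ i ∈ range 6, (i : TruncRing 7 5) * (1 + tt 7 5) ^ (i - 1) =
    (truncEmb 7 5) (matA7 0) * ∑ i ∈ range 6, (1 + tt 7 5) ^ i := by
  have ht : tt 7 5 ^ 5 = 0 := tt_pow 7 5
  have hp : (7 : TruncRing 7 5) = 0 := by exact_mod_cast natCast_p_eq_zero 7 5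
  have h1 : truncEmb 7 5 (matA7 0) = _ := truncEmb_natCast 7 5 (natA7 0)
  rw [h1]
  simp only [Finset.sum_range_succ, Finset.sum_range_zero, Fin.sum_univ_succ, natA7]
  simp
  generalize tt 7 5 = t at *
  linear_combination ((-212) + (-172) * t + (-102) * t ^ 2 + (-37) * t ^ 3 + (-6) * t ^ 4) * ht +
    ((-3) + (-8) * t + (-18) * t ^ 2 + (-26) * t ^ 3 + (-31) * t ^ 4) * hp

theorem row7_1 : ∑ i ∈ range 2, (i : TruncRing 7 5) * (1 + tt 7 5) ^ (i - 1) =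
    (truncEmb 7 5) (matA7 1) * ∑ i ∈ range 2, (1 + tt 7 5) ^ i := by
  have ht : tt 7 5 ^ 5 = 0 := tt_pow 7 5
  have hp : (7 : TruncRing 7 5) = 0 := by exact_mod_cast natCast_p_eq_zero 7 5
  have h1 : truncEmb 7 5 (matA7 1) = _ := truncEmb_natCast 7 5 (natA7 1)
  rw [h1]
  simp only [Finset.sum_range_succ, Finset.sum_range_zero, Fin.sum_univ_succ, natA7]
  simp
  generalize tt 7 5 = t at *
  linear_combination ((-2)) * ht +
    ((-1) + (-2) * t + (-1) * t ^ 2 + (-1) * t ^ 3 + (-1) * t ^ 4) * hp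

theorem row7_2 : ∑ i ∈ range 3, (i : TruncRing 7 5) * (1 + tt 7 5) ^ (i - 1) =
    (truncEmb 7 5) (matA7 2) * ∑ i ∈ range 3, (1 + tt 7 5) ^ i := by
  have ht : tt 7 5 ^ 5 = 0 := tt_pow 7 5
  have hp : (7 : TruncRing 7 5) = 0 := by exact_mod_cast natCast_p_eq_zero 7 5
  have h1 : truncEmb 7 5 (matA7 2) = _ := truncEmb_natCast 7 5 (natA7 2)
  rw [h1]
  simp only [Finset.sum_range_succ, Finset.sum_range_zero, Fin.sum_univ_succ, natA7]
  simp
  generalize tt 7 5 = t at *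
  linear_combination ((-13) + (-3) * t) * ht +
    ((-1) * t + (-1) * t ^ 2 + (-2) * t ^ 3 + (-3) * t ^ 4) * hp

/-- **Kummer's lemma** for `p = 7`. -/
theorem kummer_seven (K : Type*) [Field K] [NumberField K] [IsCyclotomicExtension {7} ℚ K]
    (u : (𝓞 K)ˣ) (hu : ∃ n : ℤ, ((7 : ℕ) : 𝓞 K) ∣ (u : 𝓞 K) - n) :
    ∃ v : (𝓞 K)ˣ, u = v ^ 7 := by
  have : Fact (Nat.Prime 7) := ⟨by norm_num⟩
  have hζ := IsCyclotomicExtension.zeta_spec 7 ℚ K
  have hm : 5 + 2 = 7 := rfl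
  refine kummer_of_linearIndependent hζ hm (by norm_num) (κ := Fin 3) (by simp)
    ![cycUnit hζ 6 (by norm_num), cycUnit hζ 2 (by norm_num), cycUnit hζ 3 (by norm_num)] ?_ u hu
  convert linearIndependent_truncEmb matA7 matB7 matA7_mul_matB7 using 1
  funext i
  fin_cases i
  · exact dlog_cycUnit hζ hm 6 (by norm_num) _ row7_0
  · exact dlog_cycUnit hζ hm 2 (by norm_num) _ row7_1
  · exact dlog_cycUnit hζ hm 3 (by norm_num) _ row7_2

/-! ### `p = 11` -/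

/-- Logarithmic derivatives of the cyclotomic units for `p = 11` (rows), as naturals. -/
def natA11 : Fin 5 → Fin 9 → ℕ :=
  ![![10, 1, 10, 1, 10, 1, 10, 1, 10],
    ![6, 8, 7, 2, 10, 6, 8, 7, 2],
    ![1, 7, 0, 5, 6, 7, 2, 3, 0],
    ![7, 8, 1, 8, 7, 6, 4, 0, 0],
    ![2, 0, 10, 3, 0, 6, 5, 6, 5]]

/-- The same matrix over `ZMod 11`. -/
def matA11 : Matrix (Fin 5) (Fin 9) (ZMod 11) :=
  Matrix.of fun i k => ((natA11 i k : ℕ) : ZMod 11)

/-- A right inverse of `matA11`. -/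
def matB11 : Matrix (Fin 9) (Fin 5) (ZMod 11) :=
  !![2, 6, 7, 0, 2;
    10, 8, 7, 4, 2;
    0, 0, 0, 0, 0;
    2, 0, 1, 3, 1;
    0, 0, 0, 0, 0;
    0, 8, 5, 0, 1;
    0, 0, 0, 0, 0;
    2, 1, 5, 4, 9;
    0, 0, 0, 0, 0]

theorem matA11_mul_matB11 : matA11 * matB11 = 1 := by decide

theorem row11_0 : ∑ i ∈ range 10, (i : TruncRing 11 9) * (1 + tt 11 9) ^ (i - 1) =
    (truncEmb 11 9) (matA11 0) * ∑ i ∈ range 10, (1 + tt 11 9) ^ i := by
  have ht : tt 11 9 ^ 9 = 0 := tt_pow 11 9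
  have hp : (11 : TruncRing 11 9) = 0 := by exact_mod_cast natCast_p_eq_zero 11 9
  have h1 : truncEmb 11 9 (matA11 0) = _ := truncEmb_natCast 11 9 (natA11 0)
  rw [h1]
  simp only [Finset.sum_range_succ, Finset.sum_range_zero, Fin.sum_univ_succ, natA11]
  simp
  generalize tt 11 9 = t at *
  linear_combination ((-5612) + (-5486) * t + (-5042) * t ^ 2 + (-4076) * t ^ 3 + (-2690) * t ^ 4 + (-1346) * t ^ 5 + (-470) * t ^ 6 + (-101) * t ^ 7 + (-10) * t ^ 8) * ht +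
    ((-5) + (-20) * t + (-65) * t ^ 2 + (-152) * t ^ 3 + (-275) * t ^ 4 + (-392) * t ^ 5 + (-470) * t ^ 6 + (-502) * t ^ 7 + (-511) * t ^ 8) * hp

theorem row11_1 : ∑ i ∈ range 2, (i : TruncRing 11 9) * (1 + tt 11 9) ^ (i - 1) =
    (truncEmb 11 9) (matA11 1) * ∑ i ∈ range 2, (1 + tt 11 9) ^ i := by
  have ht : tt 11 9 ^ 9 = 0 := tt_pow 11 9
  have hp : (11 : TruncRing 11 9) = 0 := by exact_mod_cast natCast_p_eq_zero 11 9
  have h1 : truncEmb 11 9 (matA11 1) = _ := truncEmb_natCast 11 9 (natA11 1)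
  rw [h1]
  simp only [Finset.sum_range_succ, Finset.sum_range_zero, Fin.sum_univ_succ, natA11]
  simp
  generalize tt 11 9 = t at *
  linear_combination ((-2)) * ht +
    ((-1) + (-2) * t + (-2) * t ^ 2 + (-1) * t ^ 3 + (-2) * t ^ 4 + (-2) * t ^ 5 + (-2) * t ^ 6 + (-2) * t ^ 7 + (-1) * t ^ 8) * hp

theorem row11_2 : ∑ i ∈ range 3, (i : TruncRing 11 9) * (1 + tt 11 9) ^ (i - 1) =
    (truncEmb 11 9) (matA11 2) * ∑ i ∈ range 3, (1 + tt 11 9) ^ i := by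
  have ht : tt 11 9 ^ 9 = 0 := tt_pow 11 9
  have hp : (11 : TruncRing 11 9) = 0 := by exact_mod_cast natCast_p_eq_zero 11 9
  have h1 : truncEmb 11 9 (matA11 2) = _ := truncEmb_natCast 11 9 (natA11 2)
  rw [h1]
  simp only [Finset.sum_range_succ, Finset.sum_range_zero, Fin.sum_univ_succ, natA11]
  simp
  generalize tt 11 9 = t at *
  linear_combination ((-3)) * ht +
    ((-2) * t + (-2) * t ^ 2 + (-2) * t ^ 3 + (-3) * t ^ 4 + (-4) * t ^ 5 + (-3) * t ^ 6 + (-2) * t ^ 7 + (-1) * t ^ 8) * hp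

theorem row11_3 : ∑ i ∈ range 4, (i : TruncRing 11 9) * (1 + tt 11 9) ^ (i - 1) =
    (truncEmb 11 9) (matA11 3) * ∑ i ∈ range 4, (1 + tt 11 9) ^ i := by
  have ht : tt 11 9 ^ 9 = 0 := tt_pow 11 9
  have hp : (11 : TruncRing 11 9) = 0 := by exact_mod_cast natCast_p_eq_zero 11 9
  have h1 : truncEmb 11 9 (matA11 3) = _ := truncEmb_natCast 11 9 (natA11 3)
  rw [h1]
  simp only [Finset.sum_range_succ, Finset.sum_range_zero, Fin.sum_univ_succ, natA11]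
  simp
  generalize tt 11 9 = t at *
  linear_combination ((-4)) * ht +
    ((-2) + (-6) * t + (-7) * t ^ 2 + (-7) * t ^ 3 + (-8) * t ^ 4 + (-9) * t ^ 5 + (-8) * t ^ 6 + (-5) * t ^ 7 + (-2) * t ^ 8) * hp

theorem row11_4 : ∑ i ∈ range 5, (i : TruncRing 11 9) * (1 + tt 11 9) ^ (i - 1) =
    (truncEmb 11 9) (matA11 4) * ∑ i ∈ range 5, (1 + tt 11 9) ^ i := by
  have ht : tt 11 9 ^ 9 = 0 := tt_pow 11 9
  have hp : (11 : TruncRing 11 9) = 0 := by exact_mod_cast natCast_p_eq_zero 11 9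
  have h1 : truncEmb 11 9 (matA11 4) = _ := truncEmb_natCast 11 9 (natA11 4)
  rw [h1]
  simp only [Finset.sum_range_succ, Finset.sum_range_zero, Fin.sum_univ_succ, natA11]
  simp
  generalize tt 11 9 = t at *
  linear_combination ((-141) + (-85) * t + (-31) * t ^ 2 + (-5) * t ^ 3) * ht +
    ((-5) * t ^ 2 + (-11) * t ^ 3 + (-12) * t ^ 4 + (-10) * t ^ 5 + (-10) * t ^ 6 + (-13) * t ^ 7 + (-15) * t ^ 8) * hp

/-- **Kummer's lemma** for `p = 11`. -/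
theorem kummer_eleven (K : Type*) [Field K] [NumberField K] [IsCyclotomicExtension {11} ℚ K]
    (u : (𝓞 K)ˣ) (hu : ∃ n : ℤ, ((11 : ℕ) : 𝓞 K) ∣ (u : 𝓞 K) - n) :
    ∃ v : (𝓞 K)ˣ, u = v ^ 11 := by
  have : Fact (Nat.Prime 11) := ⟨by norm_num⟩
  have hζ := IsCyclotomicExtension.zeta_spec 11 ℚ K
  have hm : 9 + 2 = 11 := rfl
  refine kummer_of_linearIndependent hζ hm (by norm_num) (κ := Fin 5) (by simp)
    ![cycUnit hζ 10 (by norm_num), cycUnit hζ 2 (by norm_num), cycUnit hζ 3 (by norm_num), cycUnit hζ 4 (by norm_num), cycUnit hζ 5 (by norm_num)] ?_ u hu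
  convert linearIndependent_truncEmb matA11 matB11 matA11_mul_matB11 using 1
  funext i
  fin_cases i
  · exact dlog_cycUnit hζ hm 10 (by norm_num) _ row11_0
  · exact dlog_cycUnit hζ hm 2 (by norm_num) _ row11_1
  · exact dlog_cycUnit hζ hm 3 (by norm_num) _ row11_2
  · exact dlog_cycUnit hζ hm 4 (by norm_num) _ row11_3
  · exact dlog_cycUnit hζ hm 5 (by norm_num) _ row11_4

/-! ### `p = 13` -/

/-- Logarithmic derivatives of the cyclotomic units for `p = 13` (rows), as naturals. -/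
def natA13 : Fin 6 → Fin 11 → ℕ :=
  ![![12, 1, 12, 1, 12, 1, 12, 1, 12, 1, 12],
    ![7, 3, 5, 4, 11, 1, 6, 10, 8, 9, 2],
    ![1, 4, 0, 3, 10, 2, 12, 9, 0, 10, 3],
    ![8, 3, 11, 11, 1, 1, 11, 5, 4, 9, 4],
    ![2, 0, 12, 6, 0, 2, 11, 4, 7, 3, 5],
    ![9, 8, 3, 8, 9, 1, 6, 7, 6, 7, 6]]

/-- The same matrix over `ZMod 13`. -/
def matA13 : Matrix (Fin 6) (Fin 11) (ZMod 13) :=
  Matrix.of fun i k => ((natA13 i k : ℕ) : ZMod 13)

/-- A right inverse of `matA13`. -/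
def matB13 : Matrix (Fin 11) (Fin 6) (ZMod 13) :=
  !![12, 10, 12, 7, 4, 4;
    10, 2, 12, 11, 2, 1;
    0, 0, 0, 0, 0, 0;
    10, 10, 2, 9, 2, 2;
    0, 0, 0, 0, 0, 0;
    4, 7, 4, 9, 7, 11;
    0, 0, 0, 0, 0, 0;
    6, 11, 0, 6, 1, 1;
    0, 0, 0, 0, 0, 0;
    9, 6, 7, 11, 5, 2;
    0, 0, 0, 0, 0, 0]

theorem matA13_mul_matB13 : matA13 * matB13 = 1 := by decide

theorem row13_0 : ∑ i ∈ range 12, (i : TruncRing 13 11) * (1 + tt 13 11) ^ (i - 1) =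
    (truncEmb 13 11) (matA13 0) * ∑ i ∈ range 12, (1 + tt 13 11) ^ i := by
  have ht : tt 13 11 ^ 11 = 0 := tt_pow 13 11
  have hp : (13 : TruncRing 13 11) = 0 := by exact_mod_cast natCast_p_eq_zero 13 11
  have h1 : truncEmb 13 11 (matA13 0) = _ := truncEmb_natCast 13 11 (natA13 0)
  rw [h1]
  simp only [Finset.sum_range_succ, Finset.sum_range_zero, Fin.sum_univ_succ, natA13]
  simp
  generalize tt 13 11 = t at *
  linear_combination ((-26600) + (-26413) * t + (-25588) * t ^ 2 + (-23278) * t ^ 3 + (-18856) * t ^ 4 + (-12850) * t ^ 5 + (-6976) * t ^ 6 + (-2851) * t ^ 7 + (-816) * t ^ 8 + (-145) * t ^ 9 + (-12) * t ^ 10) * ht +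
    ((-6) + (-28) * t + (-105) * t ^ 2 + (-292) * t ^ 3 + (-633) * t ^ 4 + (-1084) * t ^ 5 + (-1524) * t ^ 6 + (-1832) * t ^ 7 + (-1986) * t ^ 8 + (-2036) * t ^ 9 + (-2047) * t ^ 10) * hp

theorem row13_1 : ∑ i ∈ range 2, (i : TruncRing 13 11) * (1 + tt 13 11) ^ (i - 1) =
    (truncEmb 13 11) (matA13 1) * ∑ i ∈ range 2, (1 + tt 13 11) ^ i := by
  have ht : tt 13 11 ^ 11 = 0 := tt_pow 13 11
  have hp : (13 : TruncRing 13 11) = 0 := by exact_mod_cast natCast_p_eq_zero 13 11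
  have h1 : truncEmb 13 11 (matA13 1) = _ := truncEmb_natCast 13 11 (natA13 1)
  rw [h1]
  simp only [Finset.sum_range_succ, Finset.sum_range_zero, Fin.sum_univ_succ, natA13]
  simp
  generalize tt 13 11 = t at *
  linear_combination ((-2)) * ht +
    ((-1) + (-1) * t + (-1) * t ^ 2 + (-1) * t ^ 3 + (-2) * t ^ 4 + (-1) * t ^ 5 + (-1) * t ^ 6 + (-2) * t ^ 7 + (-2) * t ^ 8 + (-2) * t ^ 9 + (-1) * t ^ 10) * hp

theorem row13_2 : ∑ i ∈ range 3, (i : TruncRing 13 11) * (1 + tt 13 11) ^ (i - 1) =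
    (truncEmb 13 11) (matA13 2) * ∑ i ∈ range 3, (1 + tt 13 11) ^ i := by
  have ht : tt 13 11 ^ 11 = 0 := tt_pow 13 11
  have hp : (13 : TruncRing 13 11) = 0 := by exact_mod_cast natCast_p_eq_zero 13 11
  have h1 : truncEmb 13 11 (matA13 2) = _ := truncEmb_natCast 13 11 (natA13 2)
  rw [h1]
  simp only [Finset.sum_range_succ, Finset.sum_range_zero, Fin.sum_univ_succ, natA13]
  simp
  generalize tt 13 11 = t at *
  linear_combination ((-19) + (-3) * t) * ht +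
    ((-1) * t + (-1) * t ^ 2 + (-1) * t ^ 3 + (-3) * t ^ 4 + (-3) * t ^ 5 + (-4) * t ^ 6 + (-5) * t ^ 7 + (-3) * t ^ 8 + (-3) * t ^ 9 + (-3) * t ^ 10) * hp

theorem row13_3 : ∑ i ∈ range 4, (i : TruncRing 13 11) * (1 + tt 13 11) ^ (i - 1) =
    (truncEmb 13 11) (matA13 3) * ∑ i ∈ range 4, (1 + tt 13 11) ^ i := by
  have ht : tt 13 11 ^ 11 = 0 := tt_pow 13 11
  have hp : (13 : TruncRing 13 11) = 0 := by exact_mod_cast natCast_p_eq_zero 13 11
  have h1 : truncEmb 13 11 (matA13 3) = _ := truncEmb_natCast 13 11 (natA13 3)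
  rw [h1]
  simp only [Finset.sum_range_succ, Finset.sum_range_zero, Fin.sum_univ_succ, natA13]
  simp
  generalize tt 13 11 = t at *
  linear_combination ((-64) + (-25) * t + (-4) * t ^ 2) * ht +
    ((-2) + (-4) * t + (-7) * t ^ 2 + (-10) * t ^ 3 + (-9) * t ^ 4 + (-5) * t ^ 5 + (-5) * t ^ 6 + (-7) * t ^ 7 + (-7) * t ^ 8 + (-7) * t ^ 9 + (-7) * t ^ 10) * hp

theorem row13_4 : ∑ i ∈ range 5, (i : TruncRing 13 11) * (1 + tt 13 11) ^ (i - 1) =
    (truncEmb 13 11) (matA13 4) * ∑ i ∈ range 5, (1 + tt 13 11) ^ i := by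
  have ht : tt 13 11 ^ 11 = 0 := tt_pow 13 11
  have hp : (13 : TruncRing 13 11) = 0 := by exact_mod_cast natCast_p_eq_zero 13 11
  have h1 : truncEmb 13 11 (matA13 4) = _ := truncEmb_natCast 13 11 (natA13 4)
  rw [h1]
  simp only [Finset.sum_range_succ, Finset.sum_range_zero, Fin.sum_univ_succ, natA13]
  simp
  generalize tt 13 11 = t at *
  linear_combination ((-119) + (-72) * t + (-28) * t ^ 2 + (-5) * t ^ 3) * ht +
    ((-5) * t ^ 2 + (-12) * t ^ 3 + (-14) * t ^ 4 + (-10) * t ^ 5 + (-9) * t ^ 6 + (-12) * t ^ 7 + (-15) * t ^ 8 + (-14) * t ^ 9 + (-12) * t ^ 10) * hp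

theorem row13_5 : ∑ i ∈ range 6, (i : TruncRing 13 11) * (1 + tt 13 11) ^ (i - 1) =
    (truncEmb 13 11) (matA13 5) * ∑ i ∈ range 6, (1 + tt 13 11) ^ i := by
  have ht : tt 13 11 ^ 11 = 0 := tt_pow 13 11
  have hp : (13 : TruncRing 13 11) = 0 := by exact_mod_cast natCast_p_eq_zero 13 11
  have h1 : truncEmb 13 11 (matA13 5) = _ := truncEmb_natCast 13 11 (natA13 5)
  rw [h1]
  simp only [Finset.sum_range_succ, Finset.sum_range_zero, Fin.sum_univ_succ, natA13]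
  simp
  generalize tt 13 11 = t at *
  linear_combination ((-368) + (-268) * t + (-138) * t ^ 2 + (-43) * t ^ 3 + (-6) * t ^ 4) * ht +
    ((-3) + (-11) * t + (-21) * t ^ 2 + (-28) * t ^ 3 + (-31) * t ^ 4 + (-31) * t ^ 5 + (-29) * t ^ 6 + (-26) * t ^ 7 + (-26) * t ^ 8 + (-29) * t ^ 9 + (-31) * t ^ 10) * hp

/-- **Kummer's lemma** for `p = 13`. -/
theorem kummer_thirteen (K : Type*) [Field K] [NumberField K] [IsCyclotomicExtension {13} ℚ K]
    (u : (𝓞 K)ˣ) (hu : ∃ n : ℤ, ((13 : ℕ) : 𝓞 K) ∣ (u : 𝓞 K) - n) :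
    ∃ v : (𝓞 K)ˣ, u = v ^ 13 := by
  have : Fact (Nat.Prime 13) := ⟨by norm_num⟩
  have hζ := IsCyclotomicExtension.zeta_spec 13 ℚ K
  have hm : 11 + 2 = 13 := rfl
  refine kummer_of_linearIndependent hζ hm (by norm_num) (κ := Fin 6) (by simp)
    ![cycUnit hζ 12 (by norm_num), cycUnit hζ 2 (by norm_num), cycUnit hζ 3 (by norm_num), cycUnit hζ 4 (by norm_num), cycUnit hζ 5 (by norm_num), cycUnit hζ 6 (by norm_num)] ?_ u hu
  convert linearIndependent_truncEmb matA13 matB13 matA13_mul_matB13 using 1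
  funext i
  fin_cases i
  · exact dlog_cycUnit hζ hm 12 (by norm_num) _ row13_0
  · exact dlog_cycUnit hζ hm 2 (by norm_num) _ row13_1
  · exact dlog_cycUnit hζ hm 3 (by norm_num) _ row13_2
  · exact dlog_cycUnit hζ hm 4 (by norm_num) _ row13_3
  · exact dlog_cycUnit hζ hm 5 (by norm_num) _ row13_4
  · exact dlog_cycUnit hζ hm 6 (by norm_num) _ row13_5

end Fermat.Agent.FLTSmall
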