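/-
`ℤ[ζ_p]` is a principal ideal domain for `p = 7, 11, 13`
(the case `p = 5` is `IsCyclotomicExtension.Rat.five_pid` in Mathlib).

Method: Minkowski bound + inertia degrees in cyclotomic fields + explicit elements whose norm
is the relevant prime power (norm computed as the product of the Galois conjugates).
-/
import Mathlib

set_option autoImplicit false

open NumberField IsCyclotomicExtension Ideal

namespace Fermat.Agent.FLTSmall.PID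

/-- In a Dedekind domain finite free over `ℤ`, two nested ideals with the same nonzero norm
are equal. -/
lemma ideal_eq_of_le_of_absNorm_eq {S : Type*} [CommRing S] [IsDedekindDomain S]
    [Module.Free ℤ S] [Module.Finite ℤ S] {I J : Ideal S} (hle : I ≤ J)
    (h : absNorm I = absNorm J) (h0 : absNorm I ≠ 0) : I = J := by
  obtain ⟨L, rfl⟩ := Ideal.dvd_iff_le.mpr hle
  rw [map_mul] at h h0
  have hJ : absNorm J ≠ 0 := left_ne_zero_of_mul h0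
  have hL : absNorm L = 1 := by
    have := Nat.eq_of_mul_eq_mul_left (Nat.pos_of_ne_zero hJ) (h.trans (mul_one _).symm)
    exact this
  rw [Ideal.absNorm_eq_one_iff.mp hL, Ideal.mul_top]

lemma orderOf_natCast_pos {ℓ : ℕ} [NeZero ℓ] {q : ℕ} (hcop : q.Coprime ℓ) :
    0 < orderOf (q : ZMod ℓ) := by
  have : IsOfFinOrder (ZMod.unitOfCoprime q hcop) := isOfFinOrder_of_finite _
  have h2 : IsOfFinOrder ((ZMod.unitOfCoprime q hcop : (ZMod ℓ)ˣ) : ZMod ℓ) :=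
    (Units.coeHom (ZMod ℓ)).isOfFinOrder this
  rw [ZMod.coe_unitOfCoprime] at h2
  exact h2.orderOf_pos

/-- If `x` has norm `± q ^ f` with `f` the order of `q` mod `ℓ`, there is a principal prime
above `q`. -/
lemma exists_isPrincipal_primesOver {ℓ : ℕ} [NeZero ℓ] {K : Type*} [Field K] [NumberField K]
    [IsCyclotomicExtension {ℓ} ℚ K] {q : ℕ} (hq : q.Prime) (hqℓ : ¬ q ∣ ℓ) (x : 𝓞 K)
    (hx : (Algebra.norm ℤ x).natAbs = q ^ orderOf (q : ZMod ℓ)) :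
    ∃ P ∈ primesOver (span {(q : ℤ)}) (𝓞 K), Submodule.IsPrincipal P := by
  have : Fact q.Prime := ⟨hq⟩
  have hf : 0 < orderOf (q : ZMod ℓ) := orderOf_natCast_pos (hq.coprime_iff_not_dvd.mpr hqℓ)
  have habs : absNorm (span {x}) = q ^ orderOf (q : ZMod ℓ) := by
    rw [absNorm_span_singleton, hx]
  have hne : span {x} ≠ ⊤ := by
    intro h
    rw [h, absNorm_top] at habs
    exact (Nat.one_lt_pow hf.ne' hq.one_lt).ne habs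
  obtain ⟨P, hPmax, hle⟩ := Ideal.exists_le_maximal _ hne
  have := hPmax.isPrime
  have hqP : (q : 𝓞 K) ∈ P := by
    have h1 : ((absNorm (span {x}) : ℕ) : 𝓞 K) ∈ span {x} := Ideal.absNorm_mem _
    rw [habs] at h1
    have h2 := hle h1
    rw [Nat.cast_pow] at h2
    exact hPmax.isPrime.mem_of_pow_mem _ h2
  have hlies : P.LiesOver (span {(q : ℤ)}) := by
    constructor
    have hmax : (span {(q : ℤ)}).IsMaximal :=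
      (Nat.prime_iff_prime_int.mp hq).isMaximal_span_singleton
    refine hmax.eq_of_le (Ideal.comap_ne_top _ hPmax.ne_top) ?_
    rw [Ideal.span_singleton_le_iff_mem, Ideal.mem_comap]
    simpa using hqP
  refine ⟨P, ⟨inferInstance, hlies⟩, ?_⟩
  have hP : absNorm P = q ^ orderOf (q : ZMod ℓ) := by
    rw [← Rat.inertiaDeg_eq_of_not_dvd q K P hqℓ, pow_inertiaDeg q P]
  rw [← ideal_eq_of_le_of_absNorm_eq hle (habs.trans hP.symm)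
    (by rw [habs]; exact pow_ne_zero _ hq.ne_zero)]
  exact ⟨x, rfl⟩

open Real Module Nat in
/-- PID criterion for prime cyclotomic fields. -/
theorem pid_of_bound (ℓ : ℕ) [hℓ : Fact ℓ.Prime] (K : Type*) [Field K] [NumberField K]
    [IsCyclotomicExtension {ℓ} ℚ K] (B : ℕ)
    (hB : (4 / π) ^ InfinitePlace.nrComplexPlaces K *
      ((finrank ℚ K)! / (finrank ℚ K) ^ (finrank ℚ K) * √|discr K|) < B + 1)
    (h : ∀ q ≤ B, q.Prime → q ≠ ℓ → B < q ^ orderOf (q : ZMod ℓ) ∨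
      ∃ x : 𝓞 K, (Algebra.norm ℤ x).natAbs = q ^ orderOf (q : ZMod ℓ)) :
    IsPrincipalIdealRing (𝓞 K) := by
  have : IsGalois ℚ K := IsCyclotomicExtension.isGalois {ℓ} ℚ K
  have hfl : ⌊(4 / π) ^ InfinitePlace.nrComplexPlaces K *
      ((finrank ℚ K)! / (finrank ℚ K) ^ (finrank ℚ K) * √|discr K|)⌋₊ ≤ B := by
    rw [← Nat.lt_succ_iff, Nat.floor_lt (by positivity)]
    exact_mod_cast hB
  refine RingOfIntegers.isPrincipalIdealRing_of_isPrincipal_of_lt_or_isPrincipal_of_mem_primesOver_of_mem_Icc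
    fun q hqmem hq => ?_
  have hqB : q ≤ B := (Finset.mem_Icc.mp hqmem).2.trans hfl
  by_cases hqℓ : q = ℓ
  · subst hqℓ
    have hζ := IsCyclotomicExtension.zeta_spec q ℚ K
    obtain ⟨⟨P, hP1, hP2⟩⟩ := (span {(q : ℤ)}).nonempty_primesOver (S := 𝓞 K)
    refine ⟨P, ⟨hP1, hP2⟩, Or.inr ?_⟩
    rw [Rat.eq_span_zeta_sub_one_of_liesOver' q K hζ P]
    exact ⟨_, rfl⟩
  · have hndvd : ¬ q ∣ ℓ := fun hd => hqℓ ((Nat.prime_dvd_prime_iff_eq hq hℓ.out).mp hd)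
    have : Fact q.Prime := ⟨hq⟩
    rcases h q hqB hq hqℓ with h1 | ⟨x, hx⟩
    · obtain ⟨⟨P, hP1, hP2⟩⟩ := (span {(q : ℤ)}).nonempty_primesOver (S := 𝓞 K)
      refine ⟨P, ⟨hP1, hP2⟩, Or.inl ?_⟩
      rw [Rat.inertiaDeg_eq_of_not_dvd q K P hndvd]
      exact lt_of_le_of_lt hfl h1
    · obtain ⟨P, hP, hprin⟩ := exists_isPrincipal_primesOver hq hndvd x hx
      exact ⟨P, hP, Or.inr hprin⟩

/-- Lower bound for `q ^ orderOf q` from a finite check. -/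
lemma lt_pow_orderOf {ℓ q B J : ℕ} [NeZero ℓ] (hℓ : 1 < ℓ) (hq : 2 ≤ q) (hcop : q.Coprime ℓ)
    (hJ : B < 2 ^ J) (h : ∀ j < J, 0 < j → q ^ j ≤ B → q ^ j % ℓ ≠ 1) :
    B < q ^ orderOf (q : ZMod ℓ) := by
  by_contra hle
  rw [not_lt] at hle
  have hpos := orderOf_natCast_pos hcop
  have hlt : orderOf (q : ZMod ℓ) < J := by
    have h1 : 2 ^ orderOf (q : ZMod ℓ) ≤ q ^ orderOf (q : ZMod ℓ) := Nat.pow_le_pow_left hq _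
    exact (Nat.pow_lt_pow_iff_right (by norm_num : 1 < 2)).mp (lt_of_le_of_lt (h1.trans hle) hJ)
  refine h _ hlt hpos hle ?_
  have h1 : ((q ^ orderOf (q : ZMod ℓ) : ℕ) : ZMod ℓ) = ((1 : ℕ) : ZMod ℓ) := by
    rw [Nat.cast_pow, pow_orderOf_eq_one, Nat.cast_one]
  have h2 := (ZMod.natCast_eq_natCast_iff' _ _ _).mp h1
  rw [h2, Nat.mod_eq_of_lt hℓ]

lemma prod_units_eq_prod_range {ℓ : ℕ} [hℓ : Fact ℓ.Prime] {M : Type*} [CommMonoid M]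
    (G : ℕ → M) :
    ∏ k : (ZMod ℓ)ˣ, G k.val.val = ∏ i ∈ Finset.range (ℓ - 1), G (i + 1) := by
  have hpos : ∀ k : (ZMod ℓ)ˣ, 0 < k.val.val := fun k => by
    rw [Nat.pos_iff_ne_zero, Ne, ZMod.val_eq_zero]
    exact k.ne_zero
  have hlt : ∀ k : (ZMod ℓ)ˣ, k.val.val < ℓ := fun k => ZMod.val_lt _
  refine Finset.prod_bij (fun k _ => k.val.val - 1) ?_ ?_ ?_ ?_
  · intro k _
    have := hpos k; have := hlt k
    rw [Finset.mem_range]; omega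
  · intro k _ k' _ h
    have h1 := hpos k; have h2 := hpos k'
    have : k.val.val = k'.val.val := by omega
    exact Units.ext (ZMod.val_injective ℓ this)
  · intro i hi
    rw [Finset.mem_range] at hi
    have hcop : (i + 1).Coprime ℓ := by
      rw [Nat.coprime_comm, hℓ.out.coprime_iff_not_dvd]
      intro hd
      have := Nat.le_of_dvd (Nat.succ_pos i) hd
      omega
    refine ⟨ZMod.unitOfCoprime (i + 1) hcop, Finset.mem_univ _, ?_⟩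
    simp only [ZMod.coe_unitOfCoprime]
    rw [ZMod.val_natCast, Nat.mod_eq_of_lt (by omega)]
    rfl
  · intro k _
    have := hpos k
    congr 1
    omega

/-- The norm of `F ζ` as a product over the conjugates `F (ζ ^ n)`. -/
lemma norm_eq_prod_range {ℓ : ℕ} [hℓ : Fact ℓ.Prime] {K : Type*} [Field K] [NumberField K]
    [IsCyclotomicExtension {ℓ} ℚ K] (ζ : K) (hζ : ζ ^ ℓ = 1) (F : K → K)
    (hF : ∀ σ : K ≃ₐ[ℚ] K, σ (F ζ) = F (σ ζ)) :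
    algebraMap ℚ K (Algebra.norm ℚ (F ζ)) = ∏ i ∈ Finset.range (ℓ - 1), F (ζ ^ (i + 1)) := by
  have : IsGalois ℚ K := IsCyclotomicExtension.isGalois {ℓ} ℚ K
  rw [Algebra.norm_eq_prod_automorphisms, ← prod_units_eq_prod_range (fun n => F (ζ ^ n))]
  refine Fintype.prod_equiv (Rat.galEquivZMod ℓ K).toEquiv _ _ fun σ => ?_
  rw [hF σ, Rat.galEquivZMod_apply_of_pow_eq ℓ K σ hζ]
  rfl

lemma natAbs_norm_eq {ℓ : ℕ} [hℓ : Fact ℓ.Prime] {K : Type*} [Field K] [NumberField K]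
    [IsCyclotomicExtension {ℓ} ℚ K] (ζ : K) (hζ : ζ ^ ℓ = 1) (x : 𝓞 K) (F : K → K)
    (hx : (x : K) = F ζ) (hF : ∀ σ : K ≃ₐ[ℚ] K, σ (F ζ) = F (σ ζ)) (N : ℕ)
    (hprod : ∏ i ∈ Finset.range (ℓ - 1), F (ζ ^ (i + 1)) = (N : K)) :
    (Algebra.norm ℤ x).natAbs = N := by
  have h1 := norm_eq_prod_range ζ hζ F hF
  rw [hprod, ← hx, ← Algebra.coe_norm_int] at h1
  have h2 : ((Algebra.norm ℤ x : ℤ) : K) = ((N : ℤ) : K) := by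
    rw [Int.cast_natCast, ← h1]; simp
  have h3 : Algebra.norm ℤ x = (N : ℤ) := Int.cast_injective h2
  rw [h3, Int.natAbs_natCast]

theorem fact_prime_seven : Fact (Nat.Prime 7) := ⟨by norm_num⟩
theorem fact_prime_eleven : Fact (Nat.Prime 11) := ⟨by norm_num⟩
theorem fact_prime_thirteen : Fact (Nat.Prime 13) := ⟨by norm_num⟩

attribute [local instance] fact_prime_seven fact_prime_eleven fact_prime_thirteen

/-! ### Explicit products of conjugates -/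

lemma prod_11_23 {R : Type*} [CommRing R] (z : R)
    (h : 1 + z + z^2 + z^3 + z^4 + z^5 + z^6 + z^7 + z^8 + z^9 + z^10 = 0) :
    (1 + z^1 + (z^1)^3) *
      (1 + z^2 + (z^2)^3) *
      (1 + z^3 + (z^3)^3) *
      (1 + z^4 + (z^4)^3) *
      (1 + z^5 + (z^5)^3) *
      (1 + z^6 + (z^6)^3) *
      (1 + z^7 + (z^7)^3) *
      (1 + z^8 + (z^8)^3) *
      (1 + z^9 + (z^9)^3) *
      (1 + z^10 + (z^10)^3) = 23 := by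
  have hz : z^11 = 1 := by linear_combination (z - 1) * h
  have e1 : (1 + z^1 + (z^1)^3) =
      1 + z + z^3 := by
    linear_combination (0) * hz + (0) * h
  have e2 : (1 + z + z^3) * (1 + z^2 + (z^2)^3) =
      z^3 - z^4 - z^8 - z^10 := by
    linear_combination (0) * hz + (1) * h
  have e3 : (z^3 - z^4 - z^8 - z^10) * (1 + z^3 + (z^3)^3) =
      2*z - z^2 + 2*z^3 + z^5 + z^6 - z^8 + z^9 := by
    linear_combination (-1 + z - 2*z^2 - z^6 - z^8) * hz + (-1) * h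
  have e4 : (2*z - z^2 + 2*z^3 + z^5 + z^6 - z^8 + z^9) * (1 + z^4 + (z^4)^3) =
      -1 + z^2 + z^4 + 2*z^5 + 2*z^7 - 2*z^8 + z^10 := by
    linear_combination (-z + 3*z^2 - z^3 + 2*z^4 + z^6 + z^7 - z^9 + z^10) * hz + (1) * h
  have e5 : (-1 + z^2 + z^4 + 2*z^5 + 2*z^7 - 2*z^8 + z^10) * (1 + z^5 + (z^5)^3) =
      -z - 2*z^2 + 2*z^7 - 2*z^8 + 2*z^9 + 2*z^10 := by
    linear_combination (2 - 2*z^2 + z^3 + z^6 + z^8 + 2*z^9 + 2*z^11 - 2*z^12 + z^14) * hz + (1) * h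
  have e6 : (-z - 2*z^2 + 2*z^7 - 2*z^8 + 2*z^9 + 2*z^10) * (1 + z^6 + (z^6)^3) =
      -z + 4*z^5 + 2*z^6 + z^7 - 5*z^8 + 2*z^10 := by
    linear_combination (2*z^2 + 4*z^5 + 2*z^6 - z^8 - 2*z^9 + 2*z^14 - 2*z^15 + 2*z^16 + 2*z^17) * hz + (0) * h
  have e7 : (-z + 4*z^5 + 2*z^6 + z^7 - 5*z^8 + 2*z^10) * (1 + z^7 + (z^7)^3) =
      -3 + z - z^3 - 3*z^4 + 4*z^5 + 3*z^6 - 6*z^7 - 8*z^8 := by
    linear_combination (-1 + 4*z + 2*z^2 + z^3 - z^4 + 2*z^5 + 3*z^6 - 5*z^7 + 2*z^9 - z^11 + 4*z^15 + 2*z^16 + z^17 - 5*z^18 + 2*z^20) * hz + (2) * h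
  have e8 : (-3 + z - z^3 - 3*z^4 + 4*z^5 + 3*z^6 - 6*z^7 - 8*z^8) * (1 + z^8 + (z^8)^3) =
      2*z + 5*z^2 + 7*z^3 - 5*z^4 - z^5 + 4*z^6 + 2*z^7 - 4*z^8 - z^9 - 4*z^10 := by
    linear_combination (-1 - 3*z + z^2 + 4*z^3 - 6*z^4 - 9*z^5 - 3*z^6 + 4*z^7 + 3*z^8 - 6*z^9 - 8*z^10 - 3*z^13 + z^14 - z^16 - 3*z^17 + 4*z^18 + 3*z^19 - 6*z^20 - 8*z^21) * hz + (-4) * h
  have e9 : (2*z + 5*z^2 + 7*z^3 - 5*z^4 - z^5 + 4*z^6 + 2*z^7 - 4*z^8 - z^9 - 4*z^10) * (1 + z^9 + (z^9)^3) =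
      8 + 10*z - 5*z^2 + 4*z^3 - 6*z^4 + z^6 + 5*z^7 - 2*z^8 - 7*z^9 - 4*z^10 := by
    linear_combination (9 + 9*z - 9*z^2 - 2*z^3 + 2*z^5 - 2*z^6 + 4*z^7 + 3*z^8 - 5*z^9 - z^10 + 4*z^11 + 2*z^12 - 4*z^13 - z^14 - 4*z^15 + 2*z^17 + 5*z^18 + 7*z^19 - 5*z^20 - z^21 + 4*z^22 + 2*z^23 - 4*z^24 - z^25 - 4*z^26) * hz + (1) * h
  have e10 : (8 + 10*z - 5*z^2 + 4*z^3 - 6*z^4 + z^6 + 5*z^7 - 2*z^8 - 7*z^9 - 4*z^10) * (1 + z^10 + (z^10)^3) =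
      23 := by
    linear_combination (14 - 11*z + 4*z^2 - 5*z^3 + 5*z^4 - z^5 - 2*z^6 - 6*z^7 + z^8 + 6*z^9 - 5*z^10 + 4*z^11 - 6*z^12 + z^14 + 5*z^15 - 2*z^16 - 7*z^17 - 4*z^18 + 8*z^19 + 10*z^20 - 5*z^21 + 4*z^22 - 6*z^23 + z^25 + 5*z^26 - 2*z^27 - 7*z^28 - 4*z^29) * hz + (-1) * h
  rw [e1, e2, e3, e4, e5, e6, e7, e8, e9, e10]

lemma prod_13_53 {R : Type*} [CommRing R] (z : R)
    (h : 1 + z + z^2 + z^3 + z^4 + z^5 + z^6 + z^7 + z^8 + z^9 + z^10 + z^11 + z^12 = 0) :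
    (1 + z^1 + (z^1)^3) *
      (1 + z^2 + (z^2)^3) *
      (1 + z^3 + (z^3)^3) *
      (1 + z^4 + (z^4)^3) *
      (1 + z^5 + (z^5)^3) *
      (1 + z^6 + (z^6)^3) *
      (1 + z^7 + (z^7)^3) *
      (1 + z^8 + (z^8)^3) *
      (1 + z^9 + (z^9)^3) *
      (1 + z^10 + (z^10)^3) *
      (1 + z^11 + (z^11)^3) *
      (1 + z^12 + (z^12)^3) = 53 := by
  have hz : z^13 = 1 := by linear_combination (z - 1) * h
  have e1 : (1 + z^1 + (z^1)^3) =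
      1 + z + z^3 := by
    linear_combination (0) * hz + (0) * h
  have e2 : (1 + z + z^3) * (1 + z^2 + (z^2)^3) =
      z^3 - z^4 - z^8 - z^10 - z^11 - z^12 := by
    linear_combination (0) * hz + (1) * h
  have e3 : (z^3 - z^4 - z^8 - z^10 - z^11 - z^12) * (1 + z^3 + (z^3)^3) =
      -1 + 2*z^3 - z^4 + z^5 + z^6 - z^7 - z^8 + z^9 - z^11 + z^12 := by
    linear_combination (-2 - z - z^2 - z^4 - z^6 - z^7 - z^8) * hz + (-1) * h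
  have e4 : (-1 + 2*z^3 - z^4 + z^5 + z^6 - z^7 - z^8 + z^9 - z^11 + z^12) * (1 + z^4 + (z^4)^3) =
      z^2 + 2*z^3 - z^4 + 2*z^5 - z^8 + 2*z^9 - z^11 - z^12 := by
    linear_combination (1 + z^2 + z^4 + z^5 - z^6 - z^7 + z^8 - z^10 + z^11) * hz + (0) * h
  have e5 : (z^2 + 2*z^3 - z^4 + 2*z^5 - z^8 + 2*z^9 - z^11 - z^12) * (1 + z^5 + (z^5)^3) =
      -3 - 2*z^4 + 3*z^5 - 2*z^6 + 2*z^7 - 2*z^12 := by
    linear_combination (-2 + z - z^3 + 2*z^5 - z^6 + 2*z^7 - z^10 + 2*z^11 - z^13 - z^14) * hz + (1) * h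
  have e6 : (-3 - 2*z^4 + 3*z^5 - 2*z^6 + 2*z^7 - 2*z^12) * (1 + z^6 + (z^6)^3) =
      -1 - 4*z^4 - 2*z^5 - 5*z^6 + 2*z^7 - 2*z^9 + z^10 + z^11 - 2*z^12 := by
    linear_combination (2 - 2*z^4 - 5*z^5 - 2*z^9 + 3*z^10 - 2*z^11 + 2*z^12 - 2*z^17) * hz + (0) * h
  have e7 : (-1 - 4*z^4 - 2*z^5 - 5*z^6 + 2*z^7 - 2*z^9 + z^10 + z^11 - 2*z^12) * (1 + z^7 + (z^7)^3) =
      -6 - z + 4*z^2 - 3*z^4 + 2*z^5 - 4*z^6 + z^7 + z^8 + 3*z^10 - z^11 - 6*z^12 := by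
    linear_combination (-7 - 3*z + 2*z^2 - 2*z^3 - z^4 + 2*z^5 - z^6 - 2*z^7 - z^8 - 4*z^12 - 2*z^13 - 5*z^14 + 2*z^15 - 2*z^17 + z^18 + z^19 - 2*z^20) * hz + (-2) * h
  have e8 : (-6 - z + 4*z^2 - 3*z^4 + 2*z^5 - 4*z^6 + z^7 + z^8 + 3*z^10 - z^11 - 6*z^12) * (1 + z^8 + (z^8)^3) =
      2 - 3*z + 4*z^2 + 5*z^3 - 5*z^4 + 8*z^5 - 2*z^6 - 3*z^7 + 3*z^10 - 5*z^11 - 8*z^12 := by
    linear_combination (6 - 4*z - 2*z^2 + 3*z^3 - 4*z^4 + 4*z^5 - 6*z^7 + 3*z^8 - z^9 - 6*z^10 - 6*z^11 - z^12 + 4*z^13 - 3*z^15 + 2*z^16 - 4*z^17 + z^18 + z^19 + 3*z^21 - z^22 - 6*z^23) * hz + (-2) * h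
  have e9 : (2 - 3*z + 4*z^2 + 5*z^3 - 5*z^4 + 8*z^5 - 2*z^6 - 3*z^7 + 3*z^10 - 5*z^11 - 8*z^12) * (1 + z^9 + (z^9)^3) =
      -11 + 7*z - z^2 + 6*z^3 + 3*z^5 + 9*z^6 - 10*z^7 - 11*z^8 + 2*z^9 + 2*z^11 - 8*z^12 := by
    linear_combination (-13 + 10*z - 5*z^2 + z^3 + 5*z^4 - 5*z^5 + 11*z^6 - 7*z^7 - 11*z^8 + 3*z^11 - 5*z^12 - 8*z^13 + 2*z^14 - 3*z^15 + 4*z^16 + 5*z^17 - 5*z^18 + 8*z^19 - 2*z^20 - 3*z^21 + 3*z^24 - 5*z^25 - 8*z^26) * hz + (0) * h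
  have e10 : (-11 + 7*z - z^2 + 6*z^3 + 3*z^5 + 9*z^6 - 10*z^7 - 11*z^8 + 2*z^9 + 2*z^11 - 8*z^12) * (1 + z^10 + (z^10)^3) =
      -1 + 9*z + 6*z^2 + 9*z^3 - 19*z^4 + z^5 + 12*z^6 - 2*z^7 - 7*z^8 - z^9 + z^11 - 18*z^12 := by
    linear_combination (8 + 5*z^2 + z^3 - 21*z^4 - 4*z^5 + z^6 + 6*z^7 + 2*z^8 - 5*z^9 + 9*z^10 - 10*z^11 - 11*z^12 + 2*z^13 + 2*z^15 - 8*z^16 - 11*z^17 + 7*z^18 - z^19 + 6*z^20 + 3*z^22 + 9*z^23 - 10*z^24 - 11*z^25 + 2*z^26 + 2*z^28 - 8*z^29) * hz + (-2) * h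
  have e11 : (-1 + 9*z + 6*z^2 + 9*z^3 - 19*z^4 + z^5 + 12*z^6 - 2*z^7 - 7*z^8 - z^9 + z^11 - 18*z^12) * (1 + z^11 + (z^11)^3) =
      21 + 20*z - 16*z^2 + 13*z^3 - 3*z^4 + 4*z^5 - 9*z^6 + 6*z^8 + 10*z^9 - 5*z^10 - 15*z^11 - 4*z^12 := by
    linear_combination (18 + 7*z - 26*z^2 + 12*z^4 - z^5 - 25*z^6 - 2*z^7 + 9*z^8 + 7*z^9 - 9*z^10 - 19*z^11 + z^12 + 12*z^13 - 2*z^14 - 7*z^15 - z^16 + z^18 - 18*z^19 - z^20 + 9*z^21 + 6*z^22 + 9*z^23 - 19*z^24 + z^25 + 12*z^26 - 2*z^27 - 7*z^28 - z^29 + z^31 - 18*z^32) * hz + (-4) * h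
  have e12 : (21 + 20*z - 16*z^2 + 13*z^3 - 3*z^4 + 4*z^5 - 9*z^6 + 6*z^8 + 10*z^9 - 5*z^10 - 15*z^11 - 4*z^12) * (1 + z^12 + (z^12)^3) =
      53 := by
    linear_combination (33 - 19*z + 17*z^2 - 12*z^3 + 4*z^4 - 3*z^5 + 10*z^6 + z^7 - 5*z^8 - 9*z^9 + 6*z^10 + 16*z^11 - 16*z^12 + 13*z^13 - 3*z^14 + 4*z^15 - 9*z^16 + 6*z^18 + 10*z^19 - 5*z^20 - 15*z^21 - 4*z^22 + 21*z^23 + 20*z^24 - 16*z^25 + 13*z^26 - 3*z^27 + 4*z^28 - 9*z^29 + 6*z^31 + 10*z^32 - 5*z^33 - 15*z^34 - 4*z^35) * hz + (1) * h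
  rw [e1, e2, e3, e4, e5, e6, e7, e8, e9, e10, e11, e12]

lemma prod_13_27 {R : Type*} [CommRing R] (z : R)
    (h : 1 + z + z^2 + z^3 + z^4 + z^5 + z^6 + z^7 + z^8 + z^9 + z^10 + z^11 + z^12 = 0) :
    (1 + z^1 - (z^1)^3) *
      (1 + z^2 - (z^2)^3) *
      (1 + z^3 - (z^3)^3) *
      (1 + z^4 - (z^4)^3) *
      (1 + z^5 - (z^5)^3) *
      (1 + z^6 - (z^6)^3) *
      (1 + z^7 - (z^7)^3) *
      (1 + z^8 - (z^8)^3) *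
      (1 + z^9 - (z^9)^3) *
      (1 + z^10 - (z^10)^3) *
      (1 + z^11 - (z^11)^3) *
      (1 + z^12 - (z^12)^3) = 27 := by
  have hz : z^13 = 1 := by linear_combination (z - 1) * h
  have e1 : (1 + z^1 - (z^1)^3) =
      1 + z - z^3 := by
    linear_combination (0) * hz + (0) * h
  have e2 : (1 + z - z^3) * (1 + z^2 - (z^2)^3) =
      1 + z + z^2 - z^5 - z^6 - z^7 + z^9 := by
    linear_combination (0) * hz + (0) * h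
  have e3 : (1 + z + z^2 - z^5 - z^6 - z^7 + z^9) * (1 + z^3 - (z^3)^3) =
      2 + 3*z + 3*z^2 + 3*z^3 + 2*z^4 - z^10 + 2*z^12 := by
    linear_combination (z + z^2 + z^3 - z^5) * hz + (-1) * h
  have e4 : (2 + 3*z + 3*z^2 + 3*z^3 + 2*z^4 - z^10 + 2*z^12) * (1 + z^4 - (z^4)^3) =
      -2 - 2*z - z^2 + 2*z^3 + 3*z^4 + 2*z^5 + 2*z^6 + 2*z^7 + z^8 - 2*z^10 - 3*z^11 - z^12 := by
    linear_combination (-3 - 4*z - 3*z^2 + z^9 - 2*z^11) * hz + (1) * h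
  have e5 : (-2 - 2*z - z^2 + 2*z^3 + 3*z^4 + 2*z^5 + 2*z^6 + 2*z^7 + z^8 - 2*z^10 - 3*z^11 - z^12) * (1 + z^5 - (z^5)^3) =
      3 + 2*z^3 + 4*z^4 - z^5 - 2*z^6 + 2*z^8 + 2*z^9 + 4*z^12 := by
    linear_combination (4 + z - z^3 - 2*z^5 - 3*z^6 - 2*z^7 - 2*z^8 - 2*z^9 - z^10 + 2*z^12 + 3*z^13 + z^14) * hz + (-1) * h
  have e6 : (3 + 2*z^3 + 4*z^4 - z^5 - 2*z^6 + 2*z^8 + 2*z^9 + 4*z^12) * (1 + z^6 - (z^6)^3) =
      -z + z^2 + z^3 - z^4 - z^5 - z^7 - z^8 - z^9 + 4*z^10 + z^12 := by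
    linear_combination (-2 + 2*z^2 - 4*z^4 + z^5 - 2*z^8 - 4*z^9 + z^10 + 2*z^11 - 2*z^13 - 2*z^14 - 4*z^17) * hz + (1) * h
  have e7 : (-z + z^2 + z^3 - z^4 - z^5 - z^7 - z^8 - z^9 + 4*z^10 + z^12) * (1 + z^7 - (z^7)^3) =
      -3*z + 3*z^4 - 6*z^5 - 3*z^7 - 3*z^8 + 3*z^10 - 3*z^11 := by
    linear_combination (1 - z + 5*z^4 - 4*z^5 + z^6 - z^7 + z^9 - z^10 - z^11 + z^12 + z^13 + z^15 + z^16 + z^17 - 4*z^18 - z^20) * hz + (1) * h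
  have e8 : (-3*z + 3*z^4 - 6*z^5 - 3*z^7 - 3*z^8 + 3*z^10 - 3*z^11) * (1 + z^8 - (z^8)^3) =
      -6 - 3*z - 6*z^2 + 3*z^3 + 3*z^4 - 3*z^7 - 6*z^8 + 3*z^10 - 3*z^11 + 6*z^12 := by
    linear_combination (-6 - 6*z^2 + 3*z^3 + 6*z^5 - 3*z^8 + 3*z^9 + 3*z^12 - 3*z^15 + 6*z^16 + 3*z^18 + 3*z^19 - 3*z^21 + 3*z^22) * hz + (0) * h
  have e9 : (-6 - 3*z - 6*z^2 + 3*z^3 + 3*z^4 - 3*z^7 - 6*z^8 + 3*z^10 - 3*z^11 + 6*z^12) * (1 + z^9 - (z^9)^3) =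
      -9 + 3*z - 3*z^2 + 6*z^3 - 6*z^4 - 3*z^5 + 3*z^6 - 6*z^7 + 3*z^8 - 12*z^11 + 12*z^12 := by
    linear_combination (-3 + 6*z + 3*z^2 + 3*z^3 - 9*z^4 - 3*z^5 + 3*z^6 - 3*z^7 + 9*z^8 + 6*z^9 - 3*z^11 + 3*z^12 - 6*z^13 + 6*z^14 + 3*z^15 + 6*z^16 - 3*z^17 - 3*z^18 + 3*z^21 + 6*z^22 - 3*z^24 + 3*z^25 - 6*z^26) * hz + (0) * h
  have e10 : (-9 + 3*z - 3*z^2 + 6*z^3 - 6*z^4 - 3*z^5 + 3*z^6 - 6*z^7 + 3*z^8 - 12*z^11 + 12*z^12) * (1 + z^10 - (z^10)^3) =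
      9*z^2 + 9*z^6 - 9*z^7 + 18*z^9 - 9*z^10 + 9*z^12 := by
    linear_combination (6 - 6*z + 9*z^2 - 9*z^3 + 3*z^4 + 3*z^6 - 6*z^7 - 6*z^8 + 15*z^9 - 3*z^10 + 6*z^11 - 3*z^12 + 12*z^15 - 12*z^16 + 9*z^17 - 3*z^18 + 3*z^19 - 6*z^20 + 6*z^21 + 3*z^22 - 3*z^23 + 6*z^24 - 3*z^25 + 12*z^28 - 12*z^29) * hz + (-3) * h
  have e11 : (9*z^2 + 9*z^6 - 9*z^7 + 18*z^9 - 9*z^10 + 9*z^12) * (1 + z^11 - (z^11)^3) =
      9*z + 9*z^2 - 18*z^3 + 18*z^4 - 9*z^5 + 9*z^7 - 9*z^8 + 9*z^9 + 9*z^12 := by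
    linear_combination (9*z - 18*z^3 + 18*z^4 - 9*z^5 - 9*z^6 + 18*z^7 - 9*z^8 - 9*z^9 + 9*z^10 - 9*z^13 + 9*z^14 - 18*z^16 + 9*z^17 - 9*z^19 - 9*z^22 - 9*z^26 + 9*z^27 - 18*z^29 + 9*z^30 - 9*z^32) * hz + (0) * h
  have e12 : (9*z + 9*z^2 - 18*z^3 + 18*z^4 - 9*z^5 + 9*z^7 - 9*z^8 + 9*z^9 + 9*z^12) * (1 + z^12 - (z^12)^3) =
      27 := by
    linear_combination (27 - 9*z - 9*z^2 + 18*z^3 - 18*z^4 + 9*z^5 - 9*z^7 + 9*z^8 - 9*z^9 - 9*z^12 + 18*z^13 - 18*z^14 + 9*z^15 - 9*z^17 + 9*z^18 - 9*z^19 - 9*z^22 - 9*z^24 - 9*z^25 + 18*z^26 - 18*z^27 + 9*z^28 - 9*z^30 + 9*z^31 - 9*z^32 - 9*z^35) * hz + (0) * h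
  rw [e1, e2, e3, e4, e5, e6, e7, e8, e9, e10, e11, e12]

lemma prod_13_131 {R : Type*} [CommRing R] (z : R)
    (h : 1 + z + z^2 + z^3 + z^4 + z^5 + z^6 + z^7 + z^8 + z^9 + z^10 + z^11 + z^12 = 0) :
    (1 - z^1 - (z^1)^3) *
      (1 - z^2 - (z^2)^3) *
      (1 - z^3 - (z^3)^3) *
      (1 - z^4 - (z^4)^3) *
      (1 - z^5 - (z^5)^3) *
      (1 - z^6 - (z^6)^3) *
      (1 - z^7 - (z^7)^3) *
      (1 - z^8 - (z^8)^3) *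
      (1 - z^9 - (z^9)^3) *
      (1 - z^10 - (z^10)^3) *
      (1 - z^11 - (z^11)^3) *
      (1 - z^12 - (z^12)^3) = 131 := by
  have hz : z^13 = 1 := by linear_combination (z - 1) * h
  have e1 : (1 - z^1 - (z^1)^3) =
      1 - z - z^3 := by
    linear_combination (0) * hz + (0) * h
  have e2 : (1 - z - z^3) * (1 - z^2 - (z^2)^3) =
      1 - z - z^2 + z^5 - z^6 + z^7 + z^9 := by
    linear_combination (0) * hz + (0) * h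
  have e3 : (1 - z - z^2 + z^5 - z^6 + z^7 + z^9) * (1 - z^3 - (z^3)^3) =
      1 - 2*z - 2*z^3 + z^4 + z^5 - z^6 + z^7 - z^8 + z^9 + z^11 - z^12 := by
    linear_combination (-z + z^2 - z^3 - z^5) * hz + (0) * h
  have e4 : (1 - 2*z - 2*z^3 + z^4 + z^5 - z^6 + z^7 - z^8 + z^9 + z^11 - z^12) * (1 - z^4 - (z^4)^3) =
      2 - 2*z + z^2 - 2*z^3 - z^4 + 4*z^5 - 2*z^6 + 4*z^7 - 3*z^8 + z^11 - z^12 := by
    linear_combination (1 + z^2 - z^4 + z^5 - z^6 + z^7 - z^8 - z^10 + z^11) * hz + (0) * h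
  have e5 : (2 - 2*z + z^2 - 2*z^3 - z^4 + 4*z^5 - 2*z^6 + 4*z^7 - 3*z^8 + z^11 - z^12) * (1 - z^5 - (z^5)^3) =
      5 + 5*z^5 + 2*z^6 + 2*z^8 - 2*z^9 + 4*z^11 - 4*z^12 := by
    linear_combination (2 + z - 2*z^2 + z^3 + 2*z^5 + z^6 - 4*z^7 + 2*z^8 - 4*z^9 + 3*z^10 - z^13 + z^14) * hz + (-1) * h
  have e6 : (5 + 5*z^5 + 2*z^6 + 2*z^8 - 2*z^9 + 4*z^11 - 4*z^12) * (1 - z^6 - (z^6)^3) =
      3 + 2*z^2 - 4*z^3 + 4*z^5 - 3*z^6 + 2*z^8 - 2*z^9 - 5*z^10 - 3*z^11 - 6*z^12 := by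
    linear_combination (-2 + 2*z^2 - 4*z^3 - z^5 - 5*z^10 - 2*z^11 - 2*z^13 + 2*z^14 - 4*z^16 + 4*z^17) * hz + (0) * h
  have e7 : (3 + 2*z^2 - 4*z^3 + 4*z^5 - 3*z^6 + 2*z^8 - 2*z^9 - 5*z^10 - 3*z^11 - 6*z^12) * (1 - z^7 - (z^7)^3) =
      1 + 2*z - z^2 - 5*z^3 + 6*z^4 + 11*z^5 + 5*z^6 + 2*z^7 - 2*z^8 - 5*z^9 - 4*z^10 - 11*z^12 := by
    linear_combination (-1 + 3*z - 2*z^2 + 7*z^4 + 8*z^5 + 9*z^6 + 6*z^7 - 3*z^8 - 2*z^10 + 4*z^11 - 4*z^13 + 3*z^14 - 2*z^16 + 2*z^17 + 5*z^18 + 3*z^19 + 6*z^20) * hz + (1) * h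
  have e8 : (1 + 2*z - z^2 - 5*z^3 + 6*z^4 + 11*z^5 + 5*z^6 + 2*z^7 - 2*z^8 - 5*z^9 - 4*z^10 - 11*z^12) * (1 - z^8 - (z^8)^3) =
      -11 - 11*z^2 - 16*z^3 + 4*z^4 + 11*z^5 + 5*z^6 + 16*z^7 - z^8 - 9*z^9 + 6*z^10 + 2*z^11 - 21*z^12 := by
    linear_combination (-10 - 8*z^2 - 9*z^3 + 2*z^5 + 2*z^6 + 16*z^7 + 4*z^8 + 11*z^10 - z^11 - 2*z^12 + z^13 + 5*z^14 - 6*z^15 - 11*z^16 - 5*z^17 - 2*z^18 + 2*z^19 + 5*z^20 + 4*z^21 + 11*z^23) * hz + (2) * h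
  have e9 : (-11 - 11*z^2 - 16*z^3 + 4*z^4 + 11*z^5 + 5*z^6 + 16*z^7 - z^8 - 9*z^9 + 6*z^10 + 2*z^11 - 21*z^12) * (1 - z^9 - (z^9)^3) =
      2 - 4*z - 20*z^2 - 25*z^3 + 17*z^4 + 12*z^5 - 16*z^6 + 5*z^7 - z^9 + 11*z^10 + 3*z^11 - 11*z^12 := by
    linear_combination (17 - 5*z^2 - 5*z^3 + 17*z^4 + 5*z^5 - 17*z^6 - 7*z^7 + 5*z^8 + z^9 + 9*z^10 - 6*z^11 - 2*z^12 + 21*z^13 + 11*z^14 + 11*z^16 + 16*z^17 - 4*z^18 - 11*z^19 - 5*z^20 - 16*z^21 + z^22 + 9*z^23 - 6*z^24 - 2*z^25 + 21*z^26) * hz + (4) * h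
  have e10 : (2 - 4*z - 20*z^2 - 25*z^3 + 17*z^4 + 12*z^5 - 16*z^6 + 5*z^7 - z^9 + 11*z^10 + 3*z^11 - 11*z^12) * (1 - z^10 - (z^10)^3) =
      23 - 37*z - 40*z^2 - 3*z^3 + 5*z^4 + 11*z^5 + 14*z^7 - 25*z^8 - 7*z^9 + 20*z^10 - 3*z^11 + 4*z^12 := by
    linear_combination (26 - 28*z - 15*z^2 + 27*z^3 - 7*z^4 + 4*z^5 + 21*z^6 + 14*z^7 - 20*z^8 - z^9 + 16*z^10 - 5*z^11 + z^13 - 11*z^14 - 3*z^15 + 11*z^16 - 2*z^17 + 4*z^18 + 20*z^19 + 25*z^20 - 17*z^21 - 12*z^22 + 16*z^23 - 5*z^24 + z^26 - 11*z^27 - 3*z^28 + 11*z^29) * hz + (5) * h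
  have e11 : (23 - 37*z - 40*z^2 - 3*z^3 + 5*z^4 + 11*z^5 + 14*z^7 - 25*z^8 - 7*z^9 + 20*z^10 - 3*z^11 + 4*z^12) * (1 - z^11 - (z^11)^3) =
      65 - 46*z - 18*z^2 - 5*z^3 - 13*z^4 + 2*z^5 + 23*z^6 - 6*z^8 + 38*z^9 + 21*z^10 - 29*z^11 + 32*z^12 := by
    linear_combination (40 - 11*z + 20*z^2 - 4*z^3 - 20*z^4 - 11*z^5 + 21*z^6 - 16*z^7 + 17*z^8 + 43*z^9 - z^10 - 5*z^11 - 11*z^12 - 14*z^14 + 25*z^15 + 7*z^16 - 20*z^17 + 3*z^18 - 4*z^19 - 23*z^20 + 37*z^21 + 40*z^22 + 3*z^23 - 5*z^24 - 11*z^25 - 14*z^27 + 25*z^28 + 7*z^29 - 20*z^30 + 3*z^31 - 4*z^32) * hz + (-2) * h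
  have e12 : (65 - 46*z - 18*z^2 - 5*z^3 - 13*z^4 + 2*z^5 + 23*z^6 - 6*z^8 + 38*z^9 + 21*z^10 - 29*z^11 + 32*z^12) * (1 - z^12 - (z^12)^3) =
      131 := by
    linear_combination (51 + 31*z + 3*z^2 - 10*z^3 - 2*z^4 - 17*z^5 - 38*z^6 - 15*z^7 - 9*z^8 - 53*z^9 - 36*z^10 + 14*z^11 + 18*z^12 + 5*z^13 + 13*z^14 - 2*z^15 - 23*z^16 + 6*z^18 - 38*z^19 - 21*z^20 + 29*z^21 - 32*z^22 - 65*z^23 + 46*z^24 + 18*z^25 + 5*z^26 + 13*z^27 - 2*z^28 - 23*z^29 + 6*z^31 - 38*z^32 - 21*z^33 + 29*z^34 - 32*z^35) * hz + (-15) * h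
  rw [e1, e2, e3, e4, e5, e6, e7, e8, e9, e10, e11, e12]

lemma prod_13_79 {R : Type*} [CommRing R] (z : R)
    (h : 1 + z + z^2 + z^3 + z^4 + z^5 + z^6 + z^7 + z^8 + z^9 + z^10 + z^11 + z^12 = 0) :
    (1 + z^1 - (z^1)^4) *
      (1 + z^2 - (z^2)^4) *
      (1 + z^3 - (z^3)^4) *
      (1 + z^4 - (z^4)^4) *
      (1 + z^5 - (z^5)^4) *
      (1 + z^6 - (z^6)^4) *
      (1 + z^7 - (z^7)^4) *
      (1 + z^8 - (z^8)^4) *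
      (1 + z^9 - (z^9)^4) *
      (1 + z^10 - (z^10)^4) *
      (1 + z^11 - (z^11)^4) *
      (1 + z^12 - (z^12)^4) = 79 := by
  have hz : z^13 = 1 := by linear_combination (z - 1) * h
  have e1 : (1 + z^1 - (z^1)^4) =
      1 + z - z^4 := by
    linear_combination (0) * hz + (0) * h
  have e2 : (1 + z - z^4) * (1 + z^2 - (z^2)^4) =
      1 + z + z^2 + z^3 - z^4 - z^6 - z^8 - z^9 + z^12 := by
    linear_combination (0) * hz + (0) * h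
  have e3 : (1 + z + z^2 + z^3 - z^4 - z^6 - z^8 - z^9 + z^12) * (1 + z^3 - (z^3)^4) =
      z^2 + 3*z^3 + 2*z^5 - 2*z^9 - 2*z^11 - z^12 := by
    linear_combination (-1 - z + z^3 + z^5 + z^7 + z^8 - z^11) * hz + (0) * h
  have e4 : (z^2 + 3*z^3 + 2*z^5 - 2*z^9 - 2*z^11 - z^12) * (1 + z^4 - (z^4)^4) =
      -2 + 2*z + 2*z^3 + z^5 - 2*z^6 + 3*z^7 - 2*z^8 - 2*z^11 + z^12 := by
    linear_combination (-2 + 2*z - z^2 - z^3 - z^5 - 3*z^6 - 2*z^8 + 2*z^12 + 2*z^14 + z^15) * hz + (0) * h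
  have e5 : (-2 + 2*z + 2*z^3 + z^5 - 2*z^6 + 3*z^7 - 2*z^8 - 2*z^11 + z^12) * (1 + z^5 - (z^5)^4) =
      -2 - z + 2*z^2 + z^4 + z^5 - z^6 + 5*z^7 - 2*z^8 - z^10 - 4*z^11 + 3*z^12 := by
    linear_combination (-3*z + 2*z^2 - 2*z^3 + z^4 + 2*z^5 - z^6 + 2*z^7 - 2*z^8 - 2*z^10 - z^12 + 2*z^13 - 3*z^14 + 2*z^15 + 2*z^18 - z^19) * hz + (0) * h
  have e6 : (-2 - z + 2*z^2 + z^4 + z^5 - z^6 + 5*z^7 - 2*z^8 - z^10 - 4*z^11 + 3*z^12) * (1 + z^6 - (z^6)^4) =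
      2 - 2*z + 2*z^2 - z^3 - z^4 + 5*z^7 + 2*z^8 + 5*z^9 - 2*z^10 + 4*z^12 := by
    linear_combination (3 - 2*z - z^2 - 2*z^3 - 3*z^4 - 2*z^5 + 2*z^6 + z^8 + 4*z^9 - 3*z^10 + 2*z^11 + z^12 - 2*z^13 - z^15 - z^16 + z^17 - 5*z^18 + 2*z^19 + z^21 + 4*z^22 - 3*z^23) * hz + (-1) * h
  have e7 : (2 - 2*z + 2*z^2 - z^3 - z^4 + 5*z^7 + 2*z^8 + 5*z^9 - 2*z^10 + 4*z^12) * (1 + z^7 - (z^7)^4) =
      -3*z + 4*z^3 - 7*z^4 - z^5 + 3*z^6 + 5*z^7 - 2*z^8 - 7*z^10 - 8*z^11 + 4*z^12 := by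
    linear_combination (z + 7*z^3 - 4*z^4 + z^5 + 5*z^6 - 5*z^9 - 2*z^10 - 5*z^11 + 2*z^12 - 4*z^14 - 2*z^15 + 2*z^16 - 2*z^17 + z^18 + z^19 - 5*z^22 - 2*z^23 - 5*z^24 + 2*z^25 - 4*z^27) * hz + (2) * h
  have e8 : (-3*z + 4*z^3 - 7*z^4 - z^5 + 3*z^6 + 5*z^7 - 2*z^8 - 7*z^10 - 8*z^11 + 4*z^12) * (1 + z^8 - (z^8)^4) =
      -4 + 4*z + 7*z^2 + 11*z^3 + 3*z^4 - 10*z^5 - 3*z^6 + 14*z^7 - 5*z^9 + 2*z^10 - z^11 - 4*z^12 := by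
    linear_combination (-6 + 5*z + 5*z^2 + 5*z^3 + 8*z^4 - 11*z^5 - 8*z^6 + 7*z^7 - 4*z^9 + 7*z^10 + z^11 - 3*z^12 - 5*z^13 + 2*z^14 + 7*z^16 + 8*z^17 - 4*z^18 + 3*z^20 - 4*z^22 + 7*z^23 + z^24 - 3*z^25 - 5*z^26 + 2*z^27 + 7*z^29 + 8*z^30 - 4*z^31) * hz + (-2) * h
  have e9 : (-4 + 4*z + 7*z^2 + 11*z^3 + 3*z^4 - 10*z^5 - 3*z^6 + 14*z^7 - 5*z^9 + 2*z^10 - z^11 - 4*z^12) * (1 + z^9 - (z^9)^4) =
      -12 - 9*z + 14*z^2 + 28*z^3 - 11*z^4 - 15*z^5 + 4*z^6 + 11*z^7 - 3*z^8 - 5*z^9 + 10*z^10 + 2*z^11 := by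
    linear_combination (-8 - 13*z + 7*z^2 + 17*z^3 - 14*z^4 - 5*z^5 + 7*z^6 - 3*z^7 - 3*z^8 + 4*z^9 + 4*z^10 - 4*z^11 - 7*z^12 - 11*z^13 - 3*z^14 + 10*z^15 + 3*z^16 - 14*z^17 + 5*z^19 - 2*z^20 + z^21 + 4*z^22 + 4*z^23 - 4*z^24 - 7*z^25 - 11*z^26 - 3*z^27 + 10*z^28 + 3*z^29 - 14*z^30 + 5*z^32 - 2*z^33 + z^34 + 4*z^35) * hz + (0) * h
  have e10 : (-12 - 9*z + 14*z^2 + 28*z^3 - 11*z^4 - 15*z^5 + 4*z^6 + 11*z^7 - 3*z^8 - 5*z^9 + 10*z^10 + 2*z^11) * (1 + z^10 - (z^10)^4) =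
      13 - 11*z + 5*z^2 + 15*z^3 - 31*z^4 - 10*z^5 + 11*z^6 + 14*z^7 - 15*z^8 - 5*z^9 - 20*z^11 + 9*z^12 := by
    linear_combination (28 + z - 6*z^2 - 10*z^3 - 17*z^4 + 8*z^5 + 10*z^6 + 6*z^7 - 9*z^8 + 3*z^9 + 5*z^10 - 10*z^11 - 2*z^12 + 12*z^14 + 9*z^15 - 14*z^16 - 28*z^17 + 11*z^18 + 15*z^19 - 4*z^20 - 11*z^21 + 3*z^22 + 5*z^23 - 10*z^24 - 2*z^25 + 12*z^27 + 9*z^28 - 14*z^29 - 28*z^30 + 11*z^31 + 15*z^32 - 4*z^33 - 11*z^34 + 3*z^35 + 5*z^36 - 10*z^37 - 2*z^38) * hz + (3) * h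
  have e11 : (13 - 11*z + 5*z^2 + 15*z^3 - 31*z^4 - 10*z^5 + 11*z^6 + 14*z^7 - 15*z^8 - 5*z^9 - 20*z^11 + 9*z^12) * (1 + z^11 - (z^11)^4) =
      29 + 5*z - 30*z^2 + 21*z^3 - 33*z^4 - 13*z^5 + 3*z^6 - 34*z^8 + 2*z^9 + 15*z^10 - 22*z^11 - 20*z^12 := by
    linear_combination (20 + 20*z - 31*z^2 + 10*z^3 + 2*z^4 + z^5 - 4*z^6 - 10*z^7 - 15*z^8 + 11*z^9 + 19*z^10 - 11*z^11 - 14*z^12 + 15*z^13 + 5*z^14 + 20*z^16 - 9*z^17 - 13*z^18 + 11*z^19 - 5*z^20 - 15*z^21 + 31*z^22 + 10*z^23 - 11*z^24 - 14*z^25 + 15*z^26 + 5*z^27 + 20*z^29 - 9*z^30 - 13*z^31 + 11*z^32 - 5*z^33 - 15*z^34 + 31*z^35 + 10*z^36 - 11*z^37 - 14*z^38 + 15*z^39 + 5*z^40 + 20*z^42 - 9*z^43) * hz + (4) * h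
  have e12 : (29 + 5*z - 30*z^2 + 21*z^3 - 33*z^4 - 13*z^5 + 3*z^6 - 34*z^8 + 2*z^9 + 15*z^10 - 22*z^11 - 20*z^12) * (1 + z^12 - (z^12)^4) =
      79 := by
    linear_combination (38 - 17*z + 18*z^2 - 33*z^3 + 21*z^4 + z^5 - 15*z^6 - 12*z^7 + 22*z^8 - 14*z^9 - 27*z^10 + 10*z^11 - 21*z^12 + 33*z^13 + 13*z^14 - 3*z^15 + 34*z^17 - 2*z^18 - 15*z^19 + 22*z^20 + 20*z^21 - 29*z^22 - 5*z^23 + 30*z^24 - 21*z^25 + 33*z^26 + 13*z^27 - 3*z^28 + 34*z^30 - 2*z^31 - 15*z^32 + 22*z^33 + 20*z^34 - 29*z^35 - 5*z^36 + 30*z^37 - 21*z^38 + 33*z^39 + 13*z^40 - 3*z^41 + 34*z^43 - 2*z^44 - 15*z^45 + 22*z^46 + 20*z^47) * hz + (-12) * h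
  rw [e1, e2, e3, e4, e5, e6, e7, e8, e9, e10, e11, e12]

lemma prod_13_157 {R : Type*} [CommRing R] (z : R)
    (h : 1 + z + z^2 + z^3 + z^4 + z^5 + z^6 + z^7 + z^8 + z^9 + z^10 + z^11 + z^12 = 0) :
    (1 - z^1 + (z^1)^2 + (z^1)^4) *
      (1 - z^2 + (z^2)^2 + (z^2)^4) *
      (1 - z^3 + (z^3)^2 + (z^3)^4) *
      (1 - z^4 + (z^4)^2 + (z^4)^4) *
      (1 - z^5 + (z^5)^2 + (z^5)^4) *
      (1 - z^6 + (z^6)^2 + (z^6)^4) *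
      (1 - z^7 + (z^7)^2 + (z^7)^4) *
      (1 - z^8 + (z^8)^2 + (z^8)^4) *
      (1 - z^9 + (z^9)^2 + (z^9)^4) *
      (1 - z^10 + (z^10)^2 + (z^10)^4) *
      (1 - z^11 + (z^11)^2 + (z^11)^4) *
      (1 - z^12 + (z^12)^2 + (z^12)^4) = 157 := by
  have hz : z^13 = 1 := by linear_combination (z - 1) * h
  have e1 : (1 - z^1 + (z^1)^2 + (z^1)^4) =
      1 - z + z^2 + z^4 := by
    linear_combination (0) * hz + (0) * h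
  have e2 : (1 - z + z^2 + z^4) * (1 - z^2 + (z^2)^2 + (z^2)^4) =
      1 - z + z^3 + z^4 - z^5 + 2*z^8 - z^9 + z^10 + z^12 := by
    linear_combination (0) * hz + (0) * h
  have e3 : (1 - z + z^3 + z^4 - z^5 + 2*z^8 - z^9 + z^10 + z^12) * (1 - z^3 + (z^3)^2 + (z^3)^4) =
      -2 - 2*z^2 + z^3 - z^5 - z^6 - z^7 + z^8 + z^10 - 3*z^11 + 2*z^12 := by
    linear_combination (-2 + 2*z - z^2 + 2*z^3 - z^4 + z^5 + 2*z^7 - z^8 + z^9 + z^11) * hz + (1) * h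
  have e4 : (-2 - 2*z^2 + z^3 - z^5 - z^6 - z^7 + z^8 + z^10 - 3*z^11 + 2*z^12) * (1 - z^4 + (z^4)^2 + (z^4)^4) =
      -1 - 4*z + 3*z^2 - z^3 + 3*z^4 - z^5 + z^7 - z^8 + z^9 + z^11 + 2*z^12 := by
    linear_combination (-5*z + 4*z^2 - 3*z^3 - z^5 - 2*z^6 + 2*z^7 - z^8 - z^9 - z^10 + z^11 + z^13 - 3*z^14 + 2*z^15) * hz + (-1) * h
  have e5 : (-1 - 4*z + 3*z^2 - z^3 + 3*z^4 - z^5 + z^7 - z^8 + z^9 + z^11 + 2*z^12) * (1 - z^5 + (z^5)^2 + (z^5)^4) =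
      -1 - z + z^2 - z^3 + 2*z^4 + 7*z^6 - 3*z^7 - 3*z^8 + 3*z^9 - z^10 + 3*z^12 := by
    linear_combination (3*z - 2*z^2 - z^4 + 3*z^6 - z^7 - 3*z^8 + 5*z^9 - z^10 + 3*z^11 - z^12 + z^14 - z^15 + z^16 + z^18 + 2*z^19) * hz + (0) * h
  have e6 : (-1 - z + z^2 - z^3 + 2*z^4 + 7*z^6 - 3*z^7 - 3*z^8 + 3*z^9 - z^10 + 3*z^12) * (1 - z^6 + (z^6)^2 + (z^6)^4) =
      -3*z^2 + 7*z^4 - z^5 - 4*z^7 - 4*z^8 + z^9 - 2*z^10 - 8*z^12 := by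
    linear_combination (3 + 3*z - 2*z^2 + 3*z^3 + 7*z^4 + z^5 - 6*z^6 + 2*z^8 - z^9 + 3*z^10 + 2*z^11 - z^12 + z^13 - z^14 + 2*z^15 + 7*z^17 - 3*z^18 - 3*z^19 + 3*z^20 - z^21 + 3*z^23) * hz + (2) * h
  have e7 : (-3*z^2 + 7*z^4 - z^5 - 4*z^7 - 4*z^8 + z^9 - 2*z^10 - 8*z^12) * (1 - z^7 + (z^7)^2 + (z^7)^4) =
      -4 + 5*z^2 + 10*z^4 + 10*z^5 + 18*z^6 - z^7 - 4*z^8 - z^10 - 4*z^11 - 5*z^12 := by
    linear_combination (-8 - 4*z + 4*z^2 - 4*z^3 - z^4 + 7*z^5 + 14*z^6 - z^7 - 4*z^8 - 8*z^9 - 3*z^10 - z^11 - 2*z^12 - 8*z^13 - 8*z^14 - 3*z^17 + 7*z^19 - z^20 - 4*z^22 - 4*z^23 + z^24 - 2*z^25 - 8*z^27) * hz + (-4) * h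
  have e8 : (-4 + 5*z^2 + 10*z^4 + 10*z^5 + 18*z^6 - z^7 - 4*z^8 - z^10 - 4*z^11 - 5*z^12) * (1 - z^8 + (z^8)^2 + (z^8)^4) =
      -19 - 29*z - 2*z^2 - 4*z^3 + 3*z^4 + 8*z^5 + 15*z^6 + 11*z^7 + 12*z^8 + 15*z^9 - z^11 := by
    linear_combination (-12 - 26*z - 4*z^2 - z^3 - 4*z^4 + z^5 + 15*z^7 + 15*z^8 + 18*z^9 + 9*z^10 + 6*z^11 + 18*z^12 - 2*z^13 - 8*z^14 - 5*z^15 - z^16 - 4*z^17 - 5*z^18 - 4*z^19 + 5*z^21 + 10*z^23 + 10*z^24 + 18*z^25 - z^26 - 4*z^27 - z^29 - 4*z^30 - 5*z^31) * hz + (3) * h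
  have e9 : (-19 - 29*z - 2*z^2 - 4*z^3 + 3*z^4 + 8*z^5 + 15*z^6 + 11*z^7 + 12*z^8 + 15*z^9 - z^11) * (1 - z^9 + (z^9)^2 + (z^9)^4) =
      -15 - 20*z - 10*z^2 - 2*z^3 + z^4 - 15*z^5 + 9*z^7 + 6*z^8 + 36*z^9 + 17*z^10 - 14*z^11 + 12*z^12 := by
    linear_combination (5 + 10*z - 7*z^2 + 3*z^3 - z^4 - 22*z^5 - 14*z^6 - z^7 - 5*z^8 + 3*z^9 - 11*z^10 - 14*z^11 + 9*z^12 + 8*z^13 + 18*z^14 + 8*z^15 + 14*z^16 + 11*z^17 + 12*z^18 + 15*z^19 - z^21 - 19*z^23 - 29*z^24 - 2*z^25 - 4*z^26 + 3*z^27 + 8*z^28 + 15*z^29 + 11*z^30 + 12*z^31 + 15*z^32 - z^34) * hz + (1) * h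
  have e10 : (-15 - 20*z - 10*z^2 - 2*z^3 + z^4 - 15*z^5 + 9*z^7 + 6*z^8 + 36*z^9 + 17*z^10 - 14*z^11 + 12*z^12) * (1 - z^10 + (z^10)^2 + (z^10)^4) =
      -26*z - 8*z^2 + 25*z^3 + 8*z^4 - 33*z^5 - 38*z^6 - 22*z^7 + 10*z^8 + 21*z^9 + 67*z^10 + 25*z^11 - 6*z^12 := by
    linear_combination (14 - 7*z + z^2 + 26*z^3 + 6*z^4 - 19*z^5 - 39*z^6 - 32*z^7 + 3*z^8 - 16*z^9 + 34*z^10 + 18*z^11 - 29*z^12 + 12*z^13 - 6*z^14 - 14*z^15 + 26*z^16 + 15*z^17 - 13*z^18 - 3*z^19 + 9*z^21 + 6*z^22 + 36*z^23 + 17*z^24 - 14*z^25 + 12*z^26 - 15*z^27 - 20*z^28 - 10*z^29 - 2*z^30 + z^31 - 15*z^32 + 9*z^34 + 6*z^35 + 36*z^36 + 17*z^37 - 14*z^38 + 12*z^39) * hz + (-1) * h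
  have e11 : (-26*z - 8*z^2 + 25*z^3 + 8*z^4 - 33*z^5 - 38*z^6 - 22*z^7 + 10*z^8 + 21*z^9 + 67*z^10 + 25*z^11 - 6*z^12) * (1 - z^11 + (z^11)^2 + (z^11)^4) =
      16 - 73*z + 3*z^2 + 51*z^3 + 40*z^4 - 17*z^6 - 36*z^7 - 48*z^8 - 6*z^9 + 4*z^10 - 31*z^11 + 13*z^12 := by
    linear_combination (26 - 37*z + 21*z^2 + 36*z^3 + 42*z^4 + 43*z^5 + 31*z^6 - 4*z^7 - 48*z^8 - 17*z^9 - 53*z^10 - 46*z^11 + 3*z^12 + 18*z^13 - 12*z^14 + 29*z^15 + 3*z^16 + 4*z^17 + 21*z^18 + 41*z^19 + 17*z^20 + 19*z^21 + 8*z^22 - 33*z^23 - 38*z^24 - 22*z^25 + 10*z^26 + 21*z^27 + 67*z^28 + 25*z^29 - 6*z^30 - 26*z^32 - 8*z^33 + 25*z^34 + 8*z^35 - 33*z^36 - 38*z^37 - 22*z^38 + 10*z^39 + 21*z^40 + 67*z^41 + 25*z^42 - 6*z^43) * hz + (10) * h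
  have e12 : (16 - 73*z + 3*z^2 + 51*z^3 + 40*z^4 - 17*z^6 - 36*z^7 - 48*z^8 - 6*z^9 + 4*z^10 - 31*z^11 + 13*z^12) * (1 - z^12 + (z^12)^2 + (z^12)^4) =
      157 := by
    linear_combination (116 + 48*z - 28*z^2 - 76*z^3 - 65*z^4 - 25*z^5 - 8*z^6 + 11*z^7 + 23*z^8 - 19*z^9 - 29*z^10 + 6*z^11 - 22*z^12 + 43*z^13 + 51*z^14 + 23*z^15 - 36*z^16 - 65*z^17 - 42*z^18 - 44*z^19 - 37*z^20 + 17*z^21 - 15*z^22 - 60*z^23 + 3*z^24 + 51*z^25 + 40*z^26 - 17*z^28 - 36*z^29 - 48*z^30 - 6*z^31 + 4*z^32 - 31*z^33 + 13*z^34 + 16*z^35 - 73*z^36 + 3*z^37 + 51*z^38 + 40*z^39 - 17*z^41 - 36*z^42 - 48*z^43 - 6*z^44 + 4*z^45 - 31*z^46 + 13*z^47) * hz + (-25) * h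
  rw [e1, e2, e3, e4, e5, e6, e7, e8, e9, e10, e11, e12]

lemma exists_norm_11_23 (K : Type*) [Field K] [NumberField K] [IsCyclotomicExtension {11} ℚ K] :
    ∃ x : 𝓞 K, (Algebra.norm ℤ x).natAbs = 23 := by
  have hζ := IsCyclotomicExtension.zeta_spec 11 ℚ K
  have hsum := hζ.geom_sum_eq_zero (by norm_num)
  simp only [Finset.sum_range_succ, Finset.sum_range_zero, zero_add, pow_zero, pow_one] at hsum
  refine ⟨1 + hζ.toInteger + hζ.toInteger ^ 3, ?_⟩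
  refine natAbs_norm_eq (zeta 11 ℚ K) hζ.pow_eq_one _ (fun x => 1 + x + x ^ 3)
    (by have hc : algebraMap (𝓞 K) K hζ.toInteger = zeta 11 ℚ K := hζ.coe_toInteger
        simp [hc])
    (fun σ => by simp) 23 ?_
  simp only [Finset.prod_range_succ, Finset.prod_range_zero, one_mul, zero_add, Nat.reduceAdd,
    Nat.reduceSub]
  exact_mod_cast prod_11_23 (zeta 11 ℚ K) hsum

lemma exists_norm_13_53 (K : Type*) [Field K] [NumberField K] [IsCyclotomicExtension {13} ℚ K] :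
    ∃ x : 𝓞 K, (Algebra.norm ℤ x).natAbs = 53 := by
  have hζ := IsCyclotomicExtension.zeta_spec 13 ℚ K
  have hsum := hζ.geom_sum_eq_zero (by norm_num)
  simp only [Finset.sum_range_succ, Finset.sum_range_zero, zero_add, pow_zero, pow_one] at hsum
  refine ⟨1 + hζ.toInteger + hζ.toInteger ^ 3, ?_⟩
  refine natAbs_norm_eq (zeta 13 ℚ K) hζ.pow_eq_one _ (fun x => 1 + x + x ^ 3)
    (by have hc : algebraMap (𝓞 K) K hζ.toInteger = zeta 13 ℚ K := hζ.coe_toInteger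
        simp [hc])
    (fun σ => by simp) 53 ?_
  simp only [Finset.prod_range_succ, Finset.prod_range_zero, one_mul, zero_add, Nat.reduceAdd,
    Nat.reduceSub]
  exact_mod_cast prod_13_53 (zeta 13 ℚ K) hsum

lemma exists_norm_13_27 (K : Type*) [Field K] [NumberField K] [IsCyclotomicExtension {13} ℚ K] :
    ∃ x : 𝓞 K, (Algebra.norm ℤ x).natAbs = 27 := by
  have hζ := IsCyclotomicExtension.zeta_spec 13 ℚ K
  have hsum := hζ.geom_sum_eq_zero (by norm_num)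
  simp only [Finset.sum_range_succ, Finset.sum_range_zero, zero_add, pow_zero, pow_one] at hsum
  refine ⟨1 + hζ.toInteger - hζ.toInteger ^ 3, ?_⟩
  refine natAbs_norm_eq (zeta 13 ℚ K) hζ.pow_eq_one _ (fun x => 1 + x - x ^ 3)
    (by have hc : algebraMap (𝓞 K) K hζ.toInteger = zeta 13 ℚ K := hζ.coe_toInteger
        simp [hc])
    (fun σ => by simp) 27 ?_
  simp only [Finset.prod_range_succ, Finset.prod_range_zero, one_mul, zero_add, Nat.reduceAdd,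
    Nat.reduceSub]
  exact_mod_cast prod_13_27 (zeta 13 ℚ K) hsum

lemma exists_norm_13_131 (K : Type*) [Field K] [NumberField K] [IsCyclotomicExtension {13} ℚ K] :
    ∃ x : 𝓞 K, (Algebra.norm ℤ x).natAbs = 131 := by
  have hζ := IsCyclotomicExtension.zeta_spec 13 ℚ K
  have hsum := hζ.geom_sum_eq_zero (by norm_num)
  simp only [Finset.sum_range_succ, Finset.sum_range_zero, zero_add, pow_zero, pow_one] at hsum
  refine ⟨1 - hζ.toInteger - hζ.toInteger ^ 3, ?_⟩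
  refine natAbs_norm_eq (zeta 13 ℚ K) hζ.pow_eq_one _ (fun x => 1 - x - x ^ 3)
    (by have hc : algebraMap (𝓞 K) K hζ.toInteger = zeta 13 ℚ K := hζ.coe_toInteger
        simp [hc])
    (fun σ => by simp) 131 ?_
  simp only [Finset.prod_range_succ, Finset.prod_range_zero, one_mul, zero_add, Nat.reduceAdd,
    Nat.reduceSub]
  exact_mod_cast prod_13_131 (zeta 13 ℚ K) hsum

lemma exists_norm_13_79 (K : Type*) [Field K] [NumberField K] [IsCyclotomicExtension {13} ℚ K] :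
    ∃ x : 𝓞 K, (Algebra.norm ℤ x).natAbs = 79 := by
  have hζ := IsCyclotomicExtension.zeta_spec 13 ℚ K
  have hsum := hζ.geom_sum_eq_zero (by norm_num)
  simp only [Finset.sum_range_succ, Finset.sum_range_zero, zero_add, pow_zero, pow_one] at hsum
  refine ⟨1 + hζ.toInteger - hζ.toInteger ^ 4, ?_⟩
  refine natAbs_norm_eq (zeta 13 ℚ K) hζ.pow_eq_one _ (fun x => 1 + x - x ^ 4)
    (by have hc : algebraMap (𝓞 K) K hζ.toInteger = zeta 13 ℚ K := hζ.coe_toInteger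
        simp [hc])
    (fun σ => by simp) 79 ?_
  simp only [Finset.prod_range_succ, Finset.prod_range_zero, one_mul, zero_add, Nat.reduceAdd,
    Nat.reduceSub]
  exact_mod_cast prod_13_79 (zeta 13 ℚ K) hsum

lemma exists_norm_13_157 (K : Type*) [Field K] [NumberField K] [IsCyclotomicExtension {13} ℚ K] :
    ∃ x : 𝓞 K, (Algebra.norm ℤ x).natAbs = 157 := by
  have hζ := IsCyclotomicExtension.zeta_spec 13 ℚ K
  have hsum := hζ.geom_sum_eq_zero (by norm_num)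
  simp only [Finset.sum_range_succ, Finset.sum_range_zero, zero_add, pow_zero, pow_one] at hsum
  refine ⟨1 - hζ.toInteger + hζ.toInteger ^ 2 + hζ.toInteger ^ 4, ?_⟩
  refine natAbs_norm_eq (zeta 13 ℚ K) hζ.pow_eq_one _ (fun x => 1 - x + x ^ 2 + x ^ 4)
    (by have hc : algebraMap (𝓞 K) K hζ.toInteger = zeta 13 ℚ K := hζ.coe_toInteger
        simp [hc])
    (fun σ => by simp) 157 ?_
  simp only [Finset.prod_range_succ, Finset.prod_range_zero, one_mul, zero_add, Nat.reduceAdd,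
    Nat.reduceSub]
  exact_mod_cast prod_13_157 (zeta 13 ℚ K) hsum

/-! ### Minkowski bounds -/

open Real Module Nat Polynomial in
lemma minkowski_7 (K : Type*) [Field K] [NumberField K] [IsCyclotomicExtension {7} ℚ K] :
    (4 / π) ^ InfinitePlace.nrComplexPlaces K *
      ((finrank ℚ K)! / (finrank ℚ K) ^ (finrank ℚ K) * √|discr K|) < (4 : ℕ) + 1 := by
  rw [Rat.discr_prime 7 K, IsCyclotomicExtension.finrank (n := 7) K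
    (cyclotomic.irreducible_rat (by simp)), Rat.nrComplexPlaces_eq_totient_div_two 7,
    totient_prime (by norm_num)]
  have h1 : (4 / π) ^ 3 < (4 / 3) ^ 3 := by
    gcongr
    exact pi_gt_three
  have h2 : √((7 : ℝ) ^ 5) < 130 := by
    rw [Real.sqrt_lt' (by norm_num)]; norm_num
  have h3 : (|(((-1 : ℤ) ^ ((7 - 1) / 2) * ((7 : ℕ) : ℤ) ^ (7 - 2) : ℤ) : ℝ)|) = (7 : ℝ) ^ 5 := by
    norm_num
  have h4 : ((7 - 1 : ℕ)! : ℝ) = 720 := by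
    norm_num [Nat.factorial]
  rw [h3, h4]
  calc (4 / π) ^ ((7 - 1) / 2) * (720 / ((7 - 1 : ℕ) : ℝ) ^ (7 - 1) * √((7 : ℝ) ^ 5))
      = (4 / π) ^ 3 * (720 / (6 : ℝ) ^ 6 * √((7 : ℝ) ^ 5)) := by norm_num
    _ < (4 / 3) ^ 3 * (720 / (6 : ℝ) ^ 6 * 130) := by gcongr
    _ < (4 : ℕ) + 1 := by norm_num

open Real Module Nat Polynomial in
lemma minkowski_11 (K : Type*) [Field K] [NumberField K] [IsCyclotomicExtension {11} ℚ K] :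
    (4 / π) ^ InfinitePlace.nrComplexPlaces K *
      ((finrank ℚ K)! / (finrank ℚ K) ^ (finrank ℚ K) * √|discr K|) < (59 : ℕ) + 1 := by
  rw [Rat.discr_prime 11 K, IsCyclotomicExtension.finrank (n := 11) K
    (cyclotomic.irreducible_rat (by simp)), Rat.nrComplexPlaces_eq_totient_div_two 11,
    totient_prime (by norm_num)]
  have h1 : (4 / π) ^ 5 < (4 / 3.14) ^ 5 := by
    gcongr
    exact pi_gt_d2
  have h2 : √((11 : ℝ) ^ 9) < 48559 := by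
    rw [Real.sqrt_lt' (by norm_num)]; norm_num
  have h3 : (|(((-1 : ℤ) ^ ((11 - 1) / 2) * ((11 : ℕ) : ℤ) ^ (11 - 2) : ℤ) : ℝ)|) =
      (11 : ℝ) ^ 9 := by
    norm_num
  have h4 : ((11 - 1 : ℕ)! : ℝ) = 3628800 := by
    norm_num [Nat.factorial]
  rw [h3, h4]
  calc (4 / π) ^ ((11 - 1) / 2) * (3628800 / ((11 - 1 : ℕ) : ℝ) ^ (11 - 1) * √((11 : ℝ) ^ 9))
      = (4 / π) ^ 5 * (3628800 / (10 : ℝ) ^ 10 * √((11 : ℝ) ^ 9)) := by norm_num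
    _ < (4 / 3.14) ^ 5 * (3628800 / (10 : ℝ) ^ 10 * 48559) := by gcongr
    _ < (59 : ℕ) + 1 := by norm_num

open Real Module Nat Polynomial in
lemma minkowski_13 (K : Type*) [Field K] [NumberField K] [IsCyclotomicExtension {13} ℚ K] :
    (4 / π) ^ InfinitePlace.nrComplexPlaces K *
      ((finrank ℚ K)! / (finrank ℚ K) ^ (finrank ℚ K) * √|discr K|) < (307 : ℕ) + 1 := by
  rw [Rat.discr_prime 13 K, IsCyclotomicExtension.finrank (n := 13) K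
    (cyclotomic.irreducible_rat (by simp)), Rat.nrComplexPlaces_eq_totient_div_two 13,
    totient_prime (by norm_num)]
  have h1 : (4 / π) ^ 6 < (4 / 3.14) ^ 6 := by
    gcongr
    exact pi_gt_d2
  have h2 : √((13 : ℝ) ^ 11) < 1338716 := by
    rw [Real.sqrt_lt' (by norm_num)]; norm_num
  have h3 : (|(((-1 : ℤ) ^ ((13 - 1) / 2) * ((13 : ℕ) : ℤ) ^ (13 - 2) : ℤ) : ℝ)|) =
      (13 : ℝ) ^ 11 := by
    norm_num
  have h4 : ((13 - 1 : ℕ)! : ℝ) = 479001600 := by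
    norm_num [Nat.factorial]
  rw [h3, h4]
  calc (4 / π) ^ ((13 - 1) / 2) * (479001600 / ((13 - 1 : ℕ) : ℝ) ^ (13 - 1) * √((13 : ℝ) ^ 11))
      = (4 / π) ^ 6 * (479001600 / (12 : ℝ) ^ 12 * √((13 : ℝ) ^ 11)) := by norm_num
    _ < (4 / 3.14) ^ 6 * (479001600 / (12 : ℝ) ^ 12 * 1338716) := by gcongr
    _ < (307 : ℕ) + 1 := by norm_num

/-! ### Finite checks -/

set_option maxRecDepth 100000 in
lemma check13 : ∀ q < 308, (∃ d ∈ [2, 3, 5, 7, 11, 13, 17], d < q ∧ d ∣ q) ∨ q < 2 ∨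
    q ∈ [13, 3, 53, 79, 131, 157] ∨ ∀ j < 9, 0 < j → q ^ j ≤ 307 → q ^ j % 13 ≠ 1 := by
  decide

lemma check11 : ∀ q < 60, (∃ d ∈ [2, 3, 5, 7], d < q ∧ d ∣ q) ∨ q < 2 ∨
    q ∈ [11, 23] ∨ ∀ j < 6, 0 < j → q ^ j ≤ 59 → q ^ j % 11 ≠ 1 := by
  decide

lemma check7 : ∀ q < 5, (∃ d ∈ [2], d < q ∧ d ∣ q) ∨ q < 2 ∨
    q ∈ [7] ∨ ∀ j < 3, 0 < j → q ^ j ≤ 4 → q ^ j % 7 ≠ 1 := by
  decide

lemma not_prime_of_small_factor {q : ℕ} {L : List ℕ} (hL : ∀ d ∈ L, 2 ≤ d)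
    (h : ∃ d ∈ L, d < q ∧ d ∣ q) : ¬ q.Prime := by
  obtain ⟨d, hd, hlt, hdvd⟩ := h
  intro hq
  rcases (Nat.dvd_prime hq).mp hdvd with h1 | h1
  · have := hL d hd; omega
  · omega

end Fermat.Agent.FLTSmall.PID

namespace Fermat.Agent.FLTSmall

open PID

attribute [local instance] fact_prime_seven fact_prime_eleven fact_prime_thirteen

/-- If `IsCyclotomicExtension {7} ℚ K` then `𝓞 K` is a principal ideal domain. -/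
theorem seven_pid (K : Type*) [Field K] [NumberField K] [IsCyclotomicExtension {7} ℚ K] :
    IsPrincipalIdealRing (𝓞 K) := by
  refine pid_of_bound 7 K 4 (minkowski_7 K) fun q hqB hq hqℓ => ?_
  have hcop : q.Coprime 7 := (Nat.coprime_primes hq (by norm_num)).mpr hqℓ
  rcases check7 q (by omega) with h | h | h | h
  · exact absurd hq (not_prime_of_small_factor (by decide) h)
  · exact absurd hq.two_le (by omega)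
  · simp only [List.mem_cons, List.not_mem_nil, or_false] at h
    exact absurd h hqℓ
  · exact Or.inl (lt_pow_orderOf (by norm_num) hq.two_le hcop (by norm_num) h)

/-- If `IsCyclotomicExtension {11} ℚ K` then `𝓞 K` is a principal ideal domain. -/
theorem eleven_pid (K : Type*) [Field K] [NumberField K] [IsCyclotomicExtension {11} ℚ K] :
    IsPrincipalIdealRing (𝓞 K) := by
  refine pid_of_bound 11 K 59 (minkowski_11 K) fun q hqB hq hqℓ => ?_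
  have hcop : q.Coprime 11 := (Nat.coprime_primes hq (by norm_num)).mpr hqℓ
  rcases check11 q (by omega) with h | h | h | h
  · exact absurd hq (not_prime_of_small_factor (by decide) h)
  · exact absurd hq.two_le (by omega)
  · simp only [List.mem_cons, List.not_mem_nil, or_false] at h
    rcases h with rfl | rfl
    · exact absurd rfl hqℓ
    · right
      have ho : orderOf ((23 : ℕ) : ZMod 11) = 1 := orderOf_eq_one_iff.mpr (by decide)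
      rw [ho, pow_one]
      exact exists_norm_11_23 K
  · exact Or.inl (lt_pow_orderOf (by norm_num) hq.two_le hcop (by norm_num) h)

/-- If `IsCyclotomicExtension {13} ℚ K` then `𝓞 K` is a principal ideal domain. -/
theorem thirteen_pid (K : Type*) [Field K] [NumberField K] [IsCyclotomicExtension {13} ℚ K] :
    IsPrincipalIdealRing (𝓞 K) := by
  refine pid_of_bound 13 K 307 (minkowski_13 K) fun q hqB hq hqℓ => ?_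
  have hcop : q.Coprime 13 := (Nat.coprime_primes hq (by norm_num)).mpr hqℓ
  rcases check13 q (by omega) with h | h | h | h
  · exact absurd hq (not_prime_of_small_factor (by decide) h)
  · exact absurd hq.two_le (by omega)
  · simp only [List.mem_cons, List.not_mem_nil, or_false] at h
    rcases h with rfl | rfl | rfl | rfl | rfl | rfl
    · exact absurd rfl hqℓ
    · right
      have ho : orderOf ((3 : ℕ) : ZMod 13) = 3 :=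
        orderOf_eq_prime (by decide) (by decide)
      rw [ho]
      exact exists_norm_13_27 K
    · right
      have ho : orderOf ((53 : ℕ) : ZMod 13) = 1 := orderOf_eq_one_iff.mpr (by decide)
      rw [ho, pow_one]
      exact exists_norm_13_53 K
    · right
      have ho : orderOf ((79 : ℕ) : ZMod 13) = 1 := orderOf_eq_one_iff.mpr (by decide)
      rw [ho, pow_one]
      exact exists_norm_13_79 K
    · right
      have ho : orderOf ((131 : ℕ) : ZMod 13) = 1 := orderOf_eq_one_iff.mpr (by decide)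
      rw [ho, pow_one]
      exact exists_norm_13_131 K
    · right
      have ho : orderOf ((157 : ℕ) : ZMod 13) = 1 := orderOf_eq_one_iff.mpr (by decide)
      rw [ho, pow_one]
      exact exists_norm_13_157 K
  · exact Or.inl (lt_pow_orderOf (by norm_num) hq.two_le hcop (by norm_num) h)

end Fermat.Agent.FLTSmall
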