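import Mathlib

/-!
# Tools for proving that `ℤ[ζ_p]` is a PID for small `p`
-/

namespace Fermat.Agent.FLTSmall

open NumberField Polynomial Ideal

/-- A principal prime above `q` in `ℤ[ζ_p]`, from explicit cofactor identities. -/
theorem exists_isPrincipal_primesOver {p : ℕ} [NeZero p] (K : Type*) [Field K] [NumberField K]
    [IsCyclotomicExtension {p} ℚ K] {ζ : K} (hζ : IsPrimitiveRoot ζ p) (q : ℕ) [Fact q.Prime]
    (Q : ℤ[X])
    (hirr : Irreducible (Q.map (Int.castRingHom (ZMod q))))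
    (hmon : (Q.map (Int.castRingHom (ZMod q))).Monic)
    (hdvd : Q.map (Int.castRingHom (ZMod q)) ∣ cyclotomic p (ZMod q))
    (α β γ a b : 𝓞 K)
    (h1 : α * β = q) (h2 : α * γ = aeval hζ.toInteger Q)
    (h3 : α = q * a + aeval hζ.toInteger Q * b) :
    ∃ P ∈ primesOver (span {(q : ℤ)}) (𝓞 K), Submodule.IsPrincipal P := by
  have hexp : ¬ q ∣ RingOfIntegers.exponent hζ.toInteger := by
    rw [RingOfIntegers.exponent_eq_one_iff.mpr <|
      IsCyclotomicExtension.Rat.adjoin_singleton_eq_top hζ]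
    exact (Fact.out : q.Prime).not_dvd_one
  have hmin : minpoly ℤ hζ.toInteger = cyclotomic p ℤ := by
    rw [cyclotomic_eq_minpoly hζ (NeZero.pos p)]
    exact (NumberField.RingOfIntegers.minpoly_coe _).symm
  have hQ : Q.map (Int.castRingHom (ZMod q)) ∈ RingOfIntegers.monicFactorsMod hζ.toInteger q := by
    rw [Multiset.mem_toFinset, Polynomial.mem_normalizedFactors_iff
      (map_monic_ne_zero (minpoly.monic hζ.toInteger.isIntegral))]
    refine ⟨hirr, hmon, ?_⟩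
    rw [hmin, map_cyclotomic_int]
    exact hdvd
  refine ⟨span {(q : 𝓞 K), aeval hζ.toInteger Q}, ?_, ?_⟩
  · rw [← NumberField.Ideal.primesOverSpanEquivMonicFactorsMod_symm_apply_eq_span hexp hQ]
    exact ((NumberField.Ideal.primesOverSpanEquivMonicFactorsMod hexp).symm ⟨_, hQ⟩).prop
  · refine ⟨α, le_antisymm ?_ ?_⟩
    · rw [Ideal.span_le]
      rintro x (rfl | rfl)
      · exact Ideal.mem_span_singleton.mpr ⟨β, h1.symm⟩
      · exact Ideal.mem_span_singleton.mpr ⟨γ, h2.symm⟩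
    · rw [Ideal.submodule_span_eq, Ideal.span_le, Set.singleton_subset_iff, h3]
      exact Ideal.add_mem _ (Ideal.mul_mem_right _ _ (Ideal.subset_span (by simp)))
        (Ideal.mul_mem_right _ _ (Ideal.subset_span (by simp)))

/-- The prime above `p` in `ℤ[ζ_p]` is principal. -/
theorem exists_isPrincipal_primesOver_self (p : ℕ) [Fact p.Prime] (K : Type*) [Field K]
    [NumberField K] [IsCyclotomicExtension {p} ℚ K] :
    ∃ P ∈ primesOver (span {(p : ℤ)}) (𝓞 K), Submodule.IsPrincipal P := by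
  have hζ := IsCyclotomicExtension.zeta_spec p ℚ K
  obtain ⟨⟨P, hP1, hP2⟩⟩ := (span {(p : ℤ)}).nonempty_primesOver (S := 𝓞 K)
  refine ⟨P, ⟨hP1, hP2⟩, ?_⟩
  rw [IsCyclotomicExtension.Rat.eq_span_zeta_sub_one_of_liesOver' p K hζ P]
  exact ⟨_, rfl⟩

/-- A prime above `q ≠ p` has norm `q ^ orderOf q`. -/
theorem exists_primesOver_lt (p : ℕ) [NeZero p] (K : Type*) [Field K]
    [NumberField K] [IsCyclotomicExtension {p} ℚ K] (q : ℕ) [Fact q.Prime] (hq : ¬ q ∣ p)
    (B : ℕ) (hB : B < q ^ orderOf (q : ZMod p)) :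
    ∃ P ∈ primesOver (span {(q : ℤ)}) (𝓞 K), B < q ^ P.inertiaDeg ℤ := by
  obtain ⟨⟨P, hP1, hP2⟩⟩ := (span {(q : ℤ)}).nonempty_primesOver (S := 𝓞 K)
  refine ⟨P, ⟨hP1, hP2⟩, ?_⟩
  rwa [IsCyclotomicExtension.Rat.inertiaDeg_eq_of_not_dvd q K P hq]

open Real Nat in
/-- The Minkowski bound of `ℚ(ζ_p)`. -/
theorem minkowski_eq (p : ℕ) [Fact p.Prime] (K : Type*) [Field K]
    [NumberField K] [IsCyclotomicExtension {p} ℚ K] :
    (4 / π) ^ InfinitePlace.nrComplexPlaces K *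
      ((Module.finrank ℚ K)! / (Module.finrank ℚ K) ^ (Module.finrank ℚ K) * √|discr K|) =
    (4 / π) ^ ((p - 1) / 2) * ((p - 1)! / ((p - 1 : ℕ) : ℝ) ^ (p - 1) * √((p : ℝ) ^ (p - 2))) := by
  have : NeZero p := ⟨(Fact.out : p.Prime).ne_zero⟩
  rw [IsCyclotomicExtension.Rat.discr_prime p K, IsCyclotomicExtension.Rat.finrank p K,
    IsCyclotomicExtension.Rat.nrComplexPlaces_eq_totient_div_two p, totient_prime Fact.out]
  congr 3
  push_cast
  rw [abs_mul, abs_pow, abs_neg, abs_one, one_pow, one_mul]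
  simp

/-- The Galois form of the Minkowski criterion with an explicit upper bound `B`. -/
theorem isPrincipalIdealRing_of_bound (p : ℕ) [Fact p.Prime] (K : Type*) [Field K]
    [NumberField K] [IsCyclotomicExtension {p} ℚ K] (B : ℕ)
    (hB : (4 / Real.pi) ^ ((p - 1) / 2) *
      (((p - 1).factorial : ℝ) / ((p - 1 : ℕ) : ℝ) ^ (p - 1) * √((p : ℝ) ^ (p - 2))) < B + 1)
    (h : ∀ q ∈ Finset.Icc 1 B, q.Prime →
      ∃ P ∈ primesOver (span {(q : ℤ)}) (𝓞 K), B < q ^ P.inertiaDeg ℤ ∨ Submodule.IsPrincipal P) :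
    IsPrincipalIdealRing (𝓞 K) := by
  have : IsGalois ℚ K := IsCyclotomicExtension.isGalois {p} ℚ K
  have hfl : ⌊(4 / Real.pi) ^ InfinitePlace.nrComplexPlaces K *
      (((Module.finrank ℚ K).factorial : ℝ) / (Module.finrank ℚ K) ^ (Module.finrank ℚ K) *
        √|(discr K : ℝ)|)⌋₊ ≤ B := by
    rw [minkowski_eq p K]
    exact Nat.lt_succ_iff.mp ((Nat.floor_lt (by positivity)).mpr (by exact_mod_cast hB))
  refine RingOfIntegers.isPrincipalIdealRing_of_isPrincipal_of_lt_or_isPrincipal_of_mem_primesOver_of_mem_Icc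
    fun q hq hqp => ?_
  rw [Finset.mem_Icc] at hq
  obtain ⟨P, hP, hP'⟩ := h q (Finset.mem_Icc.mpr ⟨hq.1, hq.2.trans hfl⟩) hqp
  exact ⟨P, hP, hP'.imp (fun h => lt_of_le_of_lt hfl h) id⟩

end Fermat.Agent.FLTSmall
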