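-- Sophie Germain's theorem: case I of Fermat's Last Theorem, with an auxiliary prime.
import Mathlib

set_option autoImplicit false

namespace Fermat.Agent.FLTSmall

open Finset

/-- The cofactor `(y^p + z^p)/(y+z)`. -/
def cofac {R : Type*} [CommRing R] (p : ℕ) (y z : R) : R :=
  ∑ i ∈ range p, y ^ i * (-z) ^ (p - 1 - i)

theorem cofac_mul {R : Type*} [CommRing R] {p : ℕ} (hp : Odd p) (y z : R) :
    cofac p y z * (y + z) = y ^ p + z ^ p := by
  have h := geom_sum₂_mul y (-z) p
  rw [hp.neg_pow, sub_neg_eq_add, sub_neg_eq_add] at h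
  exact h

theorem map_cofac {R S : Type*} [CommRing R] [CommRing S] (f : R →+* S) (p : ℕ) (y z : R) :
    f (cofac p y z) = cofac p (f y) (f z) := by
  simp [cofac, map_sum]

/-- Both factors of `y^p + z^p` are `p`-th powers in case I. -/
theorem exists_pow_of_caseI {p : ℕ} (hp : p.Prime) (hodd : Odd p) {x y z : ℤ}
    (H : x ^ p + y ^ p + z ^ p = 0) (hyz : IsCoprime y z) (hpx : ¬ (p : ℤ) ∣ x) :
    (∃ a : ℤ, y + z = a ^ p) ∧ ∃ α : ℤ, cofac p y z = α ^ p := by
  have hfac : cofac p y z * (y + z) = (-x) ^ p := by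
    rw [cofac_mul hodd, hodd.neg_pow]; linarith
  have hx0 : x ≠ 0 := by
    rintro rfl
    exact hpx (dvd_zero _)
  have hcop : IsCoprime (cofac p y z) (y + z) := by
    apply isCoprime_of_prime_dvd
    · rintro ⟨h1, -⟩
      rw [h1, zero_mul] at hfac
      exact hx0 (neg_eq_zero.1 (pow_eq_zero_iff hp.ne_zero |>.1 hfac.symm))
    · intro r hr h1 h2
      have h2' : r ∣ y - (-z) := by rwa [sub_neg_eq_add]
      have h3 : r ∣ (p : ℤ) * (-z) ^ (p - 1) := (dvd_geom_sum₂_iff_of_dvd_sub h2').1 h1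
      rcases hr.dvd_or_dvd h3 with h4 | h4
      · -- r ∣ p, so p ∣ x
        have hpp : Prime (p : ℤ) := Nat.prime_iff_prime_int.1 hp
        have hassoc : Associated r (p : ℤ) := hr.associated_of_dvd hpp h4
        have hrx : r ∣ (-x) ^ p := by
          rw [← hfac]; exact Dvd.dvd.mul_left h2 _
        have hrx' : r ∣ x := by
          have := hr.dvd_of_dvd_pow hrx
          rwa [dvd_neg] at this
        exact hpx (hassoc.symm.dvd.trans hrx')
      · have hrz : r ∣ z := by
          have := hr.dvd_of_dvd_pow h4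
          rwa [dvd_neg] at this
        have hry : r ∣ y := by
          have := dvd_sub h2 hrz
          rwa [add_sub_cancel_right] at this
        exact hr.not_isUnit (hyz.isUnit_of_dvd' hry hrz)
  obtain ⟨h1, h2⟩ := Int.eq_pow_of_mul_eq_pow_odd hcop hodd hfac
  exact ⟨h2, h1⟩

/-- The core of Sophie Germain's argument, when the auxiliary prime divides `x`. -/
theorem sophie_aux {p q : ℕ} (hp : p.Prime) (hodd : Odd p) [Fact q.Prime]
    (h1 : ∀ x y z : ZMod q, x ^ p + y ^ p + z ^ p = 0 → x = 0 ∨ y = 0 ∨ z = 0)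
    (h2 : ∀ x : ZMod q, x ^ p ≠ (p : ZMod q)) {x y z : ℤ}
    (H : x ^ p + y ^ p + z ^ p = 0) (hxy : IsCoprime x y) (hyz : IsCoprime y z)
    (hzx : IsCoprime z x) (hpx : ¬ (p : ℤ) ∣ x) (hpy : ¬ (p : ℤ) ∣ y) (hpz : ¬ (p : ℤ) ∣ z)
    (hqx : (x : ZMod q) = 0) : False := by
  have hq : q.Prime := Fact.out
  obtain ⟨⟨a, ha⟩, ⟨α, hα⟩⟩ := exists_pow_of_caseI hp hodd H hyz hpx
  obtain ⟨⟨b, hb⟩, -⟩ := exists_pow_of_caseI hp hodd (x := y) (y := z) (z := x)
    (by linarith) hzx hpy
  obtain ⟨⟨c, hc⟩, ⟨γ, hγ⟩⟩ := exists_pow_of_caseI hp hodd (x := z) (y := x) (z := y)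
    (by linarith) hxy hpz
  -- no two of x, y, z vanish mod q
  have hnot : ∀ u v : ℤ, IsCoprime u v → (u : ZMod q) = 0 → (v : ZMod q) = 0 → False := by
    intro u v huv hu hv
    rw [ZMod.intCast_zmod_eq_zero_iff_dvd] at hu hv
    have := huv.isUnit_of_dvd' hu hv
    rw [Int.isUnit_iff] at this
    have h2 := hq.two_le
    omega
  have hy0 : (y : ZMod q) ≠ 0 := fun h => hnot x y hxy hqx h
  have hz0 : (z : ZMod q) ≠ 0 := fun h => hnot z x hzx h hqx
  have ha' : (y : ZMod q) + z = (a : ZMod q) ^ p := by exact_mod_cast congrArg (Int.cast : ℤ → ZMod q) ha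
  have hb' : (z : ZMod q) + x = (b : ZMod q) ^ p := by exact_mod_cast congrArg (Int.cast : ℤ → ZMod q) hb
  have hc' : (x : ZMod q) + y = (c : ZMod q) ^ p := by exact_mod_cast congrArg (Int.cast : ℤ → ZMod q) hc
  have hsum : (b : ZMod q) ^ p + (c : ZMod q) ^ p + (-(a : ZMod q)) ^ p = 0 := by
    rw [hodd.neg_pow, ← ha', ← hb', ← hc', hqx]; ring
  rcases h1 _ _ _ hsum with hb0 | hc0 | ha0
  · rw [hb0, zero_pow hp.ne_zero, hqx, add_zero] at hb'
    exact hz0 hb'
  · rw [hc0, zero_pow hp.ne_zero, hqx, zero_add] at hc'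
    exact hy0 hc'
  · rw [neg_eq_zero] at ha0
    rw [ha0, zero_pow hp.ne_zero] at ha'
    have hzy : (z : ZMod q) = -y := by linear_combination ha'
    -- α^p = p y^(p-1)
    have hα' : (α : ZMod q) ^ p = (p : ZMod q) * (y : ZMod q) ^ (p - 1) := by
      have := congrArg (Int.castRingHom (ZMod q)) hα
      rw [map_cofac, map_pow] at this
      simp only [eq_intCast] at this
      rw [← this, hzy, cofac, neg_neg, geom_sum₂_self]
    -- γ^p = y^(p-1)
    have hγ' : (γ : ZMod q) ^ p = (y : ZMod q) ^ (p - 1) := by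
      have h3 := congrArg (Int.castRingHom (ZMod q)) hγ
      rw [map_cofac, map_pow] at h3
      simp only [eq_intCast] at h3
      have h4 := cofac_mul hodd (x : ZMod q) (y : ZMod q)
      rw [h3, hqx, zero_add, zero_pow hp.ne_zero, zero_add] at h4
      have h5 : (y : ZMod q) ^ p = (y : ZMod q) ^ (p - 1) * y := by
        rw [← pow_succ, Nat.sub_add_cancel hp.one_le]
      rw [h5] at h4
      exact mul_right_cancel₀ hy0 h4
    have hγ0 : (γ : ZMod q) ≠ 0 := by
      intro h
      rw [h, zero_pow hp.ne_zero] at hγ'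
      exact pow_ne_zero _ hy0 hγ'.symm
    apply h2 ((α : ZMod q) / γ)
    rw [div_pow, hα', hγ', mul_div_assoc, div_self (pow_ne_zero _ hy0), mul_one]

/-- **Sophie Germain's theorem** (symmetric form). -/
theorem sophie_germain_symm {p q : ℕ} (hp : p.Prime) (hodd : Odd p) [Fact q.Prime]
    (h1 : ∀ x y z : ZMod q, x ^ p + y ^ p + z ^ p = 0 → x = 0 ∨ y = 0 ∨ z = 0)
    (h2 : ∀ x : ZMod q, x ^ p ≠ (p : ZMod q)) {x y z : ℤ}
    (H : x ^ p + y ^ p + z ^ p = 0) (hxy : IsCoprime x y) (hyz : IsCoprime y z)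
    (hzx : IsCoprime z x) : (p : ℤ) ∣ x ∨ (p : ℤ) ∣ y ∨ (p : ℤ) ∣ z := by
  by_contra hcon
  push Not at hcon
  obtain ⟨hpx, hpy, hpz⟩ := hcon
  have Hq : (x : ZMod q) ^ p + (y : ZMod q) ^ p + (z : ZMod q) ^ p = 0 := by
    exact_mod_cast congrArg (Int.cast : ℤ → ZMod q) H
  rcases h1 _ _ _ Hq with h | h | h
  · exact sophie_aux hp hodd h1 h2 H hxy hyz hzx hpx hpy hpz h
  · exact sophie_aux hp hodd h1 h2 (x := y) (y := z) (z := x) (by linarith) hyz hzx hxy hpy hpz hpx h
  · exact sophie_aux hp hodd h1 h2 (x := z) (y := x) (z := y) (by linarith) hzx hxy hyz hpz hpx hpy h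

/-- **Sophie Germain's theorem**: in a coprime solution of `a^p + b^p = c^p`, `p ∣ abc`. -/
theorem sophie_germain {p q : ℕ} (hp : p.Prime) (hodd : Odd p) [Fact q.Prime]
    (h1 : ∀ x y z : ZMod q, x ^ p + y ^ p + z ^ p = 0 → x = 0 ∨ y = 0 ∨ z = 0)
    (h2 : ∀ x : ZMod q, x ^ p ≠ (p : ZMod q)) {a b c : ℤ}
    (H : a ^ p + b ^ p = c ^ p) (hab : IsCoprime a b) : (p : ℤ) ∣ a * b * c := by
  have H' : a ^ p + b ^ p + (-c) ^ p = 0 := by rw [hodd.neg_pow, H]; ring
  -- coprimality of the other pairs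
  have hcop : ∀ u v w : ℤ, u ^ p + v ^ p + w ^ p = 0 → IsCoprime u v → IsCoprime v w := by
    intro u v w h huv
    apply isCoprime_of_prime_dvd
    · rintro ⟨rfl, rfl⟩
      rw [zero_pow hp.ne_zero, add_zero, add_zero] at h
      have hu : u = 0 := (pow_eq_zero_iff hp.ne_zero).1 h
      rw [hu] at huv
      exact not_isCoprime_zero_zero huv
    · intro r hr hv hw
      have hu : r ∣ u ^ p := by
        have : u ^ p = -(v ^ p + w ^ p) := by linarith
        rw [this, dvd_neg]
        exact dvd_add (dvd_pow hv hp.ne_zero) (dvd_pow hw hp.ne_zero)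
      exact hr.not_isUnit (huv.isUnit_of_dvd' (hr.dvd_of_dvd_pow hu) hv)
  have hbc : IsCoprime b (-c) := hcop a b (-c) H' hab
  have hca : IsCoprime (-c) a := hcop b (-c) a (by linarith) hbc
  rcases sophie_germain_symm hp hodd h1 h2 H' hab hbc hca with h | h | h
  · exact Dvd.dvd.mul_right (Dvd.dvd.mul_right h _) _
  · exact Dvd.dvd.mul_right (Dvd.dvd.mul_left h _) _
  · exact Dvd.dvd.mul_left ((dvd_neg).1 h) _

/-! ### The four small exponents -/

instance fact_prime_11 : Fact (Nat.Prime 11) := ⟨by norm_num⟩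
instance fact_prime_23 : Fact (Nat.Prime 23) := ⟨by norm_num⟩
instance fact_prime_29 : Fact (Nat.Prime 29) := ⟨by norm_num⟩
instance fact_prime_53 : Fact (Nat.Prime 53) := ⟨by norm_num⟩

theorem pow5_mod11 : ∀ x : ZMod 11, x = 0 ∨ x ^ 5 = 1 ∨ x ^ 5 = -1 := by decide
theorem pow11_mod23 : ∀ x : ZMod 23, x = 0 ∨ x ^ 11 = 1 ∨ x ^ 11 = -1 := by decide
theorem pow7_mod29 : ∀ x : ZMod 29, x = 0 ∨ x ^ 7 = 1 ∨ x ^ 7 = -1 ∨ x ^ 7 = 12 ∨ x ^ 7 = -12 := by
  decide
theorem pow13_mod53 :
    ∀ x : ZMod 53, x = 0 ∨ x ^ 13 = 1 ∨ x ^ 13 = -1 ∨ x ^ 13 = 23 ∨ x ^ 13 = -23 := by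
  decide

/-- Case I for `p = 5`. -/
theorem caseI_five {a b c : ℤ} (H : a ^ 5 + b ^ 5 = c ^ 5) (hab : IsCoprime a b) :
    (5 : ℤ) ∣ a * b * c := by
  refine sophie_germain (p := 5) (q := 11) (by norm_num) (by decide) ?_ ?_ H hab
  · intro x y z h
    by_contra hcon
    push Not at hcon
    obtain ⟨hx, hy, hz⟩ := hcon
    rcases (pow5_mod11 x).resolve_left hx with hx | hx <;>
    rcases (pow5_mod11 y).resolve_left hy with hy | hy <;>
    rcases (pow5_mod11 z).resolve_left hz with hz | hz <;>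
    · rw [hx, hy, hz] at h
      revert h
      decide
  · intro x h
    rcases pow5_mod11 x with hx | hx | hx
    · rw [hx] at h; revert h; decide
    · rw [hx] at h; revert h; decide
    · rw [hx] at h; revert h; decide

/-- Case I for `p = 11`. -/
theorem caseI_eleven {a b c : ℤ} (H : a ^ 11 + b ^ 11 = c ^ 11) (hab : IsCoprime a b) :
    (11 : ℤ) ∣ a * b * c := by
  refine sophie_germain (p := 11) (q := 23) (by norm_num) (by decide) ?_ ?_ H hab
  · intro x y z h
    by_contra hcon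
    push Not at hcon
    obtain ⟨hx, hy, hz⟩ := hcon
    rcases (pow11_mod23 x).resolve_left hx with hx | hx <;>
    rcases (pow11_mod23 y).resolve_left hy with hy | hy <;>
    rcases (pow11_mod23 z).resolve_left hz with hz | hz <;>
    · rw [hx, hy, hz] at h
      revert h
      decide
  · intro x h
    rcases pow11_mod23 x with hx | hx | hx
    · rw [hx] at h; revert h; decide
    · rw [hx] at h; revert h; decide
    · rw [hx] at h; revert h; decide

/-- Case I for `p = 7`. -/
theorem caseI_seven {a b c : ℤ} (H : a ^ 7 + b ^ 7 = c ^ 7) (hab : IsCoprime a b) :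
    (7 : ℤ) ∣ a * b * c := by
  refine sophie_germain (p := 7) (q := 29) (by norm_num) (by decide) ?_ ?_ H hab
  · intro x y z h
    by_contra hcon
    push Not at hcon
    obtain ⟨hx, hy, hz⟩ := hcon
    rcases (pow7_mod29 x).resolve_left hx with hx | hx | hx | hx <;>
    rcases (pow7_mod29 y).resolve_left hy with hy | hy | hy | hy <;>
    rcases (pow7_mod29 z).resolve_left hz with hz | hz | hz | hz <;>
    · rw [hx, hy, hz] at h
      revert h
      decide
  · intro x h
    rcases pow7_mod29 x with hx | hx | hx | hx | hx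
    · rw [hx] at h; revert h; decide
    · rw [hx] at h; revert h; decide
    · rw [hx] at h; revert h; decide
    · rw [hx] at h; revert h; decide
    · rw [hx] at h; revert h; decide

/-- Case I for `p = 13`. -/
theorem caseI_thirteen {a b c : ℤ} (H : a ^ 13 + b ^ 13 = c ^ 13) (hab : IsCoprime a b) :
    (13 : ℤ) ∣ a * b * c := by
  refine sophie_germain (p := 13) (q := 53) (by norm_num) (by decide) ?_ ?_ H hab
  · intro x y z h
    by_contra hcon
    push Not at hcon
    obtain ⟨hx, hy, hz⟩ := hcon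
    rcases (pow13_mod53 x).resolve_left hx with hx | hx | hx | hx <;>
    rcases (pow13_mod53 y).resolve_left hy with hy | hy | hy | hy <;>
    rcases (pow13_mod53 z).resolve_left hz with hz | hz | hz | hz <;>
    · rw [hx, hy, hz] at h
      revert h
      decide
  · intro x h
    rcases pow13_mod53 x with hx | hx | hx | hx | hx
    · rw [hx] at h; revert h; decide
    · rw [hx] at h; revert h; decide
    · rw [hx] at h; revert h; decide
    · rw [hx] at h; revert h; decide
    · rw [hx] at h; revert h; decide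

/-- Case I for the four small exponents, uniformly. -/
theorem caseI_small {p : ℕ} (hp : p = 5 ∨ p = 7 ∨ p = 11 ∨ p = 13) {a b c : ℤ}
    (H : a ^ p + b ^ p = c ^ p) (hab : IsCoprime a b) : (p : ℤ) ∣ a * b * c := by
  rcases hp with rfl | rfl | rfl | rfl
  · exact caseI_five H hab
  · exact caseI_seven H hab
  · exact caseI_eleven H hab
  · exact caseI_thirteen H hab

end Fermat.Agent.FLTSmall
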